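/-
PROJECT R (S43, row 37), block `Local`, file `Params` (helper6): THE PARAMETERS OF THE LOCAL MODEL
FROM THE COEFFICIENT RING.

`O` a discrete valuation ring in which `p ∈ 𝔪`, `p` odd.  The hypotheses of
`Local/ToPatch(J).exists_point` on `(π, e, d, q)` :
`Prime π`, `𝔪 = (π)`, `IsUnit 2`, `e i = d i ^ 2`, `π ∣ d i`, `π ∣ e i`, `e i ∣ π ^ N`, `π ∣ q i - 1`
hold for `d i = u i - (u i)⁻¹`, `u i` a unit of `p`-power order with `u i ^ 2 ≠ 1` (the value of the
nebentypus at a generator), and `q i = ℓ i` with `ℓ i ≡ 1 mod p`.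
-/
import Mathlib

set_option autoImplicit false

noncomputable section

namespace Fermat.Agent.S43.Local.Params

open IsLocalRing

variable {O : Type*} [CommRing O] [IsDomain O] [IsDiscreteValuationRing O]

/-- a uniformizer : prime, and generating the maximal ideal. -/
theorem exists_uniformizer (O : Type*) [CommRing O] [IsDomain O] [IsDiscreteValuationRing O] :
    ∃ π : O, Prime π ∧ maximalIdeal O = Ideal.span {π} := by
  obtain ⟨π, hπ⟩ := IsDiscreteValuationRing.exists_irreducible O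
  exact ⟨π, hπ.prime, hπ.maximalIdeal_eq⟩

theorem irreducible_of_span {π : O} (hπO : maximalIdeal O = Ideal.span {π}) : Irreducible π :=
  (IsDiscreteValuationRing.irreducible_iff_uniformizer π).mpr hπO

theorem dvd_iff_mem {π : O} (hπO : maximalIdeal O = Ideal.span {π}) (x : O) :
    π ∣ x ↔ x ∈ maximalIdeal O := by
  rw [hπO, Ideal.mem_span_singleton]

/-- every nonzero element divides a power of the uniformizer. -/
theorem exists_dvd_pow {π : O} (hπO : maximalIdeal O = Ideal.span {π}) {x : O} (hx : x ≠ 0) :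
    ∃ N : ℕ, x ∣ π ^ N := by
  obtain ⟨n, u, hu⟩ :=
    IsDiscreteValuationRing.eq_unit_mul_pow_irreducible hx (irreducible_of_span hπO)
  refine ⟨n, ⟨(↑u⁻¹ : O), ?_⟩⟩
  rw [hu, mul_comm (u : O), mul_assoc, Units.mul_inv, mul_one]

section Odd

variable {p : ℕ} [hp : Fact p.Prime]

omit [IsDomain O] [IsDiscreteValuationRing O] in
/-- `2` is a unit when the residue characteristic is odd. -/
theorem isUnit_two [IsLocalRing O] (hp2 : p ≠ 2) (hpm : (p : O) ∈ maximalIdeal O) :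
    IsUnit (2 : O) := by
  by_contra h2
  have h2m : (2 : O) ∈ maximalIdeal O := (mem_maximalIdeal _).mpr h2
  have hcop : Nat.Coprime 2 p := (Nat.coprime_primes Nat.prime_two hp.out).mpr (Ne.symm hp2)
  have h1 : ((Nat.gcd 2 p : ℕ) : ℤ) = 2 * Nat.gcdA 2 p + p * Nat.gcdB 2 p := Nat.gcd_eq_gcd_ab 2 p
  rw [hcop] at h1
  have h3 : (1 : O) = 2 * ((Nat.gcdA 2 p : ℤ) : O) + (p : O) * ((Nat.gcdB 2 p : ℤ) : O) := by
    have := congrArg (Int.cast : ℤ → O) h1
    push_cast at this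
    exact this
  have h4 : (1 : O) ∈ maximalIdeal O := by
    rw [h3]
    exact Ideal.add_mem _ (Ideal.mul_mem_right _ _ h2m) (Ideal.mul_mem_right _ _ hpm)
  exact (Ideal.ne_top_iff_one _).mp (IsLocalRing.maximalIdeal.isMaximal O).ne_top h4

omit [IsDomain O] [IsDiscreteValuationRing O] in
/-- a unit of `p`-power order is `≡ 1` modulo the maximal ideal. -/
theorem sub_one_mem [IsLocalRing O] (hpm : (p : O) ∈ maximalIdeal O) {u : O} {n : ℕ}
    (h : u ^ p ^ n = 1) : u - 1 ∈ maximalIdeal O := by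
  have hchar : CharP (ResidueField O) p := by
    refine (CharP.charP_iff_prime_eq_zero hp.out).mpr ?_
    have := (residue_eq_zero_iff (p : O)).mpr hpm
    rwa [map_natCast] at this
  rw [← residue_eq_zero_iff, map_sub, map_one]
  have h1 : (residue O u - 1) ^ p ^ n = 0 := by
    rw [sub_pow_char_pow, one_pow, ← map_pow, h, map_one, sub_self]
  exact (pow_eq_zero_iff (pow_ne_zero n hp.out.ne_zero)).mp h1

omit [IsDomain O] [IsDiscreteValuationRing O] in
/-- `ℓ ≡ 1 mod p` gives `ℓ - 1 ∈ 𝔪`. -/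
theorem natCast_sub_one_mem [IsLocalRing O] (hpm : (p : O) ∈ maximalIdeal O) {ℓ : ℕ}
    (hℓ : (ℓ : ZMod p) = 1) : (ℓ : O) - 1 ∈ maximalIdeal O := by
  have h1 : ((ℓ : ℤ) : ZMod p) = ((1 : ℤ) : ZMod p) := by push_cast; exact hℓ
  rw [ZMod.intCast_eq_intCast_iff_dvd_sub] at h1
  obtain ⟨c, hc⟩ := h1
  have h2 : (ℓ : O) - 1 = -((p : O) * (c : O)) := by
    have := congrArg (Int.cast : ℤ → O) hc
    push_cast at this
    rw [← this]
    ring
  rw [h2]
  exact neg_mem (Ideal.mul_mem_right _ _ hpm)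

/-- the `χ`-parameter of a unit `u` : `d = u - u⁻¹`. -/
def dOf (u : Oˣ) : O := (u : O) - ((u⁻¹ : Oˣ) : O)

omit [IsDomain O] [IsDiscreteValuationRing O] in
theorem dOf_eq (u : Oˣ) : dOf u = ((u⁻¹ : Oˣ) : O) * ((u : O) - 1) * ((u : O) + 1) := by
  have h : ((u⁻¹ : Oˣ) : O) * (u : O) = 1 := Units.inv_mul u
  unfold dOf
  linear_combination (-(u : O)) * h

omit [IsDomain O] [IsDiscreteValuationRing O] in
theorem dOf_mem [IsLocalRing O] (hpm : (p : O) ∈ maximalIdeal O) {u : Oˣ} {n : ℕ}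
    (h : u ^ p ^ n = 1) : dOf u ∈ maximalIdeal O := by
  rw [dOf_eq]
  have h1 : (u : O) ^ p ^ n = 1 := by rw [← Units.val_pow_eq_pow_val, h, Units.val_one]
  exact Ideal.mul_mem_right _ _ (Ideal.mul_mem_left _ _ (sub_one_mem hpm h1))

omit [IsDomain O] [IsDiscreteValuationRing O] in
theorem dOf_ne_zero {u : Oˣ} (h2 : u ^ 2 ≠ 1) : dOf u ≠ 0 := by
  intro h
  apply h2
  have h1 : (u : O) = ((u⁻¹ : Oˣ) : O) := sub_eq_zero.mp h
  have h3 : u = u⁻¹ := Units.ext h1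
  rw [pow_two]
  nth_rewrite 2 [h3]
  exact mul_inv_cancel u

/-- **the hypotheses of `ToPatch(J).exists_point` on the parameters**, for `d i = u i - (u i)⁻¹`,
`e i = d i ^ 2`, `q i = ℓ i`. -/
theorem params {ι : Type*} (hp2 : p ≠ 2) (hpm : (p : O) ∈ maximalIdeal O) {π : O}
    (hπO : maximalIdeal O = Ideal.span {π}) (u : ι → Oˣ) (n : ι → ℕ)
    (hu : ∀ i, u i ^ p ^ n i = 1) (hu2 : ∀ i, u i ^ 2 ≠ 1) (ℓ : ι → ℕ)
    (hℓ : ∀ i, ((ℓ i : ℕ) : ZMod p) = 1) :
    Prime π ∧ IsUnit (2 : O) ∧ (∀ i, π ∣ dOf (u i)) ∧ (∀ i, π ∣ dOf (u i) ^ 2) ∧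
      (∀ i, ∃ N : ℕ, dOf (u i) ^ 2 ∣ π ^ N) ∧ (∀ i, π ∣ ((ℓ i : ℕ) : O) - 1) := by
  refine ⟨(irreducible_of_span hπO).prime, isUnit_two hp2 hpm, fun i => ?_, fun i => ?_,
    fun i => ?_, fun i => ?_⟩
  · exact (dvd_iff_mem hπO _).mpr (dOf_mem hpm (hu i))
  · exact dvd_pow ((dvd_iff_mem hπO _).mpr (dOf_mem hpm (hu i))) two_ne_zero
  · exact exists_dvd_pow hπO (pow_ne_zero 2 (dOf_ne_zero (hu2 i)))
  · exact (dvd_iff_mem hπO _).mpr (natCast_sub_one_mem hpm (hℓ i))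

end Odd

end Fermat.Agent.S43.Local.Params
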