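/-
PROJECT R (S43, row 37), block `Local` (local algebra at the stuck primes), file `Model` (helper6).

THE MODEL: one power series ring for `k` stuck primes at once, in CAYLEY coordinates.

* `ι` = the stuck primes, `κ` = extra (global) variables.
* `Var ι κ = (ι × Fin 3) ⊕ ((ι × Fin 3) ⊕ κ)`; `P O ι κ = MvPowerSeries (Var ι κ) O`.
* `sg i 0, sg i 1, sg i 2` = `w_i, f_i, g_i` : the traceless part `B0 i = !![w, f; g, -w]` of the
  image `Σ_i = C τ_i + B0 i` of a tame generator (`τ_i ^ 2 = 1 + e_i`).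
* `ph i 0, ph i 1, ph i 2` = `u_i, b_i, c_i` : the Cayley coordinates `A0 i = !![u, b; c, -u]` of
  the Frobenius, `Φ_i = C s_i * (1 - n_i)⁻¹ • ((1 + n_i) + 2 • A0 i)`, `n_i = u ^ 2 + b * c`
  (so `det Φ_i = s_i ^ 2` identically and `tr Φ_i = 2 s_i (1 + n_i) / (1 - n_i)`).
* `quad e i = w ^ 2 + f * g - C (e i)` (`det Σ_i = 1`), `relMat q i` = `(1 - n_i) / s_i` times
  `Φ_i * B0 i - q_i • B0 i * Φ_i`.
* `relIdeal e q`: the `χ`-side is `relIdeal (d ^ 2) 1`, the unipotent side is `relIdeal 0 q`.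
* `P0` = the ideal of the `w_i, f_i, g_i`; `gam q i` = `q tr ^ 2 - (1 + q) ^ 2 det` up to a unit.
-/
import Mathlib

set_option autoImplicit false

noncomputable section

namespace Fermat.Agent.S43.Local.Model

open MvPowerSeries

/-- the index type of the variables. -/
abbrev Var (ι κ : Type*) : Type _ := (ι × Fin 3) ⊕ ((ι × Fin 3) ⊕ κ)

/-- the ambient power series ring. -/
abbrev P (O : Type*) [CommRing O] (ι κ : Type*) : Type _ := MvPowerSeries (Var ι κ) O

variable (O : Type*) [CommRing O] {ι : Type*} (κ : Type*)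

/-- the `Σ`-variables `w_i, f_i, g_i` (`j = 0, 1, 2`). -/
def sg (i : ι) (j : Fin 3) : P O ι κ := X (Sum.inl (i, j))

/-- the `Φ`-variables `u_i, b_i, c_i` (`j = 0, 1, 2`). -/
def ph (i : ι) (j : Fin 3) : P O ι κ := X (Sum.inr (Sum.inl (i, j)))

/-- the extra variables. -/
def ex (k : κ) : P O ι κ := X (Sum.inr (Sum.inr k))

/-- the traceless part of the image of the tame generator. -/
def B0 (i : ι) : Matrix (Fin 2) (Fin 2) (P O ι κ) :=
  !![sg O κ i 0, sg O κ i 1; sg O κ i 2, -sg O κ i 0]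

/-- the Cayley coordinates of the Frobenius. -/
def A0 (i : ι) : Matrix (Fin 2) (Fin 2) (P O ι κ) :=
  !![ph O κ i 0, ph O κ i 1; ph O κ i 2, -ph O κ i 0]

/-- `n_i = - det (A0 i) = u ^ 2 + b * c`. -/
def nrm (i : ι) : P O ι κ := ph O κ i 0 ^ 2 + ph O κ i 1 * ph O κ i 2

/-- the quadric relation `w ^ 2 + f * g = e_i` (`det Σ_i = 1`). -/
def quad (e : ι → O) (i : ι) : P O ι κ :=
  sg O κ i 0 ^ 2 + sg O κ i 1 * sg O κ i 2 - C (e i)

/-- the commutation relation, `(1 - n) / s` times `Φ * B0 - q • B0 * Φ`. -/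
def relMat (q : ι → O) (i : ι) : Matrix (Fin 2) (Fin 2) (P O ι κ) :=
  ((C (1 - q i) : P O ι κ) * (1 + nrm O κ i)) • B0 O κ i +
    (2 : P O ι κ) • (A0 O κ i * B0 O κ i - (C (q i) : P O ι κ) • (B0 O κ i * A0 O κ i))

/-- the generators of the relation ideal. -/
def relSet (e q : ι → O) : Set (P O ι κ) :=
  Set.range (quad O κ e) ∪
    Set.range (fun x : ι × Fin 2 × Fin 2 => relMat O κ q x.1 x.2.1 x.2.2)

/-- the relation ideal: `relIdeal (d ^ 2) 1` is the `χ`-side, `relIdeal 0 q` the unipotent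
side. -/
def relIdeal (e q : ι → O) : Ideal (P O ι κ) := Ideal.span (relSet O κ e q)

/-- the ideal of the `Σ`-variables (`ρ` unramified at every stuck prime). -/
def P0 : Ideal (P O ι κ) := Ideal.span (Set.range fun x : ι × Fin 3 => sg O κ x.1 x.2)

/-- `q tr(Φ) ^ 2 - (1 + q) ^ 2 det Φ` up to the unit `((1 - n) / s) ^ 2`. -/
def gam (q : ι → O) (i : ι) : P O ι κ :=
  C (4 * q i) * (1 + nrm O κ i) ^ 2 - C ((1 + q i) ^ 2) * (1 - nrm O κ i) ^ 2

/-- the inverse of the unit `1 - n_i`. -/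
def nrmInv (i : ι) : P O ι κ := invOfUnit (1 - nrm O κ i) 1

/-- the universal image of the tame generator, `Σ_i = C τ_i + B0 i` (`τ_i ^ 2 = 1 + e_i`). -/
def SigmaU (τ : ι → O) (i : ι) : Matrix (Fin 2) (Fin 2) (P O ι κ) :=
  (C (τ i) : P O ι κ) • (1 : Matrix (Fin 2) (Fin 2) (P O ι κ)) + B0 O κ i

/-- the universal Frobenius in Cayley coordinates,
`Φ_i = C s_i * (1 - n_i)⁻¹ • ((1 + n_i) + 2 • A0 i)`; `det Φ_i = s_i ^ 2`. -/
def PhiU (s : ι → O) (i : ι) : Matrix (Fin 2) (Fin 2) (P O ι κ) :=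
  ((C (s i) : P O ι κ) * nrmInv O κ i) •
    ((1 + nrm O κ i) • (1 : Matrix (Fin 2) (Fin 2) (P O ι κ)) + (2 : P O ι κ) • A0 O κ i)

variable {O κ}

theorem constantCoeff_nrm (i : ι) : constantCoeff (nrm O κ i) = 0 := by
  simp [nrm, ph]

theorem nrm_mul_nrmInv (i : ι) : (1 - nrm O κ i) * nrmInv O κ i = 1 :=
  mul_invOfUnit _ _ (by simp [constantCoeff_nrm])

theorem quad_mem_relIdeal (e q : ι → O) (i : ι) : quad O κ e i ∈ relIdeal O κ e q :=
  Ideal.subset_span (Or.inl ⟨i, rfl⟩)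

theorem relMat_mem_relIdeal (e q : ι → O) (i : ι) (a b : Fin 2) :
    relMat O κ q i a b ∈ relIdeal O κ e q :=
  Ideal.subset_span (Or.inr ⟨(i, a, b), rfl⟩)

theorem relIdeal_le_iff (e q : ι → O) (K : Ideal (P O ι κ)) :
    relIdeal O κ e q ≤ K ↔
      (∀ i, quad O κ e i ∈ K) ∧ ∀ i a b, relMat O κ q i a b ∈ K := by
  unfold relIdeal relSet
  rw [Ideal.span_le, Set.union_subset_iff]
  constructor
  · rintro ⟨h1, h2⟩
    exact ⟨fun i => h1 ⟨i, rfl⟩, fun i a b => h2 ⟨(i, a, b), rfl⟩⟩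
  · rintro ⟨h1, h2⟩
    refine ⟨?_, ?_⟩
    · rintro _ ⟨i, rfl⟩
      exact h1 i
    · rintro _ ⟨⟨i, a, b⟩, rfl⟩
      exact h2 i a b

section entries

variable (q : ι → O) (i : ι)

local notation "w" => sg O κ i 0
local notation "f" => sg O κ i 1
local notation "g" => sg O κ i 2
local notation "u" => ph O κ i 0
local notation "b" => ph O κ i 1
local notation "c" => ph O κ i 2
local notation "n" => nrm O κ i

theorem relMat_00 : relMat O κ q i 0 0 =
    C (1 - q i) * (1 + n) * w + 2 * ((u * w + b * g) - C (q i) * (w * u + f * c)) := by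
  simp [relMat, A0, B0]

theorem relMat_01 : relMat O κ q i 0 1 =
    C (1 - q i) * (1 + n) * f + 2 * ((u * f - b * w) - C (q i) * (w * b - f * u)) := by
  simp [relMat, A0, B0]
  ring

theorem relMat_10 : relMat O κ q i 1 0 =
    C (1 - q i) * (1 + n) * g + 2 * ((c * w - u * g) - C (q i) * (g * u - w * c)) := by
  simp [relMat, A0, B0]
  ring

theorem relMat_11 : relMat O κ q i 1 1 =
    -(C (1 - q i) * (1 + n) * w) + 2 * ((c * f + u * w) - C (q i) * (g * b + w * u)) := by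
  simp [relMat, A0, B0]

end entries

/-- `2` is a unit of `P` when it is a unit of `O`. -/
theorem isUnit_two (h2 : IsUnit (2 : O)) : IsUnit (2 : P O ι κ) := by
  have : (2 : P O ι κ) = C (2 : O) := (map_ofNat C 2).symm
  rw [this]
  exact h2.map _

/-- on the `χ`-side (`q = 1`) the commutation relations are the `2 × 2` minors of
`(u b c ; w f g)` (`2` a unit). -/
theorem relIdeal_one_le_iff (h2 : IsUnit (2 : O)) (e : ι → O) (K : Ideal (P O ι κ)) :
    relIdeal O κ e 1 ≤ K ↔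
      (∀ i, quad O κ e i ∈ K) ∧
        ∀ i : ι, (ph O κ i 1 * sg O κ i 2 - sg O κ i 1 * ph O κ i 2) ∈ K ∧
          (ph O κ i 0 * sg O κ i 1 - ph O κ i 1 * sg O κ i 0) ∈ K ∧
          (ph O κ i 2 * sg O κ i 0 - ph O κ i 0 * sg O κ i 2) ∈ K := by
  rw [relIdeal_le_iff]
  have hu := isUnit_two (ι := ι) (κ := κ) h2
  have h00 : ∀ i : ι, relMat O κ (1 : ι → O) i 0 0 =
      2 * (ph O κ i 1 * sg O κ i 2 - sg O κ i 1 * ph O κ i 2) := by
    intro i; rw [relMat_00]; simp; ring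
  have h01 : ∀ i : ι, relMat O κ (1 : ι → O) i 0 1 =
      2 * (2 * (ph O κ i 0 * sg O κ i 1 - ph O κ i 1 * sg O κ i 0)) := by
    intro i; rw [relMat_01]; simp; ring
  have h10 : ∀ i : ι, relMat O κ (1 : ι → O) i 1 0 =
      2 * (2 * (ph O κ i 2 * sg O κ i 0 - ph O κ i 0 * sg O κ i 2)) := by
    intro i; rw [relMat_10]; simp; ring
  have h11 : ∀ i : ι, relMat O κ (1 : ι → O) i 1 1 =
      2 * (-(ph O κ i 1 * sg O κ i 2 - sg O κ i 1 * ph O κ i 2)) := by
    intro i; rw [relMat_11]; simp; ring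
  refine and_congr Iff.rfl ?_
  constructor
  · intro h i
    refine ⟨?_, ?_, ?_⟩
    · have := h i 0 0
      rwa [h00, Ideal.unit_mul_mem_iff_mem _ hu] at this
    · have := h i 0 1
      rwa [h01, Ideal.unit_mul_mem_iff_mem _ hu, Ideal.unit_mul_mem_iff_mem _ hu] at this
    · have := h i 1 0
      rwa [h10, Ideal.unit_mul_mem_iff_mem _ hu, Ideal.unit_mul_mem_iff_mem _ hu] at this
  · intro h i a b
    obtain ⟨m1, m2, m3⟩ := h i
    fin_cases a <;> fin_cases b
    · change relMat O κ (1 : ι → O) i 0 0 ∈ K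
      rw [h00]; exact K.mul_mem_left _ m1
    · change relMat O κ (1 : ι → O) i 0 1 ∈ K
      rw [h01]; exact K.mul_mem_left _ (K.mul_mem_left _ m2)
    · change relMat O κ (1 : ι → O) i 1 0 ∈ K
      rw [h10]; exact K.mul_mem_left _ (K.mul_mem_left _ m3)
    · change relMat O κ (1 : ι → O) i 1 1 ∈ K
      rw [h11]; exact K.mul_mem_left _ (K.neg_mem m1)

end Fermat.Agent.S43.Local.Model
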