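/-
PROJECT R (S43, row 37), block `Local`, file `Chi` (helper6): THE `χ`-SIDE.

`Psi e : P O ι κ →+* MvPowerSeries (ι ⊕ κ) (R3 ⧸ H3 e)` : `w f g ↦` their classes in the
`k`-fold quadric ring `Q = O[[w_i, f_i, g_i]] / (w_i ^ 2 + f_i g_i - e_i)`,
`(u, b, c)_i ↦ y_i • (w, f, g)_i`, `x_k ↦ x_k`; `pchi e = ker (Psi e)`.

* `pchi_isPrime`        : `pchi e` is prime as soon as the quadric ring is a domain (`Local/ConeK`).
* `relIdeal_le_pchi`    : `relIdeal e 1 ≤ pchi e`.
* `chi_points`          : every point `φ : P → D` (`D` a noetherian local domain, the variables go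
  to the maximal ideal) which kills `relIdeal e 1` and has `φ (C (e i)) ≠ 0` kills `pchi e`.
-/
import Mathlib
import Fermat.Agent.S43.Local.Model
import Fermat.Agent.S43.Local.Kit.SumInner
import Fermat.Agent.S43.Local.Kit.Order

set_option autoImplicit false

noncomputable section

namespace Fermat.Agent.S43.Local.Chi

open MvPowerSeries
open Fermat.Agent.S43.Local.Model
open Fermat.Agent.S43.Local.Kit.SumInner
open Fermat.Agent.S43.Local.Kit

variable {O : Type*} [CommRing O] {ι κ : Type*}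

/-- the inner ring `O[[w_i, f_i, g_i]]`. -/
abbrev R3 (O : Type*) [CommRing O] (ι : Type*) : Type _ := MvPowerSeries (ι × Fin 3) O

/-- the outer ring: power series in `(u, b, c)_i, x_k` over the inner ring. -/
abbrev P2 (O : Type*) [CommRing O] (ι κ : Type*) : Type _ :=
  MvPowerSeries ((ι × Fin 3) ⊕ κ) (R3 O ι)

/-- the target before the quotient: power series in `y_i, x_k` over the inner ring. -/
abbrev T2 (O : Type*) [CommRing O] (ι κ : Type*) : Type _ := MvPowerSeries (ι ⊕ κ) (R3 O ι)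

/-- the quadric `w_i ^ 2 + f_i g_i - e_i` in the inner ring. -/
def h3 (e : ι → O) (i : ι) : R3 O ι := X (i, 0) ^ 2 + X (i, 1) * X (i, 2) - C (e i)

/-- the ideal of the quadrics. -/
def H3 (e : ι → O) : Ideal (R3 O ι) := Ideal.span (Set.range (h3 e))

/-- the `k`-fold quadric ring. -/
abbrev Q3 (e : ι → O) : Type _ := R3 O ι ⧸ H3 e

/-- `K1`: `P ≃ P2`. -/
def toP2 : P O ι κ ≃ₐ[O] P2 O ι κ := sumAlgEquiv ((ι × Fin 3) ⊕ κ) (ι × Fin 3) O

theorem toP2_sg (i : ι) (j : Fin 3) : toP2 (sg O κ i j) = C (X (i, j) : R3 O ι) :=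
  sumAlgEquiv_X_inl _

theorem toP2_ph (i : ι) (j : Fin 3) :
    toP2 (ph O κ i j) = (X (Sum.inl (i, j)) : P2 O ι κ) :=
  sumAlgEquiv_X_inr _

theorem toP2_ex (k : κ) : toP2 (ex O κ k : P O ι κ) = (X (Sum.inr k) : P2 O ι κ) :=
  sumAlgEquiv_X_inr _

theorem toP2_C (r : O) : toP2 (C r : P O ι κ) = C (C r : R3 O ι) :=
  sumAlgEquiv_C r

theorem toP2_quad (e : ι → O) (i : ι) : toP2 (quad O κ e i) = C (h3 e i) := by
  unfold quad h3
  rw [map_sub, map_add, map_pow, map_mul, toP2_sg, toP2_sg, toP2_sg, toP2_C]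
  simp

section Psi

variable [Finite ι] [Finite κ]

/-- the substitution: `(u, b, c)_i ↦ y_i • (w, f, g)_i`, `x_k ↦ x_k`. -/
def aPsi : (ι × Fin 3) ⊕ κ → T2 O ι κ
  | Sum.inl (i, j) => C (X (i, j) : R3 O ι) * X (Sum.inl i)
  | Sum.inr k => X (Sum.inr k)

omit [Finite ι] [Finite κ] in
theorem constantCoeff_aPsi (s : (ι × Fin 3) ⊕ κ) :
    constantCoeff (aPsi (O := O) s) = 0 := by
  rcases s with ⟨i, j⟩ | k
  · simp [aPsi]
  · simp [aPsi]

theorem hasSubst_aPsi : HasSubst (aPsi (O := O) (ι := ι) (κ := κ)) :=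
  hasSubst_of_constantCoeff_zero constantCoeff_aPsi

/-- the substitution homomorphism over the inner ring. -/
def Psi2 : P2 O ι κ →ₐ[R3 O ι] T2 O ι κ := substAlgHom hasSubst_aPsi

theorem Psi2_X (s : (ι × Fin 3) ⊕ κ) : Psi2 (X s : P2 O ι κ) = aPsi s :=
  substAlgHom_X hasSubst_aPsi s

theorem Psi2_C (r : R3 O ι) : Psi2 (C r : P2 O ι κ) = C r := by
  have h := Psi2.commutes (R := R3 O ι) (A := P2 O ι κ) (B := T2 O ι κ) r
  simpa [MvPowerSeries.algebraMap_apply] using h

/-- the map `Ψ`. -/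
def Psi (e : ι → O) : P O ι κ →+* MvPowerSeries (ι ⊕ κ) (Q3 e) :=
  (MvPowerSeries.map (Ideal.Quotient.mk (H3 e))).comp
    ((Psi2 (O := O) (ι := ι) (κ := κ)).toRingHom.comp (toP2 (O := O) (ι := ι) (κ := κ)).toRingEquiv.toRingHom)

/-- the prime of the `χ`-side. -/
def pchi (e : ι → O) : Ideal (P O ι κ) := RingHom.ker (Psi (κ := κ) e)

theorem Psi_apply (e : ι → O) (F : P O ι κ) :
    Psi e F = MvPowerSeries.map (Ideal.Quotient.mk (H3 e)) (Psi2 (toP2 F)) := rfl

theorem mem_pchi_iff (e : ι → O) (F : P O ι κ) :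
    F ∈ pchi e ↔ ∀ d, coeff d (Psi2 (toP2 F)) ∈ H3 e := by
  unfold pchi
  rw [RingHom.mem_ker, Psi_apply, MvPowerSeries.ext_iff]
  refine forall_congr' fun d => ?_
  rw [coeff_map, map_zero, Ideal.Quotient.eq_zero_iff_mem]

theorem pchi_isPrime (e : ι → O) [IsDomain (Q3 e)] : (pchi (κ := κ) e).IsPrime := by
  have : IsDomain (MvPowerSeries (ι ⊕ κ) (Q3 e)) := NoZeroDivisors.to_isDomain _
  exact RingHom.ker_isPrime _

theorem Psi_sg (e : ι → O) (i : ι) (j : Fin 3) :
    Psi (κ := κ) e (sg O κ i j) = C (Ideal.Quotient.mk (H3 e) (X (i, j))) := by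
  rw [Psi_apply, toP2_sg, Psi2_C, map_C]

theorem Psi_ph (e : ι → O) (i : ι) (j : Fin 3) :
    Psi (κ := κ) e (ph O κ i j) =
      C (Ideal.Quotient.mk (H3 e) (X (i, j))) * X (Sum.inl i) := by
  rw [Psi_apply, toP2_ph, Psi2_X]
  simp only [aPsi]
  rw [map_mul, map_C, map_X]

theorem Psi_ex (e : ι → O) (k : κ) :
    Psi (ι := ι) e (ex O κ k) = X (Sum.inr k) := by
  rw [Psi_apply, toP2_ex, Psi2_X]
  simp only [aPsi]
  rw [map_X]

theorem Psi_quad (e : ι → O) (i : ι) : Psi (κ := κ) e (quad O κ e i) = 0 := by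
  rw [Psi_apply, toP2_quad, Psi2_C, map_C]
  have : Ideal.Quotient.mk (H3 e) (h3 e i) = 0 :=
    Ideal.Quotient.eq_zero_iff_mem.mpr (Ideal.subset_span ⟨i, rfl⟩)
  rw [this, map_zero]

theorem relIdeal_le_pchi (e : ι → O) : relIdeal O κ e 1 ≤ pchi (κ := κ) e := by
  rw [relIdeal_le_iff]
  refine ⟨fun i => ?_, fun i a b => ?_⟩
  · rw [pchi, RingHom.mem_ker, Psi_quad]
  · rw [pchi, RingHom.mem_ker]
    fin_cases a <;> fin_cases b
    · change Psi e (relMat O κ 1 i 0 0) = 0
      rw [relMat_00]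
      simp only [map_add, map_mul, map_sub, map_ofNat, Psi_sg, Psi_ph, Pi.one_apply, sub_self,
        map_zero, map_one]
      ring
    · change Psi e (relMat O κ 1 i 0 1) = 0
      rw [relMat_01]
      simp only [map_add, map_mul, map_sub, map_ofNat, Psi_sg, Psi_ph, Pi.one_apply, sub_self,
        map_zero, map_one]
      ring
    · change Psi e (relMat O κ 1 i 1 0) = 0
      rw [relMat_10]
      simp only [map_add, map_mul, map_sub, map_ofNat, Psi_sg, Psi_ph, Pi.one_apply, sub_self,
        map_zero, map_one]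
      ring
    · change Psi e (relMat O κ 1 i 1 1) = 0
      rw [relMat_11]
      simp only [map_add, map_mul, map_sub, map_neg, map_ofNat, Psi_sg, Psi_ph, Pi.one_apply,
        sub_self, map_zero, map_one]
      ring

end Psi

section Points

variable [Fintype ι] [Fintype κ]

/-- the polynomial version of the substitution. -/
def apoly : (ι × Fin 3) ⊕ κ → MvPolynomial (ι ⊕ κ) (R3 O ι)
  | Sum.inl (i, j) => MvPolynomial.C (X (i, j) : R3 O ι) * MvPolynomial.X (Sum.inl i)
  | Sum.inr k => MvPolynomial.X (Sum.inr k)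

/-- the polynomial version of `Psi2`. -/
def PsiPoly : MvPolynomial ((ι × Fin 3) ⊕ κ) (R3 O ι) →+* MvPolynomial (ι ⊕ κ) (R3 O ι) :=
  MvPolynomial.eval₂Hom MvPolynomial.C apoly

omit [Fintype ι] [Fintype κ] in
theorem coe_apoly (s : (ι × Fin 3) ⊕ κ) :
    ((apoly (O := O) s : MvPolynomial (ι ⊕ κ) (R3 O ι)) : T2 O ι κ) = aPsi s := by
  rcases s with ⟨i, j⟩ | k
  · simp only [apoly, aPsi, MvPolynomial.coe_mul, MvPolynomial.coe_C, MvPolynomial.coe_X]
  · simp only [apoly, aPsi, MvPolynomial.coe_X]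

theorem coe_PsiPoly (p : MvPolynomial ((ι × Fin 3) ⊕ κ) (R3 O ι)) :
    ((PsiPoly p : MvPolynomial (ι ⊕ κ) (R3 O ι)) : T2 O ι κ) = Psi2 (p : P2 O ι κ) := by
  have h : (MvPolynomial.coeToMvPowerSeries.ringHom (σ := ι ⊕ κ) (R := R3 O ι)).comp
      (PsiPoly (O := O) (ι := ι) (κ := κ)) =
      (Psi2 (O := O) (ι := ι) (κ := κ)).toRingHom.comp
        (MvPolynomial.coeToMvPowerSeries.ringHom (σ := (ι × Fin 3) ⊕ κ) (R := R3 O ι)) := by
    apply MvPolynomial.ringHom_ext
    · intro r
      simp only [RingHom.comp_apply, PsiPoly, MvPolynomial.coe_eval₂Hom, MvPolynomial.eval₂_C,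
        MvPolynomial.coeToMvPowerSeries.ringHom_apply, MvPolynomial.coe_C, AlgHom.toRingHom_eq_coe,
        RingHom.coe_coe, Psi2_C]
    · intro t
      simp only [RingHom.comp_apply, PsiPoly, MvPolynomial.coe_eval₂Hom, MvPolynomial.eval₂_X,
        MvPolynomial.coeToMvPowerSeries.ringHom_apply, MvPolynomial.coe_X, AlgHom.toRingHom_eq_coe,
        RingHom.coe_coe, Psi2_X, coe_apoly]
  exact RingHom.congr_fun h p

omit [Fintype ι] [Fintype κ] in
theorem totalDegree_apoly_le (s : (ι × Fin 3) ⊕ κ) :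
    (apoly (O := O) s).totalDegree ≤ 1 := by
  have hX : ∀ t : ι ⊕ κ, (MvPolynomial.X t : MvPolynomial (ι ⊕ κ) (R3 O ι)).totalDegree ≤ 1 := by
    intro t
    have := MvPolynomial.totalDegree_monomial_le (Finsupp.single t 1) (1 : R3 O ι)
    simpa [MvPolynomial.X] using this
  rcases s with ⟨i, j⟩ | k
  · refine le_trans (MvPolynomial.totalDegree_mul _ _) ?_
    rw [MvPolynomial.totalDegree_C, zero_add]
    exact hX _
  · exact hX _

theorem totalDegree_PsiPoly_lt {n : ℕ} (hn : 0 < n)
    (p : MvPolynomial ((ι × Fin 3) ⊕ κ) (R3 O ι))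
    (hp : ∀ d ∈ p.support, Finsupp.degree d < n) : (PsiPoly p).totalDegree < n := by
  classical
  have h1 : PsiPoly p = ∑ d ∈ p.support, MvPolynomial.C (p.coeff d) * ∏ t, apoly t ^ d t := by
    simp only [PsiPoly, MvPolynomial.coe_eval₂Hom]
    exact MvPolynomial.eval₂_eq' _ _ _
  rw [h1]
  refine lt_of_le_of_lt (MvPolynomial.totalDegree_finsetSum _ _) ?_
  rw [Finset.sup_lt_iff (by simpa using hn)]
  intro d hd
  refine lt_of_le_of_lt ?_ (hp d hd)
  refine le_trans (MvPolynomial.totalDegree_mul _ _) ?_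
  rw [MvPolynomial.totalDegree_C, zero_add]
  refine le_trans (MvPolynomial.totalDegree_finsetProd _ _) ?_
  rw [Finsupp.degree_eq_sum]
  refine Finset.sum_le_sum fun t _ => ?_
  refine le_trans (MvPolynomial.totalDegree_pow _ _) ?_
  calc d t * (apoly (O := O) t).totalDegree ≤ d t * 1 :=
        Nat.mul_le_mul_left _ (totalDegree_apoly_le t)
    _ = d t := mul_one _

/-- the coefficients of degree `< n` of `Psi2 R` vanish when those of `R` do. -/
theorem coeff_Psi2_eq_zero {n : ℕ} (R : P2 O ι κ)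
    (hR : ∀ d, Finsupp.degree d < n → coeff d R = 0) (d : (ι ⊕ κ) →₀ ℕ)
    (hd : Finsupp.degree d < n) : coeff d (Psi2 R) = 0 := by
  have h1 : R ∈ Order.varIdeal _ _ ^ n := Order.mem_varIdeal_pow_iff.mpr hR
  have h2 : (Order.varIdeal ((ι × Fin 3) ⊕ κ) (R3 O ι)).map
      (Psi2 (O := O) (ι := ι) (κ := κ)).toRingHom ≤ Order.varIdeal (ι ⊕ κ) (R3 O ι) := by
    unfold Order.varIdeal
    rw [Ideal.map_span, Ideal.span_le]
    rintro _ ⟨_, ⟨t, rfl⟩, rfl⟩
    simp only [AlgHom.toRingHom_eq_coe, RingHom.coe_coe, Psi2_X]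
    rcases t with ⟨i, j⟩ | k
    · simp only [aPsi]
      exact Ideal.mul_mem_left _ _ (Ideal.subset_span ⟨_, rfl⟩)
    · simp only [aPsi]
      exact Ideal.subset_span ⟨_, rfl⟩
  have h3 : Psi2 R ∈ ((Order.varIdeal ((ι × Fin 3) ⊕ κ) (R3 O ι)) ^ n).map
      (Psi2 (O := O) (ι := ι) (κ := κ)).toRingHom := Ideal.mem_map_of_mem _ h1
  rw [Ideal.map_pow] at h3
  exact Order.mem_varIdeal_pow_iff.mp (Ideal.pow_right_mono h2 n h3) d hd

variable {D : Type*} [CommRing D] [IsDomain D] [IsNoetherianRing D] [IsLocalRing D]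

/-- **Points of the `χ`-side kill `pchi`.** -/
theorem chi_points (h2 : IsUnit (2 : O)) (e : ι → O) (φ : P O ι κ →+* D)
    (hloc : ∀ s, φ (X s) ∈ IsLocalRing.maximalIdeal D)
    (hrel : ∀ F ∈ relIdeal O κ e 1, φ F = 0) (he : ∀ i, φ (C (e i)) ≠ 0)
    (F : P O ι κ) (hF : F ∈ pchi (κ := κ) e) : φ F = 0 := by
  classical
  -- notation
  set φ₂ : P2 O ι κ →+* D :=
    φ.comp (toP2 (O := O) (ι := ι) (κ := κ)).symm.toRingEquiv.toRingHom with hφ₂
  set ι₃ : R3 O ι →+* D := φ₂.comp (C : R3 O ι →+* P2 O ι κ) with hι₃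
  have hφ₂_toP2 : ∀ x, φ₂ (toP2 x) = φ x := by
    intro x
    simp [hφ₂]
  set G : P2 O ι κ := toP2 F with hG
  have hφF : φ F = φ₂ G := (hφ₂_toP2 F).symm
  -- the values of the variables
  set β' : ι × Fin 3 → D := fun ij => φ (sg O κ ij.1 ij.2) with hβ'
  set u' : ι × Fin 3 → D := fun ij => φ (ph O κ ij.1 ij.2) with hu'
  set x' : κ → D := fun k => φ (ex O κ k) with hx'
  have hι₃X : ∀ ij : ι × Fin 3, ι₃ (X ij) = β' ij := by
    rintro ⟨i, j⟩
    simp only [hι₃, RingHom.comp_apply, hβ']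
    rw [← toP2_sg (κ := κ), hφ₂_toP2]
  have hφ₂Xl : ∀ ij : ι × Fin 3, φ₂ (X (Sum.inl ij)) = u' ij := by
    rintro ⟨i, j⟩
    simp only [hu']
    rw [← toP2_ph, hφ₂_toP2]
  have hφ₂Xr : ∀ k : κ, φ₂ (X (Sum.inr k)) = x' k := by
    intro k
    simp only [hx']
    rw [← toP2_ex (ι := ι), hφ₂_toP2]
  -- the relations at the point
  have hker : relIdeal O κ e 1 ≤ RingHom.ker φ := fun x hx => hrel x hx
  obtain ⟨hq, hmin⟩ := (relIdeal_one_le_iff h2 e (RingHom.ker φ)).mp hker
  have hquad : ∀ i, β' (i, 0) ^ 2 + β' (i, 1) * β' (i, 2) = φ (C (e i)) := by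
    intro i
    have := hq i
    rw [RingHom.mem_ker, quad, map_sub, map_add, map_pow, map_mul, sub_eq_zero] at this
    exact this
  have hι₃h : ∀ r ∈ H3 e, ι₃ r = 0 := by
    intro r hr
    have hle : H3 e ≤ RingHom.ker ι₃ := by
      unfold H3
      rw [Ideal.span_le]
      rintro _ ⟨i, rfl⟩
      rw [SetLike.mem_coe, RingHom.mem_ker]
      simp only [hι₃, RingHom.comp_apply]
      rw [← toP2_quad (κ := κ), hφ₂_toP2]
      exact hrel _ (quad_mem_relIdeal e 1 i)
    exact hle hr
  have hminor : ∀ (i : ι) (j l : Fin 3), u' (i, j) * β' (i, l) = u' (i, l) * β' (i, j) := by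
    intro i j l
    obtain ⟨m1, m2, m3⟩ := hmin i
    rw [RingHom.mem_ker, map_sub, map_mul, map_mul, sub_eq_zero] at m1 m2 m3
    simp only [hu', hβ']
    fin_cases j <;> fin_cases l <;> simp only [Fin.zero_eta, Fin.mk_one, Fin.reduceFinMk] <;>
      first
        | rfl
        | linear_combination m1
        | linear_combination -m1
        | linear_combination m2
        | linear_combination -m2
        | linear_combination m3
        | linear_combination -m3
  -- a nonzero coordinate in every block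
  have hex : ∀ i, ∃ j : Fin 3, β' (i, j) ≠ 0 := by
    intro i
    by_contra hcon
    simp only [not_exists, not_not] at hcon
    apply he i
    rw [← hquad i, hcon 0, hcon 1]
    ring
  choose jj hjj using hex
  -- it suffices to show that `φ₂ G` lies in every power of the maximal ideal
  rw [hφF]
  have hkrull : (⨅ n, IsLocalRing.maximalIdeal D ^ n) = ⊥ :=
    Ideal.iInf_pow_eq_bot_of_isLocalRing _ (IsLocalRing.maximalIdeal.isMaximal D).ne_top
  have hall : ∀ n, φ₂ G ∈ IsLocalRing.maximalIdeal D ^ n := by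
    intro n
    rcases Nat.eq_zero_or_pos n with rfl | hn
    · simp
    set T : MvPolynomial ((ι × Fin 3) ⊕ κ) (R3 O ι) := truncTotal n G with hT
    set Rm : P2 O ι κ := G - (T : P2 O ι κ) with hRm
    have hRlow : ∀ d, Finsupp.degree d < n → coeff d Rm = 0 := by
      intro d hd
      rw [hRm, map_sub, MvPolynomial.coeff_coe, hT, coeff_truncTotal _ hd, sub_self]
    have hφ₂var : ∀ t, φ₂ (X t) ∈ IsLocalRing.maximalIdeal D := by
      rintro (ij | k)
      · rw [hφ₂Xl]
        exact hloc _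
      · rw [hφ₂Xr]
        exact hloc _
    have h1 : φ₂ Rm ∈ IsLocalRing.maximalIdeal D ^ n :=
      Order.map_mem_pow_of_lowZero φ₂ _ hφ₂var hRlow
    have h0 : φ₂ (T : P2 O ι κ) = 0 := by
      -- evaluation of polynomials at the point
      set ev₁ : MvPolynomial ((ι × Fin 3) ⊕ κ) (R3 O ι) →+* D :=
        MvPolynomial.eval₂Hom ι₃ (Sum.elim u' x') with hev₁
      have hA : ∀ p : MvPolynomial ((ι × Fin 3) ⊕ κ) (R3 O ι), φ₂ (p : P2 O ι κ) = ev₁ p := by
        have h : φ₂.comp (MvPolynomial.coeToMvPowerSeries.ringHom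
            (σ := (ι × Fin 3) ⊕ κ) (R := R3 O ι)) = ev₁ := by
          apply MvPolynomial.ringHom_ext
          · intro r
            simp only [RingHom.comp_apply, MvPolynomial.coeToMvPowerSeries.ringHom_apply,
              MvPolynomial.coe_C, hev₁, MvPolynomial.coe_eval₂Hom, MvPolynomial.eval₂_C, hι₃]
          · rintro (ij | k)
            · simp only [RingHom.comp_apply, MvPolynomial.coeToMvPowerSeries.ringHom_apply,
                MvPolynomial.coe_X, hev₁, MvPolynomial.coe_eval₂Hom, MvPolynomial.eval₂_X,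
                Sum.elim_inl, hφ₂Xl]
            · simp only [RingHom.comp_apply, MvPolynomial.coeToMvPowerSeries.ringHom_apply,
                MvPolynomial.coe_X, hev₁, MvPolynomial.coe_eval₂Hom, MvPolynomial.eval₂_X,
                Sum.elim_inr, hφ₂Xr]
        intro p
        exact RingHom.congr_fun h p
      -- the fraction field and the value of `y`
      set jK : D →+* FractionRing D := algebraMap D (FractionRing D) with hjK
      have hjK_inj : Function.Injective jK := IsFractionRing.injective D (FractionRing D)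
      set y' : ι → FractionRing D := fun i => jK (u' (i, jj i)) / jK (β' (i, jj i)) with hy'
      set ev₂ : MvPolynomial (ι ⊕ κ) (R3 O ι) →+* FractionRing D :=
        MvPolynomial.eval₂Hom (jK.comp ι₃) (Sum.elim y' (fun k => jK (x' k))) with hev₂
      have hC : ∀ p : MvPolynomial ((ι × Fin 3) ⊕ κ) (R3 O ι), jK (ev₁ p) = ev₂ (PsiPoly p) := by
        have h : jK.comp ev₁ = ev₂.comp (PsiPoly (O := O) (ι := ι) (κ := κ)) := by
          apply MvPolynomial.ringHom_ext
          · intro r
            simp only [RingHom.comp_apply, hev₁, hev₂, PsiPoly, MvPolynomial.coe_eval₂Hom,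
              MvPolynomial.eval₂_C]
          · rintro (⟨i, j⟩ | k)
            · simp only [RingHom.comp_apply, hev₁, hev₂, PsiPoly, MvPolynomial.coe_eval₂Hom,
                MvPolynomial.eval₂_X, Sum.elim_inl, apoly, MvPolynomial.eval₂_mul,
                MvPolynomial.eval₂_C, hι₃X, hy']
              have hne : jK (β' (i, jj i)) ≠ 0 := by
                intro h0
                exact hjj i (hjK_inj (by rw [h0, map_zero]))
              have hmul : jK (u' (i, j)) * jK (β' (i, jj i)) =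
                  jK (β' (i, j)) * jK (u' (i, jj i)) :=
                calc jK (u' (i, j)) * jK (β' (i, jj i)) = jK (u' (i, j) * β' (i, jj i)) :=
                      (map_mul jK _ _).symm
                  _ = jK (u' (i, jj i) * β' (i, j)) := by rw [hminor i j (jj i)]
                  _ = jK (β' (i, j)) * jK (u' (i, jj i)) := by rw [map_mul, mul_comm]
              rw [mul_div_assoc', eq_div_iff hne]
              exact hmul
            · simp only [RingHom.comp_apply, hev₁, hev₂, PsiPoly, MvPolynomial.coe_eval₂Hom,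
                MvPolynomial.eval₂_X, Sum.elim_inr, apoly]
        intro p
        exact RingHom.congr_fun h p
      -- the coefficients of `PsiPoly T` lie in `H3 e`
      have hsupp : ∀ d ∈ T.support, Finsupp.degree d < n := by
        intro d hd
        by_contra hcon
        rw [MvPolynomial.mem_support_iff, hT, coeff_truncTotal_eq_zero _ (not_lt.mp hcon)] at hd
        exact hd rfl
      have hdeg : (PsiPoly T).totalDegree < n := totalDegree_PsiPoly_lt hn T hsupp
      have hD : ∀ d, MvPolynomial.coeff d (PsiPoly T) ∈ H3 e := by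
        intro d
        by_cases hd : Finsupp.degree d < n
        · rw [← MvPolynomial.coeff_coe, coe_PsiPoly]
          have hTG : (T : P2 O ι κ) = G - Rm := by rw [hRm]; ring
          rw [hTG, map_sub, map_sub, coeff_Psi2_eq_zero Rm hRlow d hd, sub_zero]
          exact (mem_pchi_iff e F).mp hF d
        · rw [MvPolynomial.coeff_eq_zero_of_totalDegree_lt]
          · exact zero_mem _
          · refine lt_of_lt_of_le hdeg ?_
            rw [not_lt] at hd
            rw [Finsupp.degree_eq_sum] at hd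
            refine le_trans hd (le_of_eq ?_)
            exact (Finset.sum_subset (Finset.subset_univ _) (fun t _ ht => by
              simpa using ht)).symm
      have hE : ev₂ (PsiPoly T) = 0 := by
        have hmem : PsiPoly T ∈ Ideal.map (MvPolynomial.C : R3 O ι →+* _) (H3 e) :=
          MvPolynomial.mem_map_C_iff.mpr hD
        have hle : Ideal.map (MvPolynomial.C : R3 O ι →+* MvPolynomial (ι ⊕ κ) (R3 O ι)) (H3 e) ≤
            RingHom.ker ev₂ := by
          rw [Ideal.map_le_iff_le_comap]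
          intro r hr
          rw [Ideal.mem_comap, RingHom.mem_ker]
          simp only [hev₂, MvPolynomial.coe_eval₂Hom, MvPolynomial.eval₂_C, RingHom.comp_apply,
            hι₃h r hr, map_zero]
        exact hle hmem
      rw [hA T]
      apply hjK_inj
      rw [hC T, hE, map_zero]
    have hsplit : φ₂ G = φ₂ Rm + φ₂ (T : P2 O ι κ) := by
      rw [← map_add, hRm, sub_add_cancel]
    rw [hsplit, h0, add_zero]
    exact h1
  have : φ₂ G ∈ (⨅ n, IsLocalRing.maximalIdeal D ^ n) := by
    rw [Ideal.mem_iInf]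
    exact hall
  rw [hkrull] at this
  exact this

end Points

end Fermat.Agent.S43.Local.Chi
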