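/-
S43 (row 37), PROJECT R, block `Local`, file `KillVars` (helper23).

**Kit: killing finitely many variables of a multivariate power series ring, and reducing the
coefficients.**  Mathlib only.

* `mem_span_X_image` : a series all of whose monomials involve a variable of the finite set `T`
  lies in the ideal generated by the variables of `T`;
* `ker_killCompl` : for an embedding `e : κ ↪ σ` whose range has finite complement `T`, the
  kernel of `MvPowerSeries.killCompl e` is `span (X '' T)`;
* `quotKillEquiv` : `R⟦σ⟧ ⧸ span (X '' T) ≃ₐ[R] R⟦κ⟧`; `isDomain_quot_span_X_image`;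
* `ker_map` : if `ker φ = span {π}` then the kernel of `MvPowerSeries.map φ` is `span {C π}`;
* `ker_map_comp_killCompl` : the kernel of `R⟦σ⟧ → S⟦κ⟧` is `span (X '' T) ⊔ span {C π}`.
-/
import Mathlib

set_option autoImplicit false

noncomputable section

namespace Fermat.Agent.S43.Local.KillVars

open MvPowerSeries

variable {R S : Type*} [CommRing R] [CommRing S] {σ κ : Type*}

/-- a series all of whose monomials involve a variable of the finite set `T` lies in the ideal
generated by the variables of `T`. -/
theorem mem_span_X_image (T : Finset σ) :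
    ∀ p : MvPowerSeries σ R, (∀ m : σ →₀ ℕ, (∀ s ∈ T, m s = 0) → coeff m p = 0) →
      p ∈ Ideal.span ((X : σ → MvPowerSeries σ R) '' (T : Set σ)) := by
  classical
  induction T using Finset.induction_on with
  | empty =>
    intro p hp
    have : p = 0 := by
      ext m
      simpa using hp m (by simp)
    rw [this]
    exact zero_mem _
  | insert s T hs ih =>
    intro p hp
    let p₂ : MvPowerSeries σ R := fun m => if m s = 0 then coeff m p else 0
    have hp₂ : ∀ m, coeff m p₂ = if m s = 0 then coeff m p else 0 := fun m => rfl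
    have hdvd : (X s : MvPowerSeries σ R) ∣ p - p₂ := by
      rw [X_dvd_iff]
      intro m hm
      rw [map_sub, hp₂, if_pos hm, sub_self]
    obtain ⟨r, hr⟩ := hdvd
    have h2 : p₂ ∈ Ideal.span ((X : σ → MvPowerSeries σ R) '' (T : Set σ)) := by
      apply ih
      intro m hm
      rw [hp₂]
      split_ifs with h
      · apply hp
        intro s' hs'
        rcases Finset.mem_insert.mp hs' with rfl | h'
        · exact h
        · exact hm _ h'
      · rfl
    have hpe : p = X s * r + p₂ := by
      rw [← hr]
      ring
    rw [hpe]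
    refine add_mem (Ideal.mul_mem_right _ _ (Ideal.subset_span ⟨s, by simp, rfl⟩))
      (Ideal.span_mono (Set.image_mono (by simp)) h2)

/-- the kernel of `killCompl e` when the range of `e` has finite complement `T`. -/
theorem ker_killCompl (e : κ ↪ σ) (T : Finset σ) (hT : (T : Set σ) = (Set.range e)ᶜ) :
    RingHom.ker (killCompl e : MvPowerSeries σ R →ₐ[R] MvPowerSeries κ R)
      = Ideal.span ((X : σ → MvPowerSeries σ R) '' (T : Set σ)) := by
  apply le_antisymm
  · intro p hp
    rw [RingHom.mem_ker] at hp
    apply mem_span_X_image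
    intro m hm
    have hsupp : (m.support : Set σ) ⊆ Set.range e := by
      intro x hx
      by_contra hxe
      have hxT : x ∈ (T : Set σ) := by
        rw [hT]
        exact hxe
      exact (Finsupp.mem_support_iff.mp hx) (hm x hxT)
    obtain ⟨x, rfl⟩ := (Finsupp.mem_range_embDomain_iff e m).mpr hsupp
    rw [← coeff_killCompl, hp, map_zero]
  · rw [Ideal.span_le]
    rintro _ ⟨s, hs, rfl⟩
    rw [SetLike.mem_coe, RingHom.mem_ker]
    apply killCompl_X_eq_zero
    rw [hT] at hs
    exact hs

theorem killCompl_surjective (e : κ ↪ σ) :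
    Function.Surjective (killCompl e : MvPowerSeries σ R →ₐ[R] MvPowerSeries κ R) :=
  fun p => ⟨rename e p, killCompl_rename_app p⟩

/-- killing the variables of `T`: `R⟦σ⟧ ⧸ span (X '' T) ≃ₐ[R] R⟦κ⟧`. -/
def quotKillEquiv (e : κ ↪ σ) (T : Finset σ) (hT : (T : Set σ) = (Set.range e)ᶜ) :
    (MvPowerSeries σ R ⧸ Ideal.span ((X : σ → MvPowerSeries σ R) '' (T : Set σ)))
      ≃ₐ[R] MvPowerSeries κ R :=
  (Ideal.quotientEquivAlgOfEq R (ker_killCompl (R := R) e T hT).symm).trans
    (Ideal.quotientKerAlgEquivOfSurjective (killCompl_surjective (R := R) e))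

theorem quotKillEquiv_mk (e : κ ↪ σ) (T : Finset σ) (hT : (T : Set σ) = (Set.range e)ᶜ)
    (p : MvPowerSeries σ R) :
    quotKillEquiv e T hT (Ideal.Quotient.mk _ p) = killCompl e p := by
  simp [quotKillEquiv]

theorem isDomain_quot_span_X_image [IsDomain R] (e : κ ↪ σ) (T : Finset σ)
    (hT : (T : Set σ) = (Set.range e)ᶜ) :
    IsDomain (MvPowerSeries σ R ⧸ Ideal.span ((X : σ → MvPowerSeries σ R) '' (T : Set σ))) :=
  have : IsDomain (MvPowerSeries κ R) := NoZeroDivisors.to_isDomain _
  (quotKillEquiv (R := R) e T hT).toRingEquiv.toMulEquiv.isDomain _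

/-- the kernel of the coefficientwise map when `ker φ` is principal. -/
theorem ker_map (φ : R →+* S) (π : R) (hφ : RingHom.ker φ = Ideal.span {π}) :
    RingHom.ker (MvPowerSeries.map (σ := σ) φ) = Ideal.span {(C π : MvPowerSeries σ R)} := by
  apply le_antisymm
  · intro p hp
    rw [RingHom.mem_ker] at hp
    have h1 : ∀ m, ∃ c, c * π = coeff m p := by
      intro m
      have : φ (coeff m p) = 0 := by
        rw [← coeff_map, hp, map_zero]
      rw [← RingHom.mem_ker, hφ] at this
      exact Ideal.mem_span_singleton'.mp this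
    choose c hc using h1
    rw [Ideal.mem_span_singleton']
    let p' : MvPowerSeries σ R := fun m => c m
    have hp' : ∀ m, coeff m p' = c m := fun m => rfl
    refine ⟨p', ?_⟩
    ext m
    rw [mul_comm, coeff_C_mul, ← hc m, mul_comm, hp']
  · rw [Ideal.span_le, Set.singleton_subset_iff, SetLike.mem_coe, RingHom.mem_ker, map_C]
    have : φ π = 0 := by
      rw [← RingHom.mem_ker, hφ]
      exact Ideal.mem_span_singleton_self π
    rw [this, map_zero]

/-- the kernel of `R⟦σ⟧ → S⟦κ⟧` (kill the variables of `T`, reduce the coefficients). -/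
theorem ker_map_comp_killCompl (φ : R →+* S) (π : R) (hφ : RingHom.ker φ = Ideal.span {π})
    (e : κ ↪ σ) (T : Finset σ) (hT : (T : Set σ) = (Set.range e)ᶜ) :
    RingHom.ker ((MvPowerSeries.map (σ := κ) φ).comp
        (killCompl e : MvPowerSeries σ R →ₐ[R] MvPowerSeries κ R).toRingHom)
      = Ideal.span ((X : σ → MvPowerSeries σ R) '' (T : Set σ))
        ⊔ Ideal.span {(C π : MvPowerSeries σ R)} := by
  apply le_antisymm
  · intro p hp
    rw [RingHom.mem_ker, RingHom.comp_apply] at hp
    have h1 : killCompl e p ∈ Ideal.span {(C π : MvPowerSeries κ R)} := by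
      rw [← ker_map φ π hφ, RingHom.mem_ker]
      exact hp
    obtain ⟨r, hr⟩ := Ideal.mem_span_singleton'.mp h1
    have h2 : p - C π * rename e r ∈ Ideal.span ((X : σ → MvPowerSeries σ R) '' (T : Set σ)) := by
      rw [← ker_killCompl e T hT, RingHom.mem_ker, map_sub, map_mul, killCompl_rename_app,
        killCompl_C, ← hr, mul_comm, sub_self]
    have h3 : p = (p - C π * rename e r) + C π * rename e r := by ring
    rw [h3]
    exact Submodule.add_mem_sup h2
      (Ideal.mul_mem_right _ _ (Ideal.mem_span_singleton_self _))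
  · rw [sup_le_iff]
    constructor
    · rw [← ker_killCompl (R := R) e T hT]
      intro p hp
      rw [RingHom.mem_ker] at hp ⊢
      rw [RingHom.comp_apply]
      have : (killCompl e : MvPowerSeries σ R →ₐ[R] MvPowerSeries κ R).toRingHom p = 0 := hp
      rw [this, map_zero]
    · rw [Ideal.span_le, Set.singleton_subset_iff, SetLike.mem_coe, RingHom.mem_ker,
        RingHom.comp_apply]
      have h1 : (killCompl e : MvPowerSeries σ R →ₐ[R] MvPowerSeries κ R).toRingHom (C π)
          = C π := killCompl_C π
      have h2 : φ π = 0 := by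
        rw [← RingHom.mem_ker, hφ]
        exact Ideal.mem_span_singleton_self π
      rw [h1, map_C, h2, map_zero]

end Fermat.Agent.S43.Local.KillVars
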