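/-
S43 (row 37), PROJECT R, block `Local`, brick LA3d of helper6's cut, file `ChiDim` (helper23).

**The dimension bound on the `χ`-side**: for every ideal `K` of `P = O⟦Var ι κ⟧` containing the
`χ`-relations `relIdeal e 1` (`π ∣ e i`, `maximalIdeal O = (π)`, `2` a unit),
`dim (P ⧸ K) ≤ 1 + 3 #ι + #κ`.

Route (helper6): Krull's height theorem (`ringKrullDim_le_ringKrullDim_quotient_add_card`) with
the parameters `C π`, `x_k`, `u_i - g_i`, `b_i - w_i`, `c_i - f_i`; modulo the relations and the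
parameters every variable is nilpotent (`2 f g = (g f - w²) + (w² + f g)`, `w² = - f g`,
`g³ = g (g² - f w) + w (f g)`, `f³ = f (f² - w g) + w (f g)`), so every prime of the quotient is
the maximal ideal.
-/
import Fermat.Agent.S43.Local.Model
import Fermat.Agent.S43.Local.KillVars

set_option autoImplicit false

noncomputable section

namespace Fermat.Agent.S43.Local.ChiDim

open MvPowerSeries IsLocalRing Fermat.Agent.S43.Local Fermat.Agent.S43.Local.Model

variable {O : Type*} [CommRing O] {ι κ : Type*}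

/-! ### the maximal ideal of a power series ring -/

/-- an ideal of `O⟦σ⟧` (`σ` finite) containing `C π` and all the variables contains every series
whose constant coefficient is a multiple of `π`. -/
theorem mem_of_constantCoeff_mem {σ : Type*} [Fintype σ] (π : O) (Q : Ideal (MvPowerSeries σ O))
    (hπ : (C π : MvPowerSeries σ O) ∈ Q) (hX : ∀ s : σ, (X s : MvPowerSeries σ O) ∈ Q)
    (p : MvPowerSeries σ O) (hp : constantCoeff p ∈ Ideal.span {π}) : p ∈ Q := by
  classical
  have h1 : p - C (constantCoeff p) ∈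
      Ideal.span ((X : σ → MvPowerSeries σ O) '' ((Finset.univ : Finset σ) : Set σ)) := by
    apply KillVars.mem_span_X_image
    intro m hm
    have hm0 : m = 0 := by
      ext s
      simpa using hm s (Finset.mem_univ s)
    rw [hm0, map_sub, coeff_zero_eq_constantCoeff_apply, coeff_zero_eq_constantCoeff_apply,
      constantCoeff_C, sub_self]
  have h2 : p - C (constantCoeff p) ∈ Q := by
    refine (Ideal.span_le.mpr ?_) h1
    rintro _ ⟨s, -, rfl⟩
    exact hX s
  have h3 : (C (constantCoeff p) : MvPowerSeries σ O) ∈ Q := by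
    obtain ⟨c, hc⟩ := Ideal.mem_span_singleton'.mp hp
    rw [← hc, map_mul]
    exact Ideal.mul_mem_left _ _ hπ
  have h4 : p = (p - C (constantCoeff p)) + C (constantCoeff p) := by ring
  rw [h4]
  exact add_mem h2 h3

/-- a proper ideal of `O⟦σ⟧` containing `C π` and all the variables is the maximal ideal
(`maximalIdeal O = (π)`). -/
theorem eq_maximalIdeal_of_mem {σ : Type*} [Fintype σ] [IsLocalRing O] (π : O)
    (hπO : maximalIdeal O = Ideal.span {π}) (Q : Ideal (MvPowerSeries σ O)) (hQ : Q ≠ ⊤)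
    (hπ : (C π : MvPowerSeries σ O) ∈ Q) (hX : ∀ s : σ, (X s : MvPowerSeries σ O) ∈ Q) :
    Q = maximalIdeal (MvPowerSeries σ O) := by
  apply le_antisymm
  · exact IsLocalRing.le_maximalIdeal hQ
  · intro p hp
    apply mem_of_constantCoeff_mem π Q hπ hX
    rw [← hπO, mem_maximalIdeal, mem_nonunits_iff]
    intro hu
    rw [mem_maximalIdeal, mem_nonunits_iff] at hp
    exact hp (MvPowerSeries.isUnit_iff_constantCoeff.mpr hu)

/-! ### the certificate -/

section Certificate

variable (π : O) (e : ι → O) (he : ∀ i, π ∣ e i) (h2 : IsUnit (2 : O))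
  (J : Ideal (P O ι κ)) (hJrel : Model.relIdeal O κ e 1 ≤ J)
  (hJπ : (C π : P O ι κ) ∈ J)
  (hJu : ∀ i, ph O κ i 0 - sg O κ i 2 ∈ J) (hJb : ∀ i, ph O κ i 1 - sg O κ i 0 ∈ J)
  (hJc : ∀ i, ph O κ i 2 - sg O κ i 1 ∈ J)

include he h2 hJrel hJπ hJu hJb hJc

/-- modulo the relations and the parameters, `f g`, `w²`, `g³`, `f³` vanish. -/
theorem certificate (i : ι) :
    sg O κ i 1 * sg O κ i 2 ∈ J ∧ sg O κ i 0 ^ 2 ∈ J ∧ sg O κ i 2 ^ 3 ∈ J ∧ sg O κ i 1 ^ 3 ∈ J := by
  obtain ⟨hquad, hmin⟩ := (relIdeal_one_le_iff h2 e J).mp hJrel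
  obtain ⟨m1, m2, m3⟩ := hmin i
  have hCe : (C (e i) : P O ι κ) ∈ J := by
    obtain ⟨c, hc⟩ := he i
    rw [hc, map_mul]
    exact Ideal.mul_mem_right _ _ hJπ
  -- `w² + f g ∈ J`
  have hq : sg O κ i 0 ^ 2 + sg O κ i 1 * sg O κ i 2 ∈ J := by
    have h := add_mem (hquad i) hCe
    have hdef : quad O κ e i + C (e i)
        = sg O κ i 0 ^ 2 + sg O κ i 1 * sg O κ i 2 := by
      have : quad O κ e i = sg O κ i 0 ^ 2 + sg O κ i 1 * sg O κ i 2 - C (e i) := rfl
      rw [this]
      ring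
    rwa [hdef] at h
  -- the minors after `u = g`, `b = w`, `c = f`
  have n1 : sg O κ i 0 * sg O κ i 2 - sg O κ i 1 ^ 2 ∈ J := by
    have : sg O κ i 0 * sg O κ i 2 - sg O κ i 1 ^ 2
        = (ph O κ i 1 * sg O κ i 2 - sg O κ i 1 * ph O κ i 2)
          - (ph O κ i 1 - sg O κ i 0) * sg O κ i 2
          + sg O κ i 1 * (ph O κ i 2 - sg O κ i 1) := by ring
    rw [this]
    exact add_mem (sub_mem m1 (Ideal.mul_mem_right _ _ (hJb i)))
      (Ideal.mul_mem_left _ _ (hJc i))
  have n2 : sg O κ i 2 * sg O κ i 1 - sg O κ i 0 ^ 2 ∈ J := by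
    have : sg O κ i 2 * sg O κ i 1 - sg O κ i 0 ^ 2
        = (ph O κ i 0 * sg O κ i 1 - ph O κ i 1 * sg O κ i 0)
          - (ph O κ i 0 - sg O κ i 2) * sg O κ i 1
          + (ph O κ i 1 - sg O κ i 0) * sg O κ i 0 := by ring
    rw [this]
    exact add_mem (sub_mem m2 (Ideal.mul_mem_right _ _ (hJu i)))
      (Ideal.mul_mem_right _ _ (hJb i))
  have n3 : sg O κ i 1 * sg O κ i 0 - sg O κ i 2 ^ 2 ∈ J := by
    have : sg O κ i 1 * sg O κ i 0 - sg O κ i 2 ^ 2
        = (ph O κ i 2 * sg O κ i 0 - ph O κ i 0 * sg O κ i 2)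
          - (ph O κ i 2 - sg O κ i 1) * sg O κ i 0
          + (ph O κ i 0 - sg O κ i 2) * sg O κ i 2 := by ring
    rw [this]
    exact add_mem (sub_mem m3 (Ideal.mul_mem_right _ _ (hJc i)))
      (Ideal.mul_mem_right _ _ (hJu i))
  -- `2 f g ∈ J`, hence `f g ∈ J`
  have hfg : sg O κ i 1 * sg O κ i 2 ∈ J := by
    have h : (2 : P O ι κ) * (sg O κ i 1 * sg O κ i 2) ∈ J := by
      have : (2 : P O ι κ) * (sg O κ i 1 * sg O κ i 2)
          = (sg O κ i 2 * sg O κ i 1 - sg O κ i 0 ^ 2)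
            + (sg O κ i 0 ^ 2 + sg O κ i 1 * sg O κ i 2) := by ring
      rw [this]
      exact add_mem n2 hq
    rwa [Ideal.unit_mul_mem_iff_mem _ (isUnit_two h2)] at h
  refine ⟨hfg, ?_, ?_, ?_⟩
  · have : sg O κ i 0 ^ 2
        = (sg O κ i 0 ^ 2 + sg O κ i 1 * sg O κ i 2) - sg O κ i 1 * sg O κ i 2 := by ring
    rw [this]
    exact sub_mem hq hfg
  · have : sg O κ i 2 ^ 3
        = -(sg O κ i 2 * (sg O κ i 1 * sg O κ i 0 - sg O κ i 2 ^ 2))
          + sg O κ i 0 * (sg O κ i 1 * sg O κ i 2) := by ring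
    rw [this]
    exact add_mem (neg_mem (Ideal.mul_mem_left _ _ n3)) (Ideal.mul_mem_left _ _ hfg)
  · have : sg O κ i 1 ^ 3
        = -(sg O κ i 1 * (sg O κ i 0 * sg O κ i 2 - sg O κ i 1 ^ 2))
          + sg O κ i 0 * (sg O κ i 1 * sg O κ i 2) := by ring
    rw [this]
    exact add_mem (neg_mem (Ideal.mul_mem_left _ _ n1)) (Ideal.mul_mem_left _ _ hfg)

/-- every prime containing `J` contains all the `Σ`- and `Φ`-variables. -/
theorem sg_ph_mem_of_isPrime (Q : Ideal (P O ι κ)) [Q.IsPrime] (hJQ : J ≤ Q) (i : ι)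
    (j : Fin 3) : sg O κ i j ∈ Q ∧ ph O κ i j ∈ Q := by
  obtain ⟨-, c1, c2, c3⟩ := certificate π e he h2 J hJrel hJπ hJu hJb hJc i
  have hw : sg O κ i 0 ∈ Q := Ideal.IsPrime.mem_of_pow_mem inferInstance 2 (hJQ c1)
  have hg : sg O κ i 2 ∈ Q := Ideal.IsPrime.mem_of_pow_mem inferInstance 3 (hJQ c2)
  have hf : sg O κ i 1 ∈ Q := Ideal.IsPrime.mem_of_pow_mem inferInstance 3 (hJQ c3)
  have hu : ph O κ i 0 ∈ Q := by
    have := add_mem (hJQ (hJu i)) hg
    rwa [sub_add_cancel] at this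
  have hb : ph O κ i 1 ∈ Q := by
    have := add_mem (hJQ (hJb i)) hw
    rwa [sub_add_cancel] at this
  have hc : ph O κ i 2 ∈ Q := by
    have := add_mem (hJQ (hJc i)) hf
    rwa [sub_add_cancel] at this
  fin_cases j
  · exact ⟨hw, hu⟩
  · exact ⟨hf, hb⟩
  · exact ⟨hg, hc⟩

end Certificate

/-! ### the bound -/

section Bound

variable [Fintype ι] [Fintype κ]

open Classical in
/-- the parameters: `C π`, `x_k`, `u_i - g_i`, `b_i - w_i`, `c_i - f_i`. -/
def paramFinset (π : O) : Finset (P O ι κ) :=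
  ((({C π} ∪ Finset.univ.image (ex O κ)) ∪
    Finset.univ.image (fun i : ι => ph O κ i 0 - sg O κ i 2)) ∪
    Finset.univ.image (fun i : ι => ph O κ i 1 - sg O κ i 0)) ∪
    Finset.univ.image (fun i : ι => ph O κ i 2 - sg O κ i 1)

theorem card_paramFinset_le (π : O) :
    (paramFinset (ι := ι) (κ := κ) π).card ≤ 1 + 3 * Fintype.card ι + Fintype.card κ := by
  classical
  unfold paramFinset
  have h1 := Finset.card_image_le (s := (Finset.univ : Finset κ)) (f := ex O (ι := ι) κ)
  have h2 := Finset.card_image_le (s := (Finset.univ : Finset ι))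
    (f := fun i : ι => ph O κ i 0 - sg O κ i 2)
  have h3 := Finset.card_image_le (s := (Finset.univ : Finset ι))
    (f := fun i : ι => ph O κ i 1 - sg O κ i 0)
  have h4 := Finset.card_image_le (s := (Finset.univ : Finset ι))
    (f := fun i : ι => ph O κ i 2 - sg O κ i 1)
  rw [Finset.card_univ] at h1 h2 h3 h4
  have u1 := Finset.card_union_le
    (((({C π} : Finset (P O ι κ)) ∪ Finset.univ.image (ex O κ)) ∪
      Finset.univ.image (fun i : ι => ph O κ i 0 - sg O κ i 2)) ∪
      Finset.univ.image (fun i : ι => ph O κ i 1 - sg O κ i 0))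
    (Finset.univ.image (fun i : ι => ph O κ i 2 - sg O κ i 1))
  have u2 := Finset.card_union_le
    ((({C π} : Finset (P O ι κ)) ∪ Finset.univ.image (ex O κ)) ∪
      Finset.univ.image (fun i : ι => ph O κ i 0 - sg O κ i 2))
    (Finset.univ.image (fun i : ι => ph O κ i 1 - sg O κ i 0))
  have u3 := Finset.card_union_le
    (({C π} : Finset (P O ι κ)) ∪ Finset.univ.image (ex O κ))
    (Finset.univ.image (fun i : ι => ph O κ i 0 - sg O κ i 2))
  have u4 := Finset.card_union_le ({C π} : Finset (P O ι κ)) (Finset.univ.image (ex O κ))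
  have u5 : ({C π} : Finset (P O ι κ)).card = 1 := Finset.card_singleton _
  omega

theorem mem_paramFinset_iff (π : O) (x : P O ι κ) :
    x ∈ paramFinset (ι := ι) (κ := κ) π ↔
      x = C π ∨ (∃ k, ex O κ k = x) ∨ (∃ i, ph O κ i 0 - sg O κ i 2 = x) ∨
        (∃ i, ph O κ i 1 - sg O κ i 0 = x) ∨ (∃ i, ph O κ i 2 - sg O κ i 1 = x) := by
  classical
  simp only [paramFinset, Finset.mem_union, Finset.mem_singleton, Finset.mem_image,
    Finset.mem_univ, true_and]
  tauto

variable [IsLocalRing O]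

/-- the parameters are non-units. -/
theorem paramFinset_subset_maximalIdeal (π : O) (hπ : π ∈ maximalIdeal O) :
    ((paramFinset (ι := ι) (κ := κ) π : Finset (P O ι κ)) : Set (P O ι κ))
      ⊆ maximalIdeal (P O ι κ) := by
  intro x hx
  rw [Finset.mem_coe, mem_paramFinset_iff] at hx
  rw [SetLike.mem_coe, mem_maximalIdeal, mem_nonunits_iff,
    MvPowerSeries.isUnit_iff_constantCoeff]
  have hnu : ¬ IsUnit (0 : O) := not_isUnit_zero
  have hX : ∀ v : Var ι κ, constantCoeff (X v : P O ι κ) = 0 := fun v => constantCoeff_X v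
  rcases hx with rfl | ⟨k, rfl⟩ | ⟨i, rfl⟩ | ⟨i, rfl⟩ | ⟨i, rfl⟩
  · rw [constantCoeff_C]
    exact (mem_maximalIdeal _).mp hπ
  · show ¬ IsUnit (constantCoeff (X (Sum.inr (Sum.inr k)) : P O ι κ))
    rw [hX]
    exact hnu
  · show ¬ IsUnit (constantCoeff
      ((X (Sum.inr (Sum.inl (i, 0))) : P O ι κ) - X (Sum.inl (i, 2))))
    rw [map_sub, hX, hX, sub_zero]
    exact hnu
  · show ¬ IsUnit (constantCoeff
      ((X (Sum.inr (Sum.inl (i, 1))) : P O ι κ) - X (Sum.inl (i, 0))))
    rw [map_sub, hX, hX, sub_zero]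
    exact hnu
  · show ¬ IsUnit (constantCoeff
      ((X (Sum.inr (Sum.inl (i, 2))) : P O ι κ) - X (Sum.inl (i, 1))))
    rw [map_sub, hX, hX, sub_zero]
    exact hnu

/-- **LA3d**: the dimension bound for every quotient of the `χ`-side. -/
theorem ringKrullDim_quot_le [IsNoetherianRing O] (π : O)
    (hπ : maximalIdeal O = Ideal.span {π}) (h2 : IsUnit (2 : O)) (e : ι → O)
    (he : ∀ i, π ∣ e i) (K : Ideal (P O ι κ)) (hK : Model.relIdeal O κ e 1 ≤ K) :
    ringKrullDim (P O ι κ ⧸ K)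
      ≤ ((1 + 3 * Fintype.card ι + Fintype.card κ : ℕ) : WithBot ℕ∞) := by
  classical
  have hπm : π ∈ maximalIdeal O := by
    rw [hπ]
    exact Ideal.mem_span_singleton_self π
  set R := P O ι κ ⧸ K with hR
  let mkK : P O ι κ →+* R := Ideal.Quotient.mk K
  have hmkK : Function.Surjective mkK := Ideal.Quotient.mk_surjective
  let s : Finset R := (paramFinset (ι := ι) (κ := κ) π).image mkK
  -- the images of the parameters lie in the Jacobson radical
  have hs : (s : Set R) ⊆ Ring.jacobson R := by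
    intro y hy
    rw [Finset.mem_coe, Finset.mem_image] at hy
    obtain ⟨x, hx, rfl⟩ := hy
    have hx' : x ∈ Ideal.jacobson K := by
      have h1 : x ∈ maximalIdeal (P O ι κ) :=
        paramFinset_subset_maximalIdeal π hπm (Finset.mem_coe.mpr hx)
      have h2' : Ideal.jacobson (⊥ : Ideal (P O ι κ)) ≤ Ideal.jacobson K :=
        Ideal.jacobson_mono bot_le
      apply h2'
      rwa [IsLocalRing.jacobson_eq_maximalIdeal ⊥ bot_ne_top]
    have h3 := Ideal.map_jacobson_of_surjective (f := mkK) hmkK (I := K)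
      (by rw [Ideal.mk_ker])
    have h4 : Ideal.map mkK K = ⊥ := by
      rw [Ideal.map_eq_bot_iff_le_ker, Ideal.mk_ker]
    rw [h4] at h3
    have h5 : mkK x ∈ Ideal.map mkK (Ideal.jacobson K) := Ideal.mem_map_of_mem _ hx'
    rw [h3, Ideal.jacobson_bot] at h5
    exact h5
  have key := ringKrullDim_le_ringKrullDim_quotient_add_card s hs
  -- the quotient has dimension `≤ 0`
  have hzero : ringKrullDim (R ⧸ Ideal.span (s : Set R)) ≤ 0 := by
    have hdim : Ring.KrullDimLE 0 (R ⧸ Ideal.span (s : Set R)) := by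
      rw [Ring.krullDimLE_zero_iff]
      intro 𝔮 h𝔮
      let f : P O ι κ →+* (R ⧸ Ideal.span (s : Set R)) :=
        (Ideal.Quotient.mk (Ideal.span (s : Set R))).comp mkK
      have hf : Function.Surjective f :=
        Ideal.Quotient.mk_surjective.comp hmkK
      let Q : Ideal (P O ι κ) := 𝔮.comap f
      have : Q.IsPrime := Ideal.comap_isPrime f 𝔮
      have hJ : RingHom.ker f ≤ Q := Ideal.ker_le_comap f
      have hKker : K ≤ RingHom.ker f := by
        intro x hx
        rw [RingHom.mem_ker, RingHom.comp_apply]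
        have : mkK x = 0 := Ideal.Quotient.eq_zero_iff_mem.mpr hx
        rw [this, map_zero]
      have hparam : ∀ x ∈ paramFinset (ι := ι) (κ := κ) π, x ∈ RingHom.ker f := by
        intro x hx
        rw [RingHom.mem_ker, RingHom.comp_apply, Ideal.Quotient.eq_zero_iff_mem]
        exact Ideal.subset_span (Finset.mem_coe.mpr (Finset.mem_image_of_mem _ hx))
      have hJπ : (C π : P O ι κ) ∈ RingHom.ker f :=
        hparam _ ((mem_paramFinset_iff π _).mpr (Or.inl rfl))
      have hJx : ∀ k, ex O κ k ∈ RingHom.ker f := fun k =>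
        hparam _ ((mem_paramFinset_iff π _).mpr (Or.inr (Or.inl ⟨k, rfl⟩)))
      have hJu : ∀ i, ph O κ i 0 - sg O κ i 2 ∈ RingHom.ker f := fun i =>
        hparam _ ((mem_paramFinset_iff π _).mpr (Or.inr (Or.inr (Or.inl ⟨i, rfl⟩))))
      have hJb : ∀ i, ph O κ i 1 - sg O κ i 0 ∈ RingHom.ker f := fun i =>
        hparam _ ((mem_paramFinset_iff π _).mpr (Or.inr (Or.inr (Or.inr (Or.inl ⟨i, rfl⟩)))))
      have hJc : ∀ i, ph O κ i 2 - sg O κ i 1 ∈ RingHom.ker f := fun i =>
        hparam _ ((mem_paramFinset_iff π _).mpr (Or.inr (Or.inr (Or.inr (Or.inr ⟨i, rfl⟩)))))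
      have hvars : ∀ v : Var ι κ, (X v : P O ι κ) ∈ Q := by
        intro v
        rcases v with ⟨i, j⟩ | ⟨i, j⟩ | k
        · exact (sg_ph_mem_of_isPrime π e he h2 (RingHom.ker f) (hK.trans hKker) hJπ hJu hJb hJc
            Q hJ i j).1
        · exact (sg_ph_mem_of_isPrime π e he h2 (RingHom.ker f) (hK.trans hKker) hJπ hJu hJb hJc
            Q hJ i j).2
        · exact hJ (hJx k)
      have hQmax : Q = maximalIdeal (P O ι κ) :=
        eq_maximalIdeal_of_mem π hπ Q (Ideal.IsPrime.ne_top inferInstance) (hJ hJπ) hvars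
      have hQmax' : Q.IsMaximal := hQmax ▸ IsLocalRing.maximalIdeal.isMaximal _
      have hmap : Q.map f = 𝔮 := Ideal.map_comap_of_surjective f hf 𝔮
      rcases Ideal.map_eq_top_or_isMaximal_of_surjective f hf hQmax' with h | h
      · rw [hmap] at h
        exact absurd h (Ideal.IsPrime.ne_top h𝔮)
      · rwa [hmap] at h
    exact Ring.krullDimLE_iff.mp hdim
  have hcard : (s.card : WithBot ℕ∞)
      ≤ ((1 + 3 * Fintype.card ι + Fintype.card κ : ℕ) : WithBot ℕ∞) := by
    have h1 : s.card ≤ 1 + 3 * Fintype.card ι + Fintype.card κ :=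
      Finset.card_image_le.trans (card_paramFinset_le π)
    exact_mod_cast h1
  calc ringKrullDim R ≤ ringKrullDim (R ⧸ Ideal.span (s : Set R)) + s.card := key
    _ ≤ 0 + ((1 + 3 * Fintype.card ι + Fintype.card κ : ℕ) : WithBot ℕ∞) :=
        add_le_add hzero hcard
    _ = _ := zero_add _

end Bound

end Fermat.Agent.S43.Local.ChiDim
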