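/-
PROJECT R (row 37 by S43), LOCAL ALGEBRA, brick #6031 (3) (helper25):
THE CONE RING `O[[w,f,g]] / (w² + f g - e)` IS A DOMAIN (`e ∈ π O`), AND `π` STAYS PRIME IN IT
(helper6's cut #6082, brick LA1).

* `isPrime_of_lift` : a prime-lifting criterion (`(I, π)` prime, `π` regular modulo `I`,
  `⋂ (I, πⁿ) = I` ⟹ `I` prime);
* `coeff_substMonomial` : coefficients of a monomial substitution;
* `coneHom`, `ker_coneHom` : over any commutative ring `F` the kernel of
  `F[[w,f,g]] → F[[s,t]]`, `w ↦ s t`, `f ↦ s²`, `g ↦ - t²` is generated by `w² + f g`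
  (closed formula for the quotient, no Weierstrass division);
* `isDomain_cone` : the cone ring over a noetherian local domain `O` with a prime element `π`,
  `π ∣ e`;
* `prime_mk_C`, `isNoetherianRing_cone`, `isLocalRing_cone` : the cone ring is again a
  noetherian local domain in which (the class of) `π` is a prime element, so the construction
  can be iterated over the base.
-/
import Mathlib

set_option autoImplicit false
set_option linter.unusedSectionVars false

noncomputable section

namespace Fermat.Agent.S43.Local.Cone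

open MvPowerSeries Finsupp

/-! ### lifting primality along a regular element -/

theorem isPrime_of_lift {R : Type*} [CommRing R] (I : Ideal R) (π : R)
    (hprime : (I ⊔ Ideal.span {π}).IsPrime)
    (hreg : ∀ x : R, π * x ∈ I → x ∈ I)
    (hsep : ∀ x : R, (∀ n : ℕ, x ∈ I ⊔ Ideal.span {π ^ n}) → x ∈ I) : I.IsPrime := by
  classical
  have hregpow : ∀ (n : ℕ) (x : R), π ^ n * x ∈ I → x ∈ I := by
    intro n
    induction n with
    | zero => intro x hx; simpa using hx
    | succ n ih =>
      intro x hx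
      apply ih
      apply hreg
      rw [← mul_assoc, ← pow_succ']
      exact hx
  -- decomposition of an element outside `I`
  have key : ∀ x : R, x ∉ I → ∃ (n : ℕ) (i x' : R), i ∈ I ∧ x = i + π ^ n * x' ∧
      x' ∉ I ⊔ Ideal.span {π} := by
    intro x hx
    have h1 : ∃ n : ℕ, x ∉ I ⊔ Ideal.span {π ^ n} := by
      by_contra hcon
      push Not at hcon
      exact hx (hsep x hcon)
    have hn0 : Nat.find h1 ≠ 0 := by
      intro h0
      have := Nat.find_spec h1
      rw [h0, pow_zero, Ideal.span_singleton_one] at this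
      exact this (by simp)
    obtain ⟨m, hm⟩ := Nat.exists_eq_succ_of_ne_zero hn0
    have h2 : x ∈ I ⊔ Ideal.span {π ^ m} := by
      by_contra hcon
      have := Nat.find_min' h1 hcon
      omega
    obtain ⟨i, hi, z, hz, hxz⟩ := Submodule.mem_sup.mp h2
    obtain ⟨x', rfl⟩ := Ideal.mem_span_singleton'.mp hz
    refine ⟨m, i, x', hi, by rw [← hxz, mul_comm], ?_⟩
    intro hx'
    obtain ⟨j, hj, z', hz', hjz⟩ := Submodule.mem_sup.mp hx'
    obtain ⟨x'', rfl⟩ := Ideal.mem_span_singleton'.mp hz'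
    apply Nat.find_spec h1
    rw [hm]
    refine Submodule.mem_sup.mpr ⟨i + π ^ m * j, I.add_mem hi (I.mul_mem_left _ hj),
      x'' * π ^ (m + 1), Ideal.mem_span_singleton'.mpr ⟨x'', rfl⟩, ?_⟩
    rw [← hxz, ← hjz]
    ring
  refine ⟨?_, ?_⟩
  · intro htop
    apply hprime.ne_top
    rw [htop]; simp
  · intro x y hxy
    by_contra hcon
    push Not at hcon
    obtain ⟨n, i, x', hi, rfl, hx'⟩ := key x hcon.1
    obtain ⟨m, j, y', hj, rfl, hy'⟩ := key y hcon.2
    have h3 : π ^ (n + m) * (x' * y') ∈ I := by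
      have : π ^ (n + m) * (x' * y') =
          (i + π ^ n * x') * (j + π ^ m * y') - (i * (j + π ^ m * y') + π ^ n * x' * j) := by
        ring
      rw [this]
      exact I.sub_mem hxy (I.add_mem (I.mul_mem_right _ hi) (I.mul_mem_left _ hj))
    have h4 : x' * y' ∈ I ⊔ Ideal.span {π} := Ideal.mem_sup_left (hregpow _ _ h3)
    rcases hprime.mem_or_mem h4 with h | h
    · exact hx' h
    · exact hy' h

/-! ### exponents -/

/-- the exponent `w^a f^b g^c` -/
def tr (a b c : ℕ) : Fin 3 →₀ ℕ := Finsupp.equivFunOnFinite.symm ![a, b, c]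

/-- the exponent `s^m t^n` -/
def pr (m n : ℕ) : Fin 2 →₀ ℕ := Finsupp.equivFunOnFinite.symm ![m, n]

@[simp] theorem tr_zero (a b c : ℕ) : tr a b c 0 = a := rfl
@[simp] theorem tr_one (a b c : ℕ) : tr a b c 1 = b := rfl
@[simp] theorem tr_two (a b c : ℕ) : tr a b c 2 = c := rfl
@[simp] theorem pr_zero (m n : ℕ) : pr m n 0 = m := rfl
@[simp] theorem pr_one (m n : ℕ) : pr m n 1 = n := rfl

theorem tr_eta (d : Fin 3 →₀ ℕ) : tr (d 0) (d 1) (d 2) = d := by
  ext i; fin_cases i <;> rfl

theorem pr_eta (e : Fin 2 →₀ ℕ) : pr (e 0) (e 1) = e := by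
  ext i; fin_cases i <;> rfl

theorem tr_inj {a b c a' b' c' : ℕ} : tr a b c = tr a' b' c' ↔ a = a' ∧ b = b' ∧ c = c' := by
  constructor
  · intro h
    exact ⟨by simpa using DFunLike.congr_fun h 0, by simpa using DFunLike.congr_fun h 1,
      by simpa using DFunLike.congr_fun h 2⟩
  · rintro ⟨rfl, rfl, rfl⟩; rfl

theorem pr_inj {m n m' n' : ℕ} : pr m n = pr m' n' ↔ m = m' ∧ n = n' := by
  constructor
  · intro h
    exact ⟨by simpa using DFunLike.congr_fun h 0, by simpa using DFunLike.congr_fun h 1⟩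
  · rintro ⟨rfl, rfl⟩; rfl

theorem tr_le_iff {a b c a' b' c' : ℕ} : tr a b c ≤ tr a' b' c' ↔ a ≤ a' ∧ b ≤ b' ∧ c ≤ c' := by
  constructor
  · intro h
    exact ⟨by simpa using h 0, by simpa using h 1, by simpa using h 2⟩
  · rintro ⟨h0, h1, h2⟩ i
    fin_cases i
    · exact h0
    · exact h1
    · exact h2

theorem tr_sub (a b c a' b' c' : ℕ) : tr a b c - tr a' b' c' = tr (a - a') (b - b') (c - c') := by
  ext i; fin_cases i <;> rfl

/-! ### the cone substitution -/

section Field

variable (F : Type*) [CommRing F]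

/-- `w ↦ s t`, `f ↦ s²`, `g ↦ - t²` -/
def coneSub : Fin 3 → MvPowerSeries (Fin 2) F :=
  ![monomial (pr 1 1) (1 : F), monomial (pr 2 0) (1 : F), monomial (pr 0 2) (-1 : F)]

theorem hasSubst_coneSub : HasSubst (coneSub F) := by
  apply hasSubst_of_constantCoeff_zero
  intro i
  fin_cases i
  · show constantCoeff (monomial (pr 1 1) (1 : F)) = 0
    rw [← coeff_zero_eq_constantCoeff_apply, coeff_monomial, if_neg]
    intro h
    have := DFunLike.congr_fun h 0
    simp at this
  · show constantCoeff (monomial (pr 2 0) (1 : F)) = 0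
    rw [← coeff_zero_eq_constantCoeff_apply, coeff_monomial, if_neg]
    intro h
    have := DFunLike.congr_fun h 0
    simp at this
  · show constantCoeff (monomial (pr 0 2) (-1 : F)) = 0
    rw [← coeff_zero_eq_constantCoeff_apply, coeff_monomial, if_neg]
    intro h
    have := DFunLike.congr_fun h 1
    simp at this

/-- the cone homomorphism `F[[w,f,g]] → F[[s,t]]` -/
def coneHom : MvPowerSeries (Fin 3) F →+* MvPowerSeries (Fin 2) F :=
  (substAlgHom (R := F) (hasSubst_coneSub F)).toRingHom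

theorem prod_coneSub (d : Fin 3 →₀ ℕ) :
    (d.prod fun s e => coneSub F s ^ e) =
      monomial (pr (d 0 + 2 * d 1) (d 0 + 2 * d 2)) ((-1 : F) ^ d 2) := by
  rw [Finsupp.prod_fintype _ _ (fun i => pow_zero _), Fin.prod_univ_three]
  show (monomial (pr 1 1) (1 : F)) ^ d 0 * (monomial (pr 2 0) (1 : F)) ^ d 1 *
    (monomial (pr 0 2) (-1 : F)) ^ d 2 = _
  have hexp : d 0 • pr 1 1 + d 1 • pr 2 0 + d 2 • pr 0 2 =
      pr (d 0 + 2 * d 1) (d 0 + 2 * d 2) := by
    ext i
    fin_cases i
    · show d 0 * 1 + d 1 * 2 + d 2 * 0 = d 0 + 2 * d 1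
      ring
    · show d 0 * 1 + d 1 * 0 + d 2 * 2 = d 0 + 2 * d 2
      ring
  rw [monomial_pow, monomial_pow, monomial_pow, monomial_mul_monomial, monomial_mul_monomial,
    one_pow, one_pow, one_mul, one_mul, hexp]

theorem coneHom_monomial (d : Fin 3 →₀ ℕ) (r : F) :
    coneHom F (monomial d r) =
      monomial (pr (d 0 + 2 * d 1) (d 0 + 2 * d 2)) (r * (-1 : F) ^ d 2) := by
  show substAlgHom (R := F) (hasSubst_coneSub F) (monomial d r) = _
  rw [substAlgHom_monomial, prod_coneSub, MvPowerSeries.algebraMap_apply, Algebra.algebraMap_self,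
    RingHom.id_apply]
  ext e
  rw [coeff_C_mul, coeff_monomial, coeff_monomial]
  split_ifs <;> simp

theorem coeff_coneHom (P : MvPowerSeries (Fin 3) F) (e : Fin 2 →₀ ℕ) :
    coeff e (coneHom F P) =
      finsum (fun d : Fin 3 →₀ ℕ =>
        if e = pr (d 0 + 2 * d 1) (d 0 + 2 * d 2) then
          coeff d P * (-1 : F) ^ d 2 else 0) := by
  show coeff e (substAlgHom (R := F) (hasSubst_coneSub F) P) = _
  rw [substAlgHom_apply, coeff_subst (hasSubst_coneSub F)]
  congr 1
  ext d
  rw [prod_coneSub, coeff_monomial, smul_eq_mul]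
  split_ifs <;> simp

end Field

/-! ### the kernel of the cone homomorphism -/

section Kernel

variable {F : Type*} [CommRing F]

/-- the cone equation `w² + f g` -/
def hbar (F : Type*) [CommRing F] : MvPowerSeries (Fin 3) F :=
  monomial (tr 2 0 0) (1 : F) + monomial (tr 0 1 1) (1 : F)

theorem hbar_eq : hbar F = X 0 ^ 2 + X 1 * X 2 := by
  have h1 : (X 0 : MvPowerSeries (Fin 3) F) ^ 2 = monomial (tr 2 0 0) 1 := by
    rw [X_pow_eq]
    have : (Finsupp.single (0 : Fin 3) 2 : Fin 3 →₀ ℕ) = tr 2 0 0 := by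
      ext i; fin_cases i <;> simp [tr]
    rw [this]
  have h2 : (X 1 : MvPowerSeries (Fin 3) F) * X 2 = monomial (tr 0 1 1) 1 := by
    rw [X_def, X_def, monomial_mul_monomial]
    have : (Finsupp.single (1 : Fin 3) 1 + Finsupp.single (2 : Fin 3) 1 : Fin 3 →₀ ℕ) =
        tr 0 1 1 := by
      ext i; fin_cases i <;> simp [tr]
    rw [this, mul_one]
  rw [hbar, h1, h2]

theorem coneHom_hbar : coneHom F (hbar F) = 0 := by
  rw [hbar, map_add, coneHom_monomial, coneHom_monomial]
  simp only [tr_zero, tr_one, tr_two]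
  rw [← map_add]
  norm_num

/-- the alternating sums along a fibre -/
def S (P : MvPowerSeries (Fin 3) F) (a b c : ℕ) : F :=
  ∑ j ∈ Finset.range (min b c + 1), (-1 : F) ^ j * coeff (tr (a + 2 * j) (b - j) (c - j)) P

theorem S_succ (P : MvPowerSeries (Fin 3) F) (a b c : ℕ) :
    S P a (b + 1) (c + 1) = coeff (tr a (b + 1) (c + 1)) P - S P (a + 2) b c := by
  have hmin : min (b + 1) (c + 1) + 1 = (min b c + 1) + 1 := by
    rw [Nat.add_min_add_right]
  rw [S, hmin, Finset.sum_range_succ', S]
  simp only [pow_zero, one_mul, mul_zero, add_zero, Nat.sub_zero]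
  rw [sub_eq_add_neg, add_comm, ← Finset.sum_neg_distrib]
  congr 1
  apply Finset.sum_congr rfl
  intro j _
  have h1 : a + 2 * (j + 1) = a + 2 + 2 * j := by ring
  have h2 : b + 1 - (j + 1) = b - j := by omega
  have h3 : c + 1 - (j + 1) = c - j := by omega
  rw [h1, h2, h3, pow_succ]
  ring

theorem S_zero_left (P : MvPowerSeries (Fin 3) F) (a c : ℕ) :
    S P a 0 c = coeff (tr a 0 c) P := by
  simp [S]

theorem S_zero_right (P : MvPowerSeries (Fin 3) F) (a b : ℕ) :
    S P a b 0 = coeff (tr a b 0) P := by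
  simp [S]

/-- the coefficients of `coneHom P` at the exponents `(a + 2 b, a + 2 c)`, `a ≤ 1` -/
theorem coeff_coneHom_fibre (P : MvPowerSeries (Fin 3) F) (a b c : ℕ) (ha : a ≤ 1) :
    coeff (pr (a + 2 * b) (a + 2 * c)) (coneHom F P) = (-1 : F) ^ c * S P a b c := by
  classical
  rw [coeff_coneHom]
  have hsupp : (Function.support fun d : Fin 3 →₀ ℕ =>
      if pr (a + 2 * b) (a + 2 * c) = pr (d 0 + 2 * d 1) (d 0 + 2 * d 2) then
        coeff d P * (-1 : F) ^ d 2 else 0) ⊆
      ((Finset.range (min b c + 1)).image fun j => tr (a + 2 * j) (b - j) (c - j) : Finset _) := by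
    intro d hd
    rw [Function.mem_support] at hd
    have hd' : pr (a + 2 * b) (a + 2 * c) = pr (d 0 + 2 * d 1) (d 0 + 2 * d 2) := by
      by_contra h
      exact hd (if_neg h)
    obtain ⟨h1, h2⟩ := pr_inj.mp hd'
    rw [Finset.coe_image, Set.mem_image]
    refine ⟨(d 0 - a) / 2, ?_, ?_⟩
    · rw [Finset.mem_coe, Finset.mem_range]
      omega
    · refine Eq.trans (tr_inj.mpr ⟨?_, ?_, ?_⟩) (tr_eta d)
      · omega
      · omega
      · omega
  rw [finsum_eq_sum_of_support_subset _ hsupp, Finset.sum_image, S, Finset.mul_sum]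
  · apply Finset.sum_congr rfl
    intro j hj
    rw [Finset.mem_range] at hj
    simp only [tr_zero, tr_one, tr_two]
    have hb : a + 2 * j + 2 * (b - j) = a + 2 * b := by omega
    have hc : a + 2 * j + 2 * (c - j) = a + 2 * c := by omega
    rw [hb, hc, if_pos rfl]
    have hpow : (-1 : F) ^ (c - j) = (-1) ^ c * (-1) ^ j := by
      have hcj : c = (c - j) + j := by omega
      conv_rhs => rw [hcj, pow_add]
      have h11 : ((-1 : F) ^ j) * ((-1) ^ j) = 1 := by
        rw [← mul_pow]; norm_num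
      rw [mul_assoc, h11, mul_one]
    rw [hpow]
    ring
  · intro j hj j' hj' h
    rw [Finset.mem_coe, Finset.mem_range] at hj hj'
    have := (tr_inj.mp h).1
    omega

/-- the quotient by the cone equation, in closed form -/
def quo (P : MvPowerSeries (Fin 3) F) : MvPowerSeries (Fin 3) F :=
  fun d => S P (d 0 + 2) (d 1) (d 2)

theorem coeff_quo (P : MvPowerSeries (Fin 3) F) (a b c : ℕ) :
    coeff (tr a b c) (quo P) = S P (a + 2) b c := rfl

theorem coeff_hbar_mul (Q : MvPowerSeries (Fin 3) F) (a b c : ℕ) :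
    coeff (tr a b c) (hbar F * Q) =
      (if 2 ≤ a then coeff (tr (a - 2) b c) Q else 0) +
        (if 1 ≤ b ∧ 1 ≤ c then coeff (tr a (b - 1) (c - 1)) Q else 0) := by
  classical
  rw [hbar, add_mul, map_add, coeff_monomial_mul, coeff_monomial_mul]
  simp only [tr_le_iff, tr_sub, one_mul, Nat.zero_le, and_true, true_and, Nat.sub_zero]

theorem S_eq_zero (P : MvPowerSeries (Fin 3) F)
    (hP : coneHom F P = 0) (a b c : ℕ) (ha : a ≤ 1) : S P a b c = 0 := by
  have h := coeff_coneHom_fibre P a b c ha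
  rw [hP, map_zero] at h
  have h11 : ((-1 : F) ^ c) * ((-1) ^ c) = 1 := by
    rw [← mul_pow]; norm_num
  calc S P a b c = ((-1 : F) ^ c) * ((-1) ^ c * S P a b c) := by rw [← mul_assoc, h11, one_mul]
    _ = 0 := by rw [← h, mul_zero]

theorem eq_hbar_mul_quo (P : MvPowerSeries (Fin 3) F)
    (hP : coneHom F P = 0) : P = hbar F * quo P := by
  ext d
  rw [← tr_eta d]
  generalize d 0 = a
  generalize d 1 = b
  generalize d 2 = c
  rw [coeff_hbar_mul, coeff_quo, coeff_quo]
  rcases Nat.lt_or_ge a 2 with ha | ha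
  · -- `a ≤ 1`: the fibre relation
    have hS := S_eq_zero P hP a b c (by omega)
    rw [if_neg (by omega), zero_add]
    rcases b with _ | b
    · rw [if_neg (by omega)]
      rw [S_zero_left] at hS
      exact hS
    rcases c with _ | c
    · rw [if_neg (by omega)]
      rw [S_zero_right] at hS
      exact hS
    rw [if_pos ⟨by omega, by omega⟩]
    rw [S_succ] at hS
    simp only [Nat.add_sub_cancel]
    exact sub_eq_zero.mp hS
  · rw [if_pos ha]
    have ha2 : a - 2 + 2 = a := by omega
    rw [ha2]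
    rcases b with _ | b
    · rw [if_neg (by omega), add_zero, S_zero_left]
    rcases c with _ | c
    · rw [if_neg (by omega), add_zero, S_zero_right]
    rw [if_pos ⟨by omega, by omega⟩, S_succ]
    simp only [Nat.add_sub_cancel]
    ring

/-- **the kernel of the cone homomorphism is generated by `w² + f g`** -/
theorem ker_coneHom : RingHom.ker (coneHom F) = Ideal.span {hbar F} := by
  apply le_antisymm
  · intro P hP
    rw [RingHom.mem_ker] at hP
    rw [Ideal.mem_span_singleton']
    exact ⟨quo P, by rw [mul_comm]; exact (eq_hbar_mul_quo P hP).symm⟩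
  · rw [Ideal.span_le, Set.singleton_subset_iff]
    exact coneHom_hbar

theorem isPrime_span_hbar [IsDomain F] :
    (Ideal.span {hbar F}).IsPrime := by
  rw [← ker_coneHom]
  have : IsDomain (MvPowerSeries (Fin 2) F) := NoZeroDivisors.to_isDomain _
  exact RingHom.ker_isPrime _

/-- the special fibre of the cone ring is a domain -/
theorem isDomain_quot_hbar [IsDomain F] :
    IsDomain (MvPowerSeries (Fin 3) F ⧸ Ideal.span {hbar F}) :=
  haveI := isPrime_span_hbar (F := F)
  Ideal.Quotient.isDomain _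

end Kernel

/-! ### the cone ring over a discrete valuation ring -/

section Local

open IsLocalRing

variable {O : Type*} [CommRing O] [IsDomain O]

theorem map_hbar {F : Type*} [CommRing F] (φ : O →+* F) :
    MvPowerSeries.map (σ := Fin 3) φ (hbar O) = hbar F := by
  rw [hbar, hbar, map_add, map_monomial, map_monomial, map_one]

theorem hbar_ne_zero (F : Type*) [CommRing F] [Nontrivial F] : hbar F ≠ 0 := by
  classical
  intro h
  have h1 := congrArg (coeff (tr 2 0 0)) h
  rw [hbar, map_add, coeff_monomial_same, coeff_monomial, if_neg, add_zero, map_zero] at h1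
  · exact one_ne_zero h1
  · intro h2
    have := (tr_inj.mp h2).1
    omega

/-- a series all of whose coefficients are divisible by `π` is divisible by `C π` -/
theorem exists_C_mul_of_map_eq_zero (π : O) (x : MvPowerSeries (Fin 3) O)
    (hx : MvPowerSeries.map (Ideal.Quotient.mk (Ideal.span {π})) x = 0) :
    ∃ y : MvPowerSeries (Fin 3) O, x = C π * y := by
  have h : ∀ d, ∃ c : O, coeff d x = π * c := by
    intro d
    have h1 := congrArg (coeff d) hx
    rw [coeff_map, map_zero, Ideal.Quotient.eq_zero_iff_mem, Ideal.mem_span_singleton'] at h1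
    obtain ⟨c, hc⟩ := h1
    exact ⟨c, by rw [← hc, mul_comm]⟩
  choose c hc using h
  refine ⟨fun d => c d, ?_⟩
  ext d
  rw [coeff_C_mul, hc d]
  rfl

/-- lifting a series along the residue map -/
theorem exists_map_eq (π : O) (y : MvPowerSeries (Fin 3) (O ⧸ Ideal.span {π})) :
    ∃ x : MvPowerSeries (Fin 3) O, MvPowerSeries.map (Ideal.Quotient.mk (Ideal.span {π})) x = y := by
  choose c hc using fun d => Ideal.Quotient.mk_surjective (coeff d y)
  refine ⟨fun d => c d, ?_⟩
  ext d
  rw [coeff_map]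
  exact hc d

/-- the cone equation `w² + f g - e` -/
def cone (e : O) : MvPowerSeries (Fin 3) O := hbar O - C e

theorem cone_eq (e : O) : cone e = X 0 ^ 2 + X 1 * X 2 - C e := by
  rw [cone, hbar_eq]

theorem map_cone (π e : O) (he : π ∣ e) :
    MvPowerSeries.map (Ideal.Quotient.mk (Ideal.span {π})) (cone e) = hbar (O ⧸ Ideal.span {π}) := by
  rw [cone, map_sub, map_hbar, map_C]
  have : Ideal.Quotient.mk (Ideal.span {π}) e = 0 :=
    Ideal.Quotient.eq_zero_iff_mem.mpr (Ideal.mem_span_singleton.mpr he)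
  rw [this, map_zero, sub_zero]

variable (π e : O) (hπ : Prime π) (he : π ∣ e)

/-- the composite `O[[w,f,g]] → (O/π)[[w,f,g]] → (O/π)[[s,t]]` -/
def psi : MvPowerSeries (Fin 3) O →+* MvPowerSeries (Fin 2) (O ⧸ Ideal.span {π}) :=
  (coneHom (O ⧸ Ideal.span {π})).comp (MvPowerSeries.map (Ideal.Quotient.mk (Ideal.span {π})))

include hπ in
theorem isDomain_quot_pi : IsDomain (O ⧸ Ideal.span {π}) :=
  haveI := (Ideal.span_singleton_prime hπ.ne_zero).mpr hπ
  Ideal.Quotient.isDomain _

include hπ he in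
theorem ker_psi :
    RingHom.ker (psi π) = Ideal.span {cone e} ⊔ Ideal.span {C π} := by
  have := isDomain_quot_pi π hπ
  apply le_antisymm
  · intro P hP
    rw [RingHom.mem_ker, psi, RingHom.comp_apply, ← RingHom.mem_ker, ker_coneHom,
      Ideal.mem_span_singleton'] at hP
    obtain ⟨Qb, hQb⟩ := hP
    obtain ⟨Q, rfl⟩ := exists_map_eq π Qb
    have h0 : MvPowerSeries.map (Ideal.Quotient.mk (Ideal.span {π})) (P - cone e * Q) = 0 := by
      rw [map_sub, map_mul, map_cone π e he, ← hQb, mul_comm, sub_self]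
    obtain ⟨T, hT⟩ := exists_C_mul_of_map_eq_zero π _ h0
    refine Submodule.mem_sup.mpr ⟨cone e * Q, Ideal.mem_span_singleton'.mpr ⟨Q, mul_comm _ _⟩,
      C π * T, Ideal.mem_span_singleton'.mpr ⟨T, mul_comm _ _⟩, ?_⟩
    rw [← hT]; ring
  · rw [sup_le_iff, Ideal.span_le, Ideal.span_le, Set.singleton_subset_iff,
      Set.singleton_subset_iff]
    constructor
    · show psi π (cone e) = 0
      rw [psi, RingHom.comp_apply, map_cone π e he, coneHom_hbar]
    · show psi π (C π) = 0
      rw [psi, RingHom.comp_apply, map_C]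
      have : Ideal.Quotient.mk (Ideal.span {π}) π = 0 :=
        Ideal.Quotient.eq_zero_iff_mem.mpr (Ideal.mem_span_singleton_self π)
      rw [this, map_zero, map_zero]

include hπ he in
theorem isPrime_sup : (Ideal.span {cone e} ⊔ Ideal.span {C π} :
    Ideal (MvPowerSeries (Fin 3) O)).IsPrime := by
  have := isDomain_quot_pi π hπ
  rw [← ker_psi π e hπ he]
  have : IsDomain (MvPowerSeries (Fin 2) (O ⧸ Ideal.span {π})) := NoZeroDivisors.to_isDomain _
  exact RingHom.ker_isPrime _

include hπ he in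
/-- `π` is regular on the cone ring -/
theorem pi_regular (x : MvPowerSeries (Fin 3) O) (hx : C π * x ∈ Ideal.span {cone e}) :
    x ∈ Ideal.span {cone e} := by
  have := isDomain_quot_pi π hπ
  rw [Ideal.mem_span_singleton'] at hx ⊢
  obtain ⟨y, hy⟩ := hx
  have h0 := congrArg (MvPowerSeries.map (Ideal.Quotient.mk (Ideal.span {π}))) hy
  rw [map_mul, map_mul, map_cone π e he, map_C] at h0
  have hπ0 : Ideal.Quotient.mk (Ideal.span {π}) π = 0 :=
    Ideal.Quotient.eq_zero_iff_mem.mpr (Ideal.mem_span_singleton_self π)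
  rw [hπ0, map_zero, zero_mul] at h0
  have hy0 : MvPowerSeries.map (Ideal.Quotient.mk (Ideal.span {π})) y = 0 :=
    (mul_eq_zero.mp h0).resolve_right (hbar_ne_zero _)
  obtain ⟨y', rfl⟩ := exists_C_mul_of_map_eq_zero π y hy0
  refine ⟨y', ?_⟩
  have hC : (C π : MvPowerSeries (Fin 3) O) ≠ 0 := by
    intro h
    have := congrArg (coeff 0) h
    rw [coeff_zero_C, map_zero] at this
    exact hπ.ne_zero this
  apply mul_left_cancel₀ hC
  rw [← hy]; ring

include hπ he in
theorem span_cone_ne_top : (Ideal.span {cone e} : Ideal (MvPowerSeries (Fin 3) O)) ≠ ⊤ := by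
  intro h
  apply (isPrime_sup π e hπ he).ne_top
  rw [h, top_sup_eq]

include hπ he in
theorem mk_C_ne_zero : Ideal.Quotient.mk (Ideal.span {cone e}) (C π) ≠ 0 := by
  intro h
  rw [Ideal.Quotient.eq_zero_iff_mem] at h
  have h1 : (1 : MvPowerSeries (Fin 3) O) ∈ Ideal.span {cone e} :=
    pi_regular π e hπ he 1 (by rwa [mul_one])
  exact span_cone_ne_top π e hπ he ((Ideal.eq_top_iff_one _).mpr h1)

include hπ he in
/-- `π` is a prime element of the cone ring (no finiteness hypothesis on `O`) -/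
theorem prime_mk_C_cone : Prime (Ideal.Quotient.mk (Ideal.span {cone e}) (C π)) := by
  rw [← Ideal.span_singleton_prime (mk_C_ne_zero π e hπ he)]
  have hsup := isPrime_sup π e hπ he
  have hmap : Ideal.span {Ideal.Quotient.mk (Ideal.span {cone e}) (C π)} =
      Ideal.map (Ideal.Quotient.mk (Ideal.span {cone e}))
        (Ideal.span {cone e} ⊔ Ideal.span {C π}) := by
    rw [Ideal.map_sup, Ideal.map_span, Ideal.map_span, Set.image_singleton, Set.image_singleton,
      Ideal.Quotient.eq_zero_iff_mem.mpr (Ideal.mem_span_singleton_self (cone e)),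
      Ideal.span_singleton_zero, bot_sup_eq]
  rw [hmap]
  exact Ideal.map_isPrime_of_surjective Ideal.Quotient.mk_surjective
    (by rw [Ideal.mk_ker]; exact le_sup_left)

include hπ he in
/-- **`π` is a prime element of the cone ring** (literal form) -/
theorem prime_mk_C :
    Prime (Ideal.Quotient.mk
      (Ideal.span {(X 0 ^ 2 + X 1 * X 2 - C e : MvPowerSeries (Fin 3) O)}) (C π)) := by
  rw [← cone_eq]
  exact prime_mk_C_cone π e hπ he

omit [IsDomain O] in
/-- the class of `C e'` is divisible by the class of `C π` when `π ∣ e'` (so the next step of an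
iteration over the base has its divisibility hypothesis) -/
theorem mk_C_dvd (I : Ideal (MvPowerSeries (Fin 3) O)) (e' : O) (he' : π ∣ e') :
    Ideal.Quotient.mk I (C π) ∣ Ideal.Quotient.mk I (C e') := by
  obtain ⟨c, rfl⟩ := he'
  exact ⟨Ideal.Quotient.mk I (C c), by rw [← map_mul, ← map_mul]⟩

variable [IsNoetherianRing O] [IsLocalRing O]

include hπ he in
/-- the cone ring is noetherian -/
theorem isNoetherianRing_cone :
    IsNoetherianRing (MvPowerSeries (Fin 3) O ⧸
      Ideal.span {(X 0 ^ 2 + X 1 * X 2 - C e : MvPowerSeries (Fin 3) O)}) :=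
  inferInstance

include hπ he in
/-- the cone ring is local -/
theorem isLocalRing_cone :
    IsLocalRing (MvPowerSeries (Fin 3) O ⧸
      Ideal.span {(X 0 ^ 2 + X 1 * X 2 - C e : MvPowerSeries (Fin 3) O)}) := by
  rw [← cone_eq]
  have : Nontrivial (MvPowerSeries (Fin 3) O ⧸ Ideal.span {cone e}) :=
    Ideal.Quotient.nontrivial_iff.mpr (span_cone_ne_top π e hπ he)
  exact IsLocalRing.of_surjective' (Ideal.Quotient.mk _) Ideal.Quotient.mk_surjective

include hπ he in
/-- Krull's intersection theorem on the cone ring -/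
theorem sep_cone (x : MvPowerSeries (Fin 3) O)
    (hx : ∀ n : ℕ, x ∈ Ideal.span {cone e} ⊔ Ideal.span {(C π : MvPowerSeries (Fin 3) O) ^ n}) :
    x ∈ Ideal.span {cone e} := by
  have hprime := isPrime_sup π e hπ he
  set I : Ideal (MvPowerSeries (Fin 3) O) := Ideal.span {cone e} with hI
  have hItop : I ≠ ⊤ := by
    intro h
    apply hprime.ne_top
    rw [h]; simp
  have : Nontrivial (MvPowerSeries (Fin 3) O ⧸ I) := Ideal.Quotient.nontrivial_iff.mpr hItop
  have : IsLocalRing (MvPowerSeries (Fin 3) O ⧸ I) :=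
    IsLocalRing.of_surjective' (Ideal.Quotient.mk I) Ideal.Quotient.mk_surjective
  set J : Ideal (MvPowerSeries (Fin 3) O ⧸ I) := Ideal.span {Ideal.Quotient.mk I (C π)} with hJ
  have hJtop : J ≠ ⊤ := by
    intro h
    have h1 : (1 : MvPowerSeries (Fin 3) O ⧸ I) ∈ J := by rw [h]; trivial
    rw [hJ, Ideal.mem_span_singleton'] at h1
    obtain ⟨a, ha⟩ := h1
    obtain ⟨a', rfl⟩ := Ideal.Quotient.mk_surjective a
    rw [← map_mul, ← map_one (Ideal.Quotient.mk I), Ideal.Quotient.eq] at ha
    apply hprime.ne_top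
    rw [Ideal.eq_top_iff_one]
    have h3 : (1 : MvPowerSeries (Fin 3) O) = a' * C π - (a' * C π - 1) := by ring
    rw [h3]
    exact Ideal.sub_mem _ (Ideal.mem_sup_right (Ideal.mem_span_singleton'.mpr ⟨a', rfl⟩))
      (Ideal.mem_sup_left ha)
  have hkrull := Ideal.iInf_pow_eq_bot_of_isLocalRing J hJtop
  have hmem : Ideal.Quotient.mk I x ∈ ⨅ n : ℕ, J ^ n := by
    rw [Ideal.mem_iInf]
    intro n
    obtain ⟨i, hi, z, hz, hxz⟩ := Submodule.mem_sup.mp (hx n)
    obtain ⟨t, rfl⟩ := Ideal.mem_span_singleton'.mp hz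
    rw [← hxz, map_add, Ideal.Quotient.eq_zero_iff_mem.mpr hi, zero_add, map_mul, map_pow, hJ,
      Ideal.span_singleton_pow]
    exact Ideal.mem_span_singleton'.mpr ⟨_, rfl⟩
  rw [hkrull, Ideal.mem_bot] at hmem
  exact Ideal.Quotient.eq_zero_iff_mem.mp hmem

include hπ he in
/-- **the cone ideal is prime** -/
theorem isPrime_span_cone : (Ideal.span {cone e} : Ideal (MvPowerSeries (Fin 3) O)).IsPrime :=
  isPrime_of_lift _ (C π) (isPrime_sup π e hπ he) (pi_regular π e hπ he)
    (sep_cone π e hπ he)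

include hπ he in
/-- **THE CONE RING `O[[w,f,g]] / (w² + f g - e)` IS A DOMAIN** (`O` a noetherian local domain,
`π` a prime element, `π ∣ e`). -/
theorem isDomain_cone :
    IsDomain (MvPowerSeries (Fin 3) O ⧸
      Ideal.span {(X 0 ^ 2 + X 1 * X 2 - C e : MvPowerSeries (Fin 3) O)}) := by
  rw [← cone_eq]
  have := isPrime_span_cone π e hπ he
  exact Ideal.Quotient.isDomain _

end Local

end Fermat.Agent.S43.Local.Cone
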