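/-
PROJECT R (row 37 by S43), LOCAL ALGEBRA, brick LA2 of helper6's cut #6082 / #6096 (helper25):
THE `k`-FOLD CONE RING `O[[w_i, f_i, g_i (i ∈ ι), spectators]] / (w_i² + f_i g_i - e_i : i ∈ ι)`
IS A DOMAIN IN WHICH `π` IS A PRIME ELEMENT (`O` a noetherian local domain, `π` prime, `π ∣ e_i`).

Induction on `ι` through one step lemma `good_step` (adjoin one block to any `O[[σ]] / J`
which is a domain with `π` prime), `Cone.isDomain_cone` + `Cone.prime_mk_C` over the base
`O[[σ]] / J` as black boxes, and the kit isomorphisms `sumAlgEquiv`, `ker_map_mk`.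
-/
import Fermat.Agent.S43.Local.Cone
import Fermat.Agent.S43.Local.Kit.SumEquiv

set_option autoImplicit false

noncomputable section

namespace Fermat.Agent.S43.Local.ConeK

open MvPowerSeries Fermat.Agent.S43.Local.Kit.SumEquiv

universe u v

/-! ### the property carried through the induction -/

section Good

variable {B B' : Type*} [CommRing B] [CommRing B']

/-- `B ⧸ J` is a domain and the class of `π` is a prime element of it, in ideal form -/
def Good (J : Ideal B) (π : B) : Prop :=
  J.IsPrime ∧ (J ⊔ Ideal.span {π}).IsPrime ∧ π ∉ J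

theorem Good.isDomain {J : Ideal B} {π : B} (h : Good J π) : IsDomain (B ⧸ J) :=
  have := h.1
  Ideal.Quotient.isDomain J

theorem Good.prime_mk {J : Ideal B} {π : B} (h : Good J π) : Prime (Ideal.Quotient.mk J π) := by
  have hne : Ideal.Quotient.mk J π ≠ 0 := by
    intro h0
    exact h.2.2 (Ideal.Quotient.eq_zero_iff_mem.mp h0)
  rw [← Ideal.span_singleton_prime hne]
  have hsup := h.2.1
  have hmap : Ideal.span {Ideal.Quotient.mk J π} =
      Ideal.map (Ideal.Quotient.mk J) (J ⊔ Ideal.span {π}) := by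
    rw [Ideal.map_sup, Ideal.map_span, Set.image_singleton, Ideal.map_quotient_self, bot_sup_eq]
  rw [hmap]
  exact Ideal.map_isPrime_of_surjective Ideal.Quotient.mk_surjective
    (by rw [Ideal.mk_ker]; exact le_sup_left)

theorem Good.map_equiv {J : Ideal B} {π : B} (h : Good J π) (φ : B ≃+* B') :
    Good (J.map (φ : B →+* B')) (φ π) := by
  refine ⟨?_, ?_, ?_⟩
  · have := h.1
    exact Ideal.map_isPrime_of_equiv φ
  · have : (J.map (φ : B →+* B') ⊔ Ideal.span {φ π}) =
        (J ⊔ Ideal.span {π}).map (φ : B →+* B') := by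
      rw [Ideal.map_sup, Ideal.map_span, Set.image_singleton]
      rfl
    rw [this]
    have := h.2.1
    exact Ideal.map_isPrime_of_equiv φ
  · intro hmem
    obtain ⟨y, hy, hyx⟩ := (Ideal.mem_map_of_equiv φ _).mp hmem
    have : y = π := φ.injective hyx
    exact h.2.2 (this ▸ hy)

/-- a surjection onto a domain in which the image of `π` is prime -/
theorem good_ker_of_surjective (Θ : B →+* B') (hΘ : Function.Surjective Θ) [IsDomain B']
    (π : B) (hπ : Prime (Θ π)) : Good (RingHom.ker Θ) π := by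
  refine ⟨RingHom.ker_isPrime Θ, ?_, ?_⟩
  · have h1 : RingHom.ker Θ ⊔ Ideal.span {π} = Ideal.comap Θ (Ideal.span {Θ π}) := by
      have := Ideal.comap_map_of_surjective Θ hΘ (Ideal.span {π})
      rw [Ideal.map_span, Set.image_singleton] at this
      rw [this, sup_comm]
      rfl
    rw [h1]
    have : (Ideal.span {Θ π}).IsPrime := (Ideal.span_singleton_prime hπ.ne_zero).mpr hπ
    exact Ideal.comap_isPrime Θ _
  · intro h
    exact hπ.ne_zero ((RingHom.mem_ker).mp h)

end Good

/-! ### generators -/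

section Gen

variable {O : Type*} [CommRing O]

/-- the cone equation `w² + f g - e` in the variables `v 0 = w`, `v 1 = f`, `v 2 = g` -/
def gen {σ : Type*} (v : Fin 3 → σ) (e : O) : MvPowerSeries σ O :=
  X (v 0) ^ 2 + X (v 1) * X (v 2) - C e

theorem renameEquiv_gen {σ τ : Type*} (φ : σ ≃ τ) (v : Fin 3 → σ) (e : O) :
    renameEquiv O φ (gen v e) = gen (fun k => φ (v k)) e := by
  change rename φ (gen v e) = _
  simp only [gen, map_sub, map_add, map_mul, map_pow, rename_X, rename_C]

theorem sumAlgEquiv_gen_inl {σ : Type*} (e : O) :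
    sumAlgEquiv (Fin 3) σ O (gen (fun k => Sum.inl k) e) =
      (X 0 ^ 2 + X 1 * X 2 - C (C e) : MvPowerSeries (Fin 3) (MvPowerSeries σ O)) := by
  simp only [gen, map_sub, map_add, map_mul, map_pow, sumAlgEquiv_X_inl, sumAlgEquiv_C]

theorem sumAlgEquiv_gen_inr {σ : Type*} (v : Fin 3 → σ) (e : O) :
    sumAlgEquiv (Fin 3) σ O (gen (fun k => Sum.inr (v k)) e) =
      (C (gen v e) : MvPowerSeries (Fin 3) (MvPowerSeries σ O)) := by
  simp only [gen, map_sub, map_add, map_mul, map_pow, sumAlgEquiv_X_inr, sumAlgEquiv_C]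

end Gen

/-! ### the step: adjoining one block -/

section Step

open Fermat.Agent.S43.Local.Cone

variable {O : Type u} [CommRing O] [IsDomain O] [IsNoetherianRing O] [IsLocalRing O]
variable {σ : Type v} [Finite σ]

/-- the inclusion of the old variables -/
def inclR (σ : Type v) (O : Type u) [CommRing O] :
    MvPowerSeries σ O →+* MvPowerSeries (Fin 3 ⊕ σ) O :=
  (sumAlgEquiv (Fin 3) σ O).symm.toRingEquiv.toRingHom.comp C

omit [IsDomain O] [IsNoetherianRing O] [IsLocalRing O] [Finite σ] in
theorem sumAlgEquiv_inclR (x : MvPowerSeries σ O) :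
    sumAlgEquiv (Fin 3) σ O (inclR σ O x) = C x := by
  show sumAlgEquiv (Fin 3) σ O ((sumAlgEquiv (Fin 3) σ O).symm (C x)) = C x
  rw [AlgEquiv.apply_symm_apply]

omit [IsDomain O] [IsNoetherianRing O] [IsLocalRing O] [Finite σ] in
theorem inclR_gen (v : Fin 3 → σ) (e : O) :
    inclR σ O (gen v e) = gen (fun k => Sum.inr (v k)) e := by
  apply (sumAlgEquiv (Fin 3) σ O).injective
  rw [sumAlgEquiv_inclR, sumAlgEquiv_gen_inr]

omit [IsDomain O] [IsNoetherianRing O] [IsLocalRing O] [Finite σ] in
theorem inclR_C (r : O) : inclR σ O (C r) = C r := by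
  apply (sumAlgEquiv (Fin 3) σ O).injective
  rw [sumAlgEquiv_inclR, sumAlgEquiv_C]

omit [IsDomain O] in
/-- **the step** : if `O[[σ]] ⧸ J` is a domain with `π` prime, so is
`O[[w, f, g, σ]] ⧸ (J, w² + f g - e₀)` (`π ∣ e₀`). -/
theorem good_step (π : O) (J : Ideal (MvPowerSeries σ O)) (hJ : Good J (C π)) (e₀ : O)
    (he₀ : π ∣ e₀) :
    Good (J.map (inclR σ O) ⊔ Ideal.span {gen (fun k => Sum.inl k) e₀}) (C π) := by
  -- the base `Q = O[[σ]] ⧸ J`
  have := hJ.1
  have hQdom : IsDomain (MvPowerSeries σ O ⧸ J) := hJ.isDomain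
  have hQloc : IsLocalRing (MvPowerSeries σ O ⧸ J) :=
    IsLocalRing.of_surjective' (Ideal.Quotient.mk J) Ideal.Quotient.mk_surjective
  set mkJ := Ideal.Quotient.mk J with hmkJ
  set πQ := mkJ (C π) with hπQ
  set eQ := mkJ (C e₀) with heQ
  have hπQprime : Prime πQ := hJ.prime_mk
  have heQdvd : πQ ∣ eQ := by
    obtain ⟨c, rfl⟩ := he₀
    exact ⟨mkJ (C c), by rw [hπQ, heQ, ← map_mul, ← map_mul]⟩
  -- the cone ring over the base
  set coneQ : MvPowerSeries (Fin 3) (MvPowerSeries σ O ⧸ J) := X 0 ^ 2 + X 1 * X 2 - C eQ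
    with hconeQ
  have hR'dom : IsDomain (MvPowerSeries (Fin 3) (MvPowerSeries σ O ⧸ J) ⧸ Ideal.span {coneQ}) :=
    isDomain_cone πQ eQ hπQprime heQdvd
  have hR'prime : Prime (Ideal.Quotient.mk (Ideal.span {coneQ}) (C πQ)) :=
    prime_mk_C πQ eQ hπQprime heQdvd
  -- the comparison map
  set K1 : MvPowerSeries (Fin 3 ⊕ σ) O →+* MvPowerSeries (Fin 3) (MvPowerSeries σ O) :=
    (sumAlgEquiv (Fin 3) σ O).toRingEquiv.toRingHom with hK1
  set f : MvPowerSeries (Fin 3) (MvPowerSeries σ O) →+*
      MvPowerSeries (Fin 3) (MvPowerSeries σ O ⧸ J) := MvPowerSeries.map mkJ with hf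
  set Θ : MvPowerSeries (Fin 3 ⊕ σ) O →+*
      MvPowerSeries (Fin 3) (MvPowerSeries σ O ⧸ J) ⧸ Ideal.span {coneQ} :=
    (Ideal.Quotient.mk (Ideal.span {coneQ})).comp (f.comp K1) with hΘ
  have hK1surj : Function.Surjective K1 := (sumAlgEquiv (Fin 3) σ O).surjective
  have hfsurj : Function.Surjective f := map_mk_surjective J
  have hΘsurj : Function.Surjective Θ :=
    Ideal.Quotient.mk_surjective.comp (hfsurj.comp hK1surj)
  have hΘπ : Θ (C π) = Ideal.Quotient.mk (Ideal.span {coneQ}) (C πQ) := by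
    show Ideal.Quotient.mk _ (f (K1 (C π))) = _
    have : K1 (C π) = C (C π) := sumAlgEquiv_C π
    rw [this, hf, map_C]
  -- the kernel
  set coneB : MvPowerSeries (Fin 3) (MvPowerSeries σ O) := X 0 ^ 2 + X 1 * X 2 - C (C e₀)
    with hconeB
  have hfcone : f coneB = coneQ := by
    rw [hconeB, hconeQ, hf]
    simp only [map_sub, map_add, map_mul, map_pow, map_X, map_C, heQ]
  have hkerf : RingHom.ker f = J.map C := ker_map_mk J (IsNoetherian.noetherian J)
  have hcomap_f : Ideal.comap f (Ideal.span {coneQ}) = Ideal.span {coneB} ⊔ J.map C := by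
    have h1 := Ideal.comap_map_of_surjective f hfsurj (Ideal.span {coneB})
    rw [Ideal.map_span, Set.image_singleton, hfcone] at h1
    rw [h1, ← hkerf]
    rfl
  have hker : RingHom.ker Θ =
      J.map (inclR σ O) ⊔ Ideal.span {gen (fun k => Sum.inl k) e₀} := by
    have h1 : RingHom.ker Θ = Ideal.comap K1 (Ideal.comap f (Ideal.span {coneQ})) := by
      rw [hΘ, ← RingHom.comap_ker, Ideal.mk_ker, ← Ideal.comap_comap]
    rw [h1, hcomap_f]
    apply le_antisymm
    · intro x hx
      rw [Ideal.mem_comap] at hx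
      obtain ⟨a, ha, b, hb, hab⟩ := Submodule.mem_sup.mp hx
      obtain ⟨a', rfl⟩ := Ideal.mem_span_singleton'.mp ha
      -- pull back along `K1`
      have hb' : (sumAlgEquiv (Fin 3) σ O).symm b ∈ J.map (inclR σ O) := by
        have : J.map (inclR σ O) =
            (J.map (C : MvPowerSeries σ O →+* MvPowerSeries (Fin 3) (MvPowerSeries σ O))).map
              (sumAlgEquiv (Fin 3) σ O).symm.toRingEquiv.toRingHom := by
          rw [Ideal.map_map]; rfl
        rw [this]
        exact Ideal.mem_map_of_mem _ hb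
      have hx' : x = (sumAlgEquiv (Fin 3) σ O).symm a' * gen (fun k => Sum.inl k) e₀ +
          (sumAlgEquiv (Fin 3) σ O).symm b := by
        apply (sumAlgEquiv (Fin 3) σ O).injective
        rw [map_add, map_mul, AlgEquiv.apply_symm_apply, AlgEquiv.apply_symm_apply,
          sumAlgEquiv_gen_inl]
        exact hab.symm
      rw [hx']
      exact Ideal.add_mem _ (Ideal.mem_sup_right (Ideal.mul_mem_left _ _
        (Ideal.mem_span_singleton_self _))) (Ideal.mem_sup_left hb')
    · rw [sup_le_iff]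
      constructor
      · rw [Ideal.map_le_iff_le_comap]
        intro x hx
        rw [Ideal.mem_comap, Ideal.mem_comap]
        have : K1 (inclR σ O x) = C x := sumAlgEquiv_inclR x
        rw [this]
        exact Ideal.mem_sup_right (Ideal.mem_map_of_mem _ hx)
      · rw [Ideal.span_le, Set.singleton_subset_iff, SetLike.mem_coe, Ideal.mem_comap]
        have : K1 (gen (fun k => Sum.inl k) e₀) = coneB := sumAlgEquiv_gen_inl e₀
        rw [this]
        exact Ideal.mem_sup_left (Ideal.mem_span_singleton_self _)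
  rw [← hker]
  have hprime : Prime (Θ (C π)) := by
    rw [hΘπ]
    exact hR'prime
  have key := good_ker_of_surjective (B := MvPowerSeries (Fin 3 ⊕ σ) O)
    (B' := MvPowerSeries (Fin 3) (MvPowerSeries σ O ⧸ J) ⧸ Ideal.span {coneQ}) Θ hΘsurj (C π) hprime
  exact key

end Step

/-! ### the induction -/

section Induction

universe w

variable {O : Type u} [CommRing O] [IsDomain O] [IsNoetherianRing O] [IsLocalRing O]

/-- the `k`-fold cone ideal `(w_i² + f_i g_i - e_i : i ∈ ι)` of `O[[w_i, f_i, g_i, spectators]]`,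
`w_i = X (inl (i, 0))`, `f_i = X (inl (i, 1))`, `g_i = X (inl (i, 2))` -/
def coneK (lam : Type v) {ι : Type w} (e : ι → O) :
    Ideal (MvPowerSeries ((ι × Fin 3) ⊕ lam) O) :=
  Ideal.span (Set.range fun i : ι =>
    X (Sum.inl (i, 0)) ^ 2 + X (Sum.inl (i, 1)) * X (Sum.inl (i, 2)) - C (e i))

omit [IsDomain O] [IsNoetherianRing O] [IsLocalRing O] in
theorem coneK_eq_span_gen (lam : Type v) {ι : Type w} (e : ι → O) :
    coneK lam e = Ideal.span (Set.range fun i : ι =>
      gen (fun k => (Sum.inl (i, k) : (ι × Fin 3) ⊕ lam)) (e i)) := rfl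

omit [IsNoetherianRing O] [IsLocalRing O] in
theorem good_bot {σ : Type*} (π : O) (hπ : Prime π) :
    Good (⊥ : Ideal (MvPowerSeries σ O)) (C π) := by
  have : IsDomain (MvPowerSeries σ O) := NoZeroDivisors.to_isDomain _
  refine ⟨Ideal.isPrime_bot, ?_, ?_⟩
  · rw [bot_sup_eq]
    exact isPrime_span_C π hπ
  · rw [Ideal.mem_bot]
    intro h
    have h0 := congrArg (coeff 0) h
    rw [coeff_zero_C, map_zero] at h0
    exact hπ.ne_zero h0

omit [IsDomain O] [IsNoetherianRing O] [IsLocalRing O] in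
theorem good_rename {σ τ : Type*} (φ : σ ≃ τ) (J : Ideal (MvPowerSeries σ O)) (π : O)
    (h : Good J (C π)) :
    Good (J.map (renameEquiv O φ).toRingEquiv.toRingHom) (C π) := by
  have h1 := h.map_equiv (renameEquiv O φ).toRingEquiv
  have h2 : (renameEquiv O φ).toRingEquiv (C π) = C π := by
    change rename φ (C π) = C π
    rw [rename_C]
  rw [h2] at h1
  exact h1

/-- reindexing the blocks -/
def blockEquiv (lam : Type v) {α β : Type w} (f : α ≃ β) :
    (α × Fin 3) ⊕ lam ≃ (β × Fin 3) ⊕ lam where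
  toFun := Sum.elim (fun p => Sum.inl (f p.1, p.2)) Sum.inr
  invFun := Sum.elim (fun p => Sum.inl (f.symm p.1, p.2)) Sum.inr
  left_inv := by
    rintro (⟨a, k⟩ | l)
    · simp
    · rfl
  right_inv := by
    rintro (⟨b, k⟩ | l)
    · simp
    · rfl

/-- the new block first -/
def optionEquiv (lam : Type v) (α : Type w) :
    Fin 3 ⊕ ((α × Fin 3) ⊕ lam) ≃ (Option α × Fin 3) ⊕ lam where
  toFun := Sum.elim (fun k => Sum.inl (none, k))
    (Sum.elim (fun p => Sum.inl (some p.1, p.2)) Sum.inr)
  invFun := Sum.elim (fun p => Option.elim p.1 (Sum.inl p.2) (fun a => Sum.inr (Sum.inl (a, p.2))))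
    (fun l => Sum.inr (Sum.inr l))
  left_inv := by
    rintro (k | ⟨a, k⟩ | l) <;> rfl
  right_inv := by
    rintro (⟨_ | a, k⟩ | l) <;> rfl

omit [IsDomain O] [IsNoetherianRing O] [IsLocalRing O] in
theorem map_coneK_blockEquiv (lam : Type v) {α β : Type w} (f : α ≃ β) (e : β → O) :
    (coneK lam (fun a => e (f a))).map (renameEquiv O (blockEquiv lam f)).toRingEquiv.toRingHom =
      coneK lam e := by
  rw [coneK_eq_span_gen, coneK_eq_span_gen, Ideal.map_span, ← Set.range_comp]
  have h : ((renameEquiv O (blockEquiv lam f)).toRingEquiv.toRingHom ∘ fun a : α =>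
      gen (fun k => (Sum.inl (a, k) : (α × Fin 3) ⊕ lam)) (e (f a))) =
      (fun b : β => gen (fun k => (Sum.inl (b, k) : (β × Fin 3) ⊕ lam)) (e b)) ∘ f := by
    funext a
    exact renameEquiv_gen (blockEquiv lam f) _ _
  rw [h, f.surjective.range_comp]

omit [IsDomain O] [IsNoetherianRing O] [IsLocalRing O] in
theorem map_step_optionEquiv (lam : Type v) {α : Type w} (e : Option α → O) :
    ((coneK lam (fun a => e (some a))).map (inclR ((α × Fin 3) ⊕ lam) O) ⊔
        Ideal.span {gen (fun k => Sum.inl k) (e none)}).map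
      (renameEquiv O (optionEquiv lam α)).toRingEquiv.toRingHom = coneK lam e := by
  rw [Ideal.map_sup, Ideal.map_map, Ideal.map_span, Set.image_singleton, coneK_eq_span_gen,
    coneK_eq_span_gen, Ideal.map_span, ← Set.range_comp]
  have h1 : (((renameEquiv O (optionEquiv lam α)).toRingEquiv.toRingHom.comp
      (inclR ((α × Fin 3) ⊕ lam) O)) ∘ fun a : α =>
      gen (fun k => (Sum.inl (a, k) : (α × Fin 3) ⊕ lam)) (e (some a))) =
      (fun b : Option α => gen (fun k => (Sum.inl (b, k) : (Option α × Fin 3) ⊕ lam)) (e b)) ∘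
        some := by
    funext a
    show (renameEquiv O (optionEquiv lam α)) (inclR ((α × Fin 3) ⊕ lam) O _) = _
    rw [inclR_gen, renameEquiv_gen]
    rfl
  have h2 : (renameEquiv O (optionEquiv lam α)).toRingEquiv.toRingHom
      (gen (fun k => Sum.inl k) (e none)) =
      gen (fun k => (Sum.inl (none, k) : (Option α × Fin 3) ⊕ lam)) (e none) :=
    renameEquiv_gen (optionEquiv lam α) _ _
  rw [h1, h2]
  apply le_antisymm
  · rw [sup_le_iff]
    constructor
    · exact Ideal.span_mono (Set.range_comp_subset_range _ _)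
    · rw [Ideal.span_le, Set.singleton_subset_iff]
      exact Ideal.subset_span ⟨none, rfl⟩
  · rw [Ideal.span_le]
    rintro _ ⟨_ | a, rfl⟩
    · exact Ideal.mem_sup_right (Ideal.subset_span rfl)
    · exact Ideal.mem_sup_left (Ideal.subset_span ⟨a, rfl⟩)

/-- **LA2, ideal form** : the `k`-fold cone ideal is prime, stays prime after adding `π`, and
does not contain `π` -/
theorem good_coneK (π : O) (hπ : Prime π) (lam : Type v) [Finite lam] {ι : Type w} [Finite ι]
    (e : ι → O) (he : ∀ i, π ∣ e i) : Good (coneK lam e) (C π) := by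
  revert e
  refine Finite.induction_empty_option
    (P := fun ι : Type w => ∀ e : ι → O, (∀ i, π ∣ e i) → Good (coneK lam e) (C π)) ?_ ?_ ?_ ι
  · -- reindexing
    intro α β f hα e he
    have h := good_rename (blockEquiv lam f) _ π (hα (fun a => e (f a)) (fun a => he (f a)))
    rw [map_coneK_blockEquiv] at h
    exact h
  · -- no block
    intro e _
    have h0 : coneK lam e = ⊥ := by
      rw [coneK, Set.range_eq_empty, Ideal.span_empty]
    rw [h0]
    exact good_bot π hπ
  · -- one more block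
    intro α _ hα e he
    have h1 := good_step π _ (hα (fun a => e (some a)) (fun a => he (some a))) (e none) (he none)
    have h2 := good_rename (optionEquiv lam α) _ π h1
    rw [map_step_optionEquiv] at h2
    exact h2

variable (π : O) (hπ : Prime π) (lam : Type v) [Finite lam] {ι : Type w} [Finite ι]
  (e : ι → O) (he : ∀ i, π ∣ e i)

include hπ he in
/-- **LA2** (helper6's literal #6096) : the `k`-fold cone ideal, with spectator variables, is
prime -/
theorem isPrime_coneK :
    (Ideal.span (Set.range fun i : ι =>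
      X (Sum.inl (i, 0)) ^ 2 + X (Sum.inl (i, 1)) * X (Sum.inl (i, 2)) - C (e i)) :
      Ideal (MvPowerSeries ((ι × Fin 3) ⊕ lam) O)).IsPrime :=
  (good_coneK π hπ lam e he).1

include hπ he in
theorem isPrime_coneK_sup : (coneK lam e ⊔ Ideal.span {C π}).IsPrime :=
  (good_coneK π hπ lam e he).2.1

include hπ he in
theorem C_notMem_coneK : C π ∉ coneK lam e :=
  (good_coneK π hπ lam e he).2.2

include hπ he in
/-- **LA2** : the `k`-fold cone ring is a domain -/
theorem isDomain_coneK : IsDomain (MvPowerSeries ((ι × Fin 3) ⊕ lam) O ⧸ coneK lam e) :=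
  (good_coneK π hπ lam e he).isDomain

include hπ he in
/-- **LA2** : `π` is a prime element of the `k`-fold cone ring -/
theorem prime_mk_C_coneK : Prime (Ideal.Quotient.mk (coneK lam e) (C π)) :=
  (good_coneK π hπ lam e he).prime_mk

/-! ### the same without spectator variables -/

/-- the `k`-fold cone ideal `(w_i² + f_i g_i - e_i : i ∈ ι)` of `O[[w_i, f_i, g_i]]`,
`w_i = X (i, 0)`, `f_i = X (i, 1)`, `g_i = X (i, 2)` -/
def coneK₀ {ι : Type w} (e : ι → O) : Ideal (MvPowerSeries (ι × Fin 3) O) :=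
  Ideal.span (Set.range fun i : ι => X (i, 0) ^ 2 + X (i, 1) * X (i, 2) - C (e i))

omit [IsDomain O] [IsNoetherianRing O] [IsLocalRing O] [Finite ι] in
theorem map_coneK_sumEmpty :
    (coneK PEmpty.{v + 1} e).map
      (renameEquiv O (Equiv.sumEmpty (ι × Fin 3) PEmpty.{v + 1})).toRingEquiv.toRingHom =
      coneK₀ e := by
  rw [coneK_eq_span_gen, coneK₀, Ideal.map_span, ← Set.range_comp]
  congr 2
  funext i
  exact renameEquiv_gen (Equiv.sumEmpty (ι × Fin 3) PEmpty.{v + 1}) _ _

include hπ he in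
theorem good_coneK₀ : Good (coneK₀ e) (C π) := by
  have h := good_rename (Equiv.sumEmpty (ι × Fin 3) PEmpty.{1}) _ π
    (good_coneK π hπ PEmpty.{1} e he)
  rw [map_coneK_sumEmpty] at h
  exact h

include hπ he in
/-- **LA2, no spectators** : `O[[w_i, f_i, g_i]] ⧸ (w_i² + f_i g_i - e_i)` is a domain -/
theorem isDomain_coneK₀ :
    IsDomain (MvPowerSeries (ι × Fin 3) O ⧸
      Ideal.span (Set.range fun i : ι => X (i, 0) ^ 2 + X (i, 1) * X (i, 2) - C (e i))) :=
  (good_coneK₀ π hπ e he).isDomain

include hπ he in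
/-- **LA2, no spectators** : `π` is a prime element of that domain -/
theorem prime_mk_C_coneK₀ :
    Prime (Ideal.Quotient.mk
      (Ideal.span (Set.range fun i : ι => X (i, 0) ^ 2 + X (i, 1) * X (i, 2) - C (e i)))
      (C π : MvPowerSeries (ι × Fin 3) O)) :=
  (good_coneK₀ π hπ e he).prime_mk

end Induction

end Fermat.Agent.S43.Local.ConeK
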