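/-
S43 (row 37), PROJECT R, block `Local`, file `UnipRing` (helper23).

**The unipotent framed ring at a family of stuck primes, in coordinates** (generic part: any
commutative ring `P`, any elements; the power-series specialisation is `Local/UnipSeries`).

A `Coord P` is a tuple `(q; t, u, b, c; W, f, g)` of elements of `P`: the Frobenius matrix is
`Φ = t + A0 = (t + u, b; c, t - u)` and the inertia matrix `Σ = 1 + Nu`, `Nu = (W, f; -g, -W)`
(traceless; helper6's sign convention for `B0`).  The unipotent relations are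
`W^2 - f g = 0` (`det Nu = 0`) and the four entries of `Φ Nu - q Nu Φ` (`Φ Σ = Σ^q Φ`).

* `Coord.relIdeal_le_inertiaIdeal` : the relations lie in `(W, f, g)` (F3);
* `Coord.isNilpotent_mul_gSt` : in a ring where the relations hold, `a * gSt` is nilpotent for
  `a ∈ (W, f, g)` (F4);
* the family version: `A₁ D = P ⧸ ⨆ i, (D i).relIdeal`, `I D i`, `g D i`,
  `isNilpotent_mul_g` (`= hIg` of `Patch/Avoid.exists_unramified_point`),
  `quotEquiv : A₁ D ⧸ ⨆ i, I D i ≃+* P ⧸ ⨆ i, (D i).inertiaIdeal`.
-/
import Fermat.Agent.S43.Local.Unip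

set_option autoImplicit false

noncomputable section

namespace Fermat.Agent.S43.Local.UnipRing

open Matrix Fermat.Agent.S43.Local.Unip

/-- coordinates of a framed pair (Frobenius, tame generator) at a stuck prime. -/
structure Coord (P : Type*) where
  /-- the prime (residue cardinality), as an element of the ring -/
  q : P
  /-- the scalar part of Frobenius -/
  t : P
  /-- traceless part of Frobenius, diagonal -/
  u : P
  /-- traceless part of Frobenius, upper right -/
  b : P
  /-- traceless part of Frobenius, lower left -/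
  c : P
  /-- `Σ - 1`, diagonal -/
  W : P
  /-- `Σ - 1`, upper right -/
  f : P
  /-- minus `Σ - 1`, lower left -/
  g : P

namespace Coord

variable {P B : Type*} [CommRing P] [CommRing B]

/-- the Frobenius matrix `t + A0`. -/
def Phi (D : Coord P) : Matrix (Fin 2) (Fin 2) P := !![D.t + D.u, D.b; D.c, D.t - D.u]

/-- the matrix `Σ - 1`. -/
def Nu (D : Coord P) : Matrix (Fin 2) (Fin 2) P := !![D.W, D.f; -D.g, -D.W]

/-- the relation matrix `Φ Nu - q Nu Φ`. -/
def relMat (D : Coord P) : Matrix (Fin 2) (Fin 2) P :=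
  D.Phi * D.Nu - D.q • (D.Nu * D.Phi)

/-- the unipotent relations. -/
def relSet (D : Coord P) : Set P :=
  insert (D.W ^ 2 - D.f * D.g) (Set.range fun p : Fin 2 × Fin 2 => D.relMat p.1 p.2)

/-- the ideal of the unipotent relations. -/
def relIdeal (D : Coord P) : Ideal P := Ideal.span D.relSet

/-- the ideal `(W, f, g)` of the entries of `Σ - 1`. -/
def inertiaIdeal (D : Coord P) : Ideal P := Ideal.span {D.W, D.f, D.g}

/-- the Steinberg function `q (tr Φ)^2 - (1 + q)^2 det Φ`. -/
def gSt (D : Coord P) : P := Unip.gSt D.q D.Phi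

/-- transport of coordinates along a ring homomorphism. -/
def map (φ : P →+* B) (D : Coord P) : Coord B where
  q := φ D.q
  t := φ D.t
  u := φ D.u
  b := φ D.b
  c := φ D.c
  W := φ D.W
  f := φ D.f
  g := φ D.g

theorem W_mem (D : Coord P) : D.W ∈ D.inertiaIdeal := Ideal.subset_span (by simp)
theorem f_mem (D : Coord P) : D.f ∈ D.inertiaIdeal := Ideal.subset_span (by simp)
theorem g_mem (D : Coord P) : D.g ∈ D.inertiaIdeal := Ideal.subset_span (by simp)

theorem Nu_trace (D : Coord P) : D.Nu.trace = 0 := by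
  simp [Nu, Matrix.trace_fin_two]

theorem Nu_det (D : Coord P) : D.Nu.det = -(D.W ^ 2 - D.f * D.g) := by
  simp [Nu, Matrix.det_fin_two]
  ring

theorem entryIdeal_Nu (D : Coord P) : entryIdeal D.Nu = D.inertiaIdeal := by
  apply le_antisymm
  · unfold entryIdeal
    rw [Ideal.span_le]
    rintro _ ⟨⟨i, j⟩, rfl⟩
    fin_cases i <;> fin_cases j
    · exact D.W_mem
    · exact D.f_mem
    · simpa [Nu] using D.g_mem
    · simpa [Nu] using D.W_mem
  · unfold inertiaIdeal
    rw [Ideal.span_le]
    intro x hx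
    simp only [Set.mem_insert_iff, Set.mem_singleton_iff] at hx
    rcases hx with rfl | rfl | rfl
    · exact entry_mem_entryIdeal D.Nu 0 0
    · exact entry_mem_entryIdeal D.Nu 0 1
    · have h := (entryIdeal D.Nu).neg_mem (entry_mem_entryIdeal D.Nu 1 0)
      simpa [Nu] using h

theorem relMat_mem (D : Coord P) (i j : Fin 2) : D.relMat i j ∈ D.inertiaIdeal := by
  have hW := D.W_mem
  have hf := D.f_mem
  have hg := D.g_mem
  fin_cases i <;> fin_cases j
  · have : D.relMat 0 0 = ((D.t + D.u) - D.q * (D.t + D.u)) * D.W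
        + (-D.q * D.c) * D.f + (-D.b) * D.g := by
      simp [relMat, Phi, Nu]
      ring
    show D.relMat 0 0 ∈ _
    rw [this]
    exact add_mem (add_mem (Ideal.mul_mem_left _ _ hW) (Ideal.mul_mem_left _ _ hf))
      (Ideal.mul_mem_left _ _ hg)
  · have : D.relMat 0 1 = (-D.b - D.q * D.b) * D.W
        + ((D.t + D.u) - D.q * (D.t - D.u)) * D.f + 0 * D.g := by
      simp [relMat, Phi, Nu]
      ring
    show D.relMat 0 1 ∈ _
    rw [this]
    exact add_mem (add_mem (Ideal.mul_mem_left _ _ hW) (Ideal.mul_mem_left _ _ hf))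
      (Ideal.mul_mem_left _ _ hg)
  · have : D.relMat 1 0 = (D.c + D.q * D.c) * D.W
        + 0 * D.f + (-(D.t - D.u) + D.q * (D.t + D.u)) * D.g := by
      simp [relMat, Phi, Nu]
      ring
    show D.relMat 1 0 ∈ _
    rw [this]
    exact add_mem (add_mem (Ideal.mul_mem_left _ _ hW) (Ideal.mul_mem_left _ _ hf))
      (Ideal.mul_mem_left _ _ hg)
  · have : D.relMat 1 1 = (-(D.t - D.u) + D.q * (D.t - D.u)) * D.W
        + D.c * D.f + (D.q * D.b) * D.g := by
      simp [relMat, Phi, Nu]
      ring
    show D.relMat 1 1 ∈ _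
    rw [this]
    exact add_mem (add_mem (Ideal.mul_mem_left _ _ hW) (Ideal.mul_mem_left _ _ hf))
      (Ideal.mul_mem_left _ _ hg)

/-- **F3**: the unipotent relations lie in the ideal `(W, f, g)`. -/
theorem relIdeal_le_inertiaIdeal (D : Coord P) : D.relIdeal ≤ D.inertiaIdeal := by
  unfold relIdeal
  rw [Ideal.span_le]
  intro x hx
  rcases hx with rfl | ⟨⟨i, j⟩, rfl⟩
  · have : D.W ^ 2 - D.f * D.g = D.W * D.W + (-D.g) * D.f := by ring
    rw [this]
    exact add_mem (Ideal.mul_mem_left _ _ D.W_mem) (Ideal.mul_mem_left _ _ D.f_mem)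
  · exact D.relMat_mem i j

/-- **F4** in a ring where the relations hold. -/
theorem isNilpotent_mul_gSt (D : Coord P) (h : ∀ x ∈ D.relSet, x = 0) {a : P}
    (ha : a ∈ D.inertiaIdeal) : IsNilpotent (a * D.gSt) := by
  have hdet : D.Nu.det = 0 := by
    rw [D.Nu_det, h _ (Set.mem_insert _ _), neg_zero]
  have hrel : D.Phi * D.Nu = D.q • (D.Nu * D.Phi) := by
    rw [← sub_eq_zero]
    ext i j
    exact h _ (Set.mem_insert_of_mem _ ⟨(i, j), rfl⟩)
  rw [← D.entryIdeal_Nu] at ha
  exact Unip.isNilpotent_mul_gSt D.q D.Phi D.Nu D.Nu_trace hdet hrel ha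

/-- **F5**: where `q = 1` the Steinberg function is the discriminant `4 (u^2 + b c)`. -/
theorem gSt_eq_of_q_eq_one (D : Coord P) (hq : D.q = 1) :
    D.gSt = 4 * (D.u ^ 2 + D.b * D.c) := by
  unfold gSt
  rw [Unip.gSt_eq, hq, sub_self, zero_mul, add_zero]
  exact Unip.disc_of_scalar_add D.t D.u D.b D.c

section Map

variable (φ : P →+* B) (D : Coord P)

theorem map_Phi : (D.map φ).Phi = D.Phi.map φ := by
  ext i j
  fin_cases i <;> fin_cases j <;> simp [Phi, map]

theorem map_Nu : (D.map φ).Nu = D.Nu.map φ := by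
  ext i j
  fin_cases i <;> fin_cases j <;> simp [Nu, map]

theorem map_relMat : (D.map φ).relMat = D.relMat.map φ := by
  unfold relMat
  rw [map_Phi, map_Nu]
  have hq : (D.map φ).q = φ D.q := rfl
  rw [hq]
  ext i j
  simp [Matrix.mul_apply, Matrix.map_apply, Matrix.sub_apply, Matrix.smul_apply]

theorem map_relSet : (D.map φ).relSet = φ '' D.relSet := by
  unfold relSet
  rw [Set.image_insert_eq, ← Set.range_comp, map_relMat]
  congr 1
  simp [map]

theorem map_gSt : (D.map φ).gSt = φ D.gSt := by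
  unfold gSt Unip.gSt
  rw [map_Phi]
  simp only [Matrix.trace_fin_two, Matrix.det_fin_two, Matrix.map_apply, map_sub, map_mul,
    map_pow, map_add, map_one]
  simp [map]

theorem map_inertiaIdeal : (D.map φ).inertiaIdeal = D.inertiaIdeal.map φ := by
  unfold inertiaIdeal
  rw [Ideal.map_span]
  congr 1
  simp [map, Set.image_insert_eq]

/-- **F4** along a ring homomorphism killing the relations. -/
theorem isNilpotent_mul_map_gSt (h : ∀ x ∈ D.relSet, φ x = 0) {a : B}
    (ha : a ∈ D.inertiaIdeal.map φ) : IsNilpotent (a * φ D.gSt) := by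
  rw [← map_gSt]
  apply (D.map φ).isNilpotent_mul_gSt
  · rw [map_relSet]
    rintro _ ⟨x, hx, rfl⟩
    exact h x hx
  · rw [map_inertiaIdeal]
    exact ha

end Map

end Coord

/-! ### the family version -/

section Family

variable {P : Type*} [CommRing P] {ι : Type*} (D : ι → Coord P)

/-- the ideal of all unipotent relations of the family. -/
def relIdeal : Ideal P := ⨆ i, (D i).relIdeal

/-- the ideal of all entries of all `Σ_i - 1`. -/
def inertiaIdeal : Ideal P := ⨆ i, (D i).inertiaIdeal

theorem relIdeal_le_inertiaIdeal : relIdeal D ≤ inertiaIdeal D :=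
  iSup_mono fun i => (D i).relIdeal_le_inertiaIdeal

/-- the unipotent ring of the family: `P` modulo all the relations. -/
abbrev A₁ : Type _ := P ⧸ relIdeal D

/-- the ideal of the entries of `Σ_i - 1` in `A₁`. -/
def I (i : ι) : Ideal (A₁ D) := (D i).inertiaIdeal.map (Ideal.Quotient.mk (relIdeal D))

/-- the Steinberg function at `i` in `A₁`. -/
def g (i : ι) : A₁ D := Ideal.Quotient.mk (relIdeal D) (D i).gSt

/-- **`hIg` of `Patch/Avoid.exists_unramified_point`.** -/
theorem isNilpotent_mul_g (i : ι) (a : A₁ D) (ha : a ∈ I D i) : IsNilpotent (a * g D i) := by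
  refine (D i).isNilpotent_mul_map_gSt (Ideal.Quotient.mk (relIdeal D)) (fun x hx => ?_) ha
  rw [Ideal.Quotient.eq_zero_iff_mem]
  exact (le_iSup (fun i => (D i).relIdeal) i) (Ideal.subset_span hx)

theorem iSup_I : ⨆ i, I D i = (inertiaIdeal D).map (Ideal.Quotient.mk (relIdeal D)) := by
  unfold I inertiaIdeal
  rw [Ideal.map_iSup]

/-- **F3**: `A₁` modulo all the inertia ideals is `P` modulo all the `(W_i, f_i, g_i)`. -/
def quotEquiv : (A₁ D ⧸ ⨆ i, I D i) ≃+* P ⧸ inertiaIdeal D :=
  (Ideal.quotEquivOfEq (iSup_I D)).trans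
    ((DoubleQuot.quotQuotEquivQuotSup (relIdeal D) (inertiaIdeal D)).trans
      (Ideal.quotEquivOfEq (sup_eq_right.mpr (relIdeal_le_inertiaIdeal D))))

theorem quotEquiv_mk (x : P) :
    quotEquiv D (Ideal.Quotient.mk _ (Ideal.Quotient.mk (relIdeal D) x))
      = Ideal.Quotient.mk (inertiaIdeal D) x := by
  unfold quotEquiv
  rw [RingEquiv.trans_apply, RingEquiv.trans_apply, Ideal.quotEquivOfEq_mk]
  have h := DoubleQuot.quotQuotEquivQuotSup_quotQuotMk (relIdeal D) (inertiaIdeal D) x
  rw [DoubleQuot.quotQuotMk, RingHom.comp_apply] at h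
  rw [h, Ideal.quotEquivOfEq_mk]

/-- the preimage in `P` of `⨆ i, I i` is the ideal of all the `(W_i, f_i, g_i)`. -/
theorem comap_iSup_I :
    (⨆ i, I D i).comap (Ideal.Quotient.mk (relIdeal D)) = inertiaIdeal D := by
  rw [iSup_I, Ideal.comap_map_of_surjective _ Ideal.Quotient.mk_surjective,
    ← RingHom.ker_eq_comap_bot, Ideal.mk_ker, sup_eq_left.mpr (relIdeal_le_inertiaIdeal D)]

end Family

end Fermat.Agent.S43.Local.UnipRing
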