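/-
S43 (row 37), PROJECT R, block `Local`, brick LA4 of helper6's cut, file `UnipModel` (helper23).

**The unipotent side on helper6's `Local/Model`** (Cayley coordinates), as an instance of the
generic `Local/UnipRing`: the coordinates of the `i`-th stuck prime are
`q := C (q i)`, `t := 1 + n_i`, `(u, b, c) := 2 (u_i, b_i, c_i)`, `(W, f, g) := (w_i, f_i, - g_i)`.
Then `Coord.relMat = Model.relMat q i`, `W ^ 2 - f g = quad 0 i`, `Coord.gSt = gam q i`.

* (u1) `relIdeal_zero_le_P0`, `quotP0Equiv : P ⧸ P0 ≃ₐ[O] O⟦(ι × Fin 3) ⊕ κ⟧`, `isPrime_P0`,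
  `ringKrullDim_quot_P0`, and the same for `A₁ = P ⧸ relIdeal 0 q` modulo the image of `P0`;
* (u2) `isNilpotent_mul_gam` : `a * gam q i` is nilpotent in `P ⧸ relIdeal 0 q` for `a` in the
  image of `(w_i, f_i, g_i)` (`hIg` of `Patch/Avoid`);
* (u3) `relIdeal_sup_span_C` : `relIdeal e 1 ⊔ (π) = relIdeal 0 q ⊔ (π)` when `π ∣ e i`,
  `π ∣ q i - 1`.
-/
import Fermat.Agent.S43.Local.Model
import Fermat.Agent.S43.Local.UnipRing
import Fermat.Agent.S43.Local.KillVars
import Fermat.Agent.S43.Patch.Dim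

set_option autoImplicit false

noncomputable section

namespace Fermat.Agent.S43.Local.UnipModel

open MvPowerSeries Fermat.Agent.S43.Local Fermat.Agent.S43.Local.Model
  Fermat.Agent.S43.Local.UnipRing

variable {O : Type*} [CommRing O] {ι κ : Type*}

/-- the coordinates of the model at the `i`-th stuck prime. -/
def coord (q : ι → O) (i : ι) : Coord (P O ι κ) where
  q := C (q i)
  t := 1 + nrm O κ i
  u := 2 * ph O κ i 0
  b := 2 * ph O κ i 1
  c := 2 * ph O κ i 2
  W := sg O κ i 0
  f := sg O κ i 1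
  g := -sg O κ i 2

section Bridge

variable (q : ι → O) (i : ι)

theorem coord_Nu : (coord (κ := κ) q i).Nu = B0 O κ i := by
  refine Matrix.ext fun a b => ?_
  fin_cases a <;> fin_cases b <;> simp [Coord.Nu, coord, B0]

theorem coord_relMat : (coord (κ := κ) q i).relMat = Model.relMat O κ q i := by
  refine Matrix.ext fun a b => ?_
  fin_cases a <;> fin_cases b
  · show (coord (κ := κ) q i).relMat 0 0 = Model.relMat O κ q i 0 0
    rw [relMat_00]
    simp [Coord.relMat, Coord.Phi, Coord.Nu, coord]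
    ring
  · show (coord (κ := κ) q i).relMat 0 1 = Model.relMat O κ q i 0 1
    rw [relMat_01]
    simp [Coord.relMat, Coord.Phi, Coord.Nu, coord]
    ring
  · show (coord (κ := κ) q i).relMat 1 0 = Model.relMat O κ q i 1 0
    rw [relMat_10]
    simp [Coord.relMat, Coord.Phi, Coord.Nu, coord]
    ring
  · show (coord (κ := κ) q i).relMat 1 1 = Model.relMat O κ q i 1 1
    rw [relMat_11]
    simp [Coord.relMat, Coord.Phi, Coord.Nu, coord]
    ring

theorem coord_quad :
    (coord (κ := κ) q i).W ^ 2 - (coord (κ := κ) q i).f * (coord (κ := κ) q i).g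
      = quad O κ 0 i := by
  have hdef : quad O κ 0 i = sg O κ i 0 ^ 2 + sg O κ i 1 * sg O κ i 2 - C ((0 : ι → O) i) := rfl
  rw [hdef]
  simp [coord]

theorem coord_gSt : (coord (κ := κ) q i).gSt = gam O κ q i := by
  unfold Coord.gSt Unip.gSt gam
  simp only [Coord.Phi, coord, Matrix.trace_fin_two, Matrix.det_fin_two, Matrix.of_apply,
    Matrix.cons_val', Matrix.cons_val_zero, Matrix.cons_val_one, Matrix.cons_val_fin_one,
    map_mul, map_add, map_pow, map_one, map_ofNat]
  unfold nrm
  ring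

theorem coord_relSet_subset : (coord (κ := κ) q i).relSet ⊆ relSet O κ 0 q := by
  rintro x (rfl | ⟨⟨a, b⟩, rfl⟩)
  · rw [coord_quad]
    exact Or.inl ⟨i, rfl⟩
  · show (coord (κ := κ) q i).relMat a b ∈ _
    rw [coord_relMat]
    exact Or.inr ⟨(i, a, b), rfl⟩

theorem coord_inertiaIdeal_le : (coord (κ := κ) q i).inertiaIdeal ≤ P0 O κ := by
  unfold Coord.inertiaIdeal
  rw [Ideal.span_le]
  intro x hx
  simp only [Set.mem_insert_iff, Set.mem_singleton_iff] at hx
  rcases hx with rfl | rfl | rfl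
  · exact Ideal.subset_span ⟨(i, 0), rfl⟩
  · exact Ideal.subset_span ⟨(i, 1), rfl⟩
  · exact (P0 O κ).neg_mem (Ideal.subset_span ⟨(i, 2), rfl⟩)

end Bridge

/-- the relation ideal of the family is the unipotent relation ideal of the model. -/
theorem relIdeal_coord (q : ι → O) :
    UnipRing.relIdeal (coord (κ := κ) q) = Model.relIdeal O κ 0 q := by
  apply le_antisymm
  · refine iSup_le fun i => ?_
    exact Ideal.span_mono (coord_relSet_subset q i)
  · unfold Model.relIdeal
    rw [Ideal.span_le]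
    rintro x (⟨i, rfl⟩ | ⟨⟨i, a, b⟩, rfl⟩)
    · refine (le_iSup (fun i => (coord (κ := κ) q i).relIdeal) i) (Ideal.subset_span ?_)
      rw [← coord_quad q i]
      exact Set.mem_insert _ _
    · refine (le_iSup (fun i => (coord (κ := κ) q i).relIdeal) i) (Ideal.subset_span ?_)
      show Model.relMat O κ q i a b ∈ _
      rw [← coord_relMat q i]
      exact Set.mem_insert_of_mem _ ⟨(a, b), rfl⟩

/-- the inertia ideal of the family is `P0`. -/
theorem inertiaIdeal_coord (q : ι → O) :
    UnipRing.inertiaIdeal (coord (κ := κ) q) = P0 O κ := by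
  apply le_antisymm
  · exact iSup_le fun i => coord_inertiaIdeal_le q i
  · unfold P0
    rw [Ideal.span_le]
    rintro x ⟨⟨i, j⟩, rfl⟩
    refine (le_iSup (fun i => (coord (κ := κ) q i).inertiaIdeal) i) ?_
    fin_cases j
    · exact (coord (κ := κ) q i).W_mem
    · exact (coord (κ := κ) q i).f_mem
    · have h := (coord (κ := κ) q i).inertiaIdeal.neg_mem (coord (κ := κ) q i).g_mem
      simpa [coord] using h

/-- the block ideal `(w_i, f_i, g_i)`. -/
def blockIdeal (i : ι) : Ideal (P O ι κ) :=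
  Ideal.span {sg O κ i 0, sg O κ i 1, sg O κ i 2}

theorem blockIdeal_eq (q : ι → O) (i : ι) :
    blockIdeal (O := O) (κ := κ) i = (coord (κ := κ) q i).inertiaIdeal := by
  unfold blockIdeal Coord.inertiaIdeal
  apply le_antisymm
  · rw [Ideal.span_le]
    intro x hx
    simp only [Set.mem_insert_iff, Set.mem_singleton_iff] at hx
    rcases hx with rfl | rfl | rfl
    · exact Ideal.subset_span (by simp [coord])
    · exact Ideal.subset_span (by simp [coord])
    · have h : -sg O κ i 2 ∈ Ideal.span {(coord (κ := κ) q i).W, (coord (κ := κ) q i).f,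
          (coord (κ := κ) q i).g} := Ideal.subset_span (by simp [coord])
      simpa using (Ideal.neg_mem_iff _).mp h
  · rw [Ideal.span_le]
    intro x hx
    simp only [Set.mem_insert_iff, Set.mem_singleton_iff] at hx
    rcases hx with rfl | rfl | rfl
    · exact Ideal.subset_span (by simp [coord])
    · exact Ideal.subset_span (by simp [coord])
    · have h : sg O κ i 2 ∈ Ideal.span {sg O κ i 0, sg O κ i 1, sg O κ i 2} :=
        Ideal.subset_span (by simp)
      have h' := neg_mem h
      simpa [coord] using h'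

theorem iSup_blockIdeal : ⨆ i, blockIdeal (O := O) (ι := ι) (κ := κ) i = P0 O κ := by
  rw [← inertiaIdeal_coord (κ := κ) (fun _ : ι => (0 : O))]
  unfold UnipRing.inertiaIdeal
  congr 1
  funext i
  exact blockIdeal_eq _ i

/-! ### (u1) -/

/-- **(u1)** the unipotent relations lie in `P0`. -/
theorem relIdeal_zero_le_P0 (q : ι → O) : Model.relIdeal O κ 0 q ≤ P0 O κ := by
  rw [← relIdeal_coord, ← inertiaIdeal_coord q]
  exact UnipRing.relIdeal_le_inertiaIdeal _

section KillSigma

variable [Fintype ι]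

/-- the `Σ`-variables as a finite set of variables. -/
def sigmaVars (ι κ : Type*) [Fintype ι] : Finset (Var ι κ) :=
  Finset.univ.map ⟨Sum.inl, Sum.inl_injective⟩

theorem coe_sigmaVars :
    ((sigmaVars ι κ : Finset (Var ι κ)) : Set (Var ι κ))
      = (Set.range (Function.Embedding.inr :
          ((ι × Fin 3) ⊕ κ) ↪ Var ι κ))ᶜ := by
  ext x
  simp only [sigmaVars, Finset.coe_map, Function.Embedding.coeFn_mk, Finset.coe_univ,
    Set.image_univ, Set.mem_range, Set.mem_compl_iff, Function.Embedding.inr_apply]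
  cases x with
  | inl a => simp
  | inr b => simp

theorem P0_eq_span :
    P0 O κ = Ideal.span ((X : Var ι κ → P O ι κ) '' (sigmaVars ι κ : Set (Var ι κ))) := by
  unfold P0
  congr 1
  ext x
  simp only [sigmaVars, Finset.coe_map, Function.Embedding.coeFn_mk, Finset.coe_univ,
    Set.image_univ, Set.mem_range, Set.mem_image, exists_exists_eq_and]
  rfl

/-- **(u1)** `P ⧸ P0` is the power series ring in the `Φ`-variables and the extra variables. -/
def quotP0Equiv : (P O ι κ ⧸ P0 O κ) ≃ₐ[O] MvPowerSeries ((ι × Fin 3) ⊕ κ) O :=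
  (Ideal.quotientEquivAlgOfEq O P0_eq_span).trans
    (KillVars.quotKillEquiv (R := O) Function.Embedding.inr (sigmaVars ι κ) coe_sigmaVars)

theorem quotP0Equiv_mk (p : P O ι κ) :
    quotP0Equiv (Ideal.Quotient.mk _ p)
      = killCompl (Function.Embedding.inr : ((ι × Fin 3) ⊕ κ) ↪ Var ι κ) p := by
  unfold quotP0Equiv
  rw [AlgEquiv.trans_apply]
  exact KillVars.quotKillEquiv_mk _ _ coe_sigmaVars p

/-- **(u1)** `P0` is prime. -/
theorem isPrime_P0 [IsDomain O] : (P0 O κ : Ideal (P O ι κ)).IsPrime := by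
  have : IsDomain (MvPowerSeries ((ι × Fin 3) ⊕ κ) O) := NoZeroDivisors.to_isDomain _
  have : IsDomain (P O ι κ ⧸ P0 O κ) :=
    (quotP0Equiv (O := O) (ι := ι) (κ := κ)).toRingEquiv.toMulEquiv.isDomain _
  exact (Ideal.Quotient.isDomain_iff_prime _).mp this

/-- **(u1)** the dimension of `P ⧸ P0`. -/
theorem ringKrullDim_quot_P0 [IsNoetherianRing O] [Fintype κ] :
    ringKrullDim (P O ι κ ⧸ P0 O κ)
      = ringKrullDim O + ((3 * Fintype.card ι + Fintype.card κ : ℕ) : WithBot ℕ∞) := by
  rw [ringKrullDim_eq_of_ringEquiv (quotP0Equiv (O := O) (ι := ι) (κ := κ)).toRingEquiv,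
    Patch.Dim.ringKrullDim_mvPowerSeries]
  congr 2
  simp [Fintype.card_sum, Fintype.card_prod, mul_comm]

variable (q : ι → O)

/-- the image of `P0` in `A₁ = P ⧸ relIdeal 0 q`. -/
def P0bar : Ideal (P O ι κ ⧸ Model.relIdeal O κ 0 q) :=
  (P0 O κ).map (Ideal.Quotient.mk _)

/-- **(u1)** `A₁` modulo the image of `P0`. -/
def quotP0barEquiv :
    ((P O ι κ ⧸ Model.relIdeal O κ 0 q) ⧸ P0bar q) ≃+* MvPowerSeries ((ι × Fin 3) ⊕ κ) O :=
  ((DoubleQuot.quotQuotEquivQuotSup (Model.relIdeal O κ 0 q) (P0 O κ)).trans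
    (Ideal.quotEquivOfEq (sup_eq_right.mpr (relIdeal_zero_le_P0 q)))).trans
      (quotP0Equiv (O := O) (ι := ι) (κ := κ)).toRingEquiv

theorem isPrime_P0bar [IsDomain O] : (P0bar (κ := κ) q).IsPrime := by
  have : IsDomain (MvPowerSeries ((ι × Fin 3) ⊕ κ) O) := NoZeroDivisors.to_isDomain _
  have : IsDomain ((P O ι κ ⧸ Model.relIdeal O κ 0 q) ⧸ P0bar q) :=
    (quotP0barEquiv (κ := κ) q).toMulEquiv.isDomain _
  exact (Ideal.Quotient.isDomain_iff_prime _).mp this

theorem ringKrullDim_quot_P0bar [IsNoetherianRing O] [Fintype κ] :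
    ringKrullDim ((P O ι κ ⧸ Model.relIdeal O κ 0 q) ⧸ P0bar q)
      = ringKrullDim O + ((3 * Fintype.card ι + Fintype.card κ : ℕ) : WithBot ℕ∞) := by
  rw [ringKrullDim_eq_of_ringEquiv (quotP0barEquiv (κ := κ) q),
    Patch.Dim.ringKrullDim_mvPowerSeries]
  congr 2
  simp [Fintype.card_sum, Fintype.card_prod, mul_comm]

end KillSigma

/-- `P0bar` is the supremum of the images of the block ideals (`hP₀` of `Patch/Avoid`). -/
theorem map_P0_eq_iSup (q : ι → O) :
    (P0 O κ).map (Ideal.Quotient.mk (Model.relIdeal O κ 0 q))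
      = ⨆ i, (blockIdeal (O := O) (κ := κ) i).map (Ideal.Quotient.mk (Model.relIdeal O κ 0 q)) := by
  rw [← iSup_blockIdeal, Ideal.map_iSup]

/-! ### (u2) -/

/-- **(u2)** `a * gam q i` is nilpotent modulo the unipotent relations, for `a` in the image of
`(w_i, f_i, g_i)`: `hIg` of `Patch/Avoid.exists_unramified_point`. -/
theorem isNilpotent_mul_gam (q : ι → O) (i : ι)
    (a : P O ι κ ⧸ Model.relIdeal O κ 0 q)
    (ha : a ∈ (blockIdeal (O := O) (κ := κ) i).map
      (Ideal.Quotient.mk (Model.relIdeal O κ 0 q))) :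
    IsNilpotent (a * Ideal.Quotient.mk (Model.relIdeal O κ 0 q) (gam O κ q i)) := by
  rw [← coord_gSt q i]
  refine (coord (κ := κ) q i).isNilpotent_mul_map_gSt
    (Ideal.Quotient.mk (Model.relIdeal O κ 0 q)) (fun x hx => ?_) ?_
  · rw [Ideal.Quotient.eq_zero_iff_mem]
    exact Ideal.subset_span (coord_relSet_subset q i hx)
  · rw [← blockIdeal_eq q i]
    exact ha

/-- **(u2)**, elementwise. -/
theorem isNilpotent_mk_mul_gam (q : ι → O) (i : ι) {a : P O ι κ}
    (ha : a ∈ blockIdeal (O := O) (κ := κ) i) :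
    IsNilpotent (Ideal.Quotient.mk (Model.relIdeal O κ 0 q) (a * gam O κ q i)) := by
  rw [map_mul]
  exact isNilpotent_mul_gam q i _ (Ideal.mem_map_of_mem _ ha)

/-! ### (u3) -/

/-- **(u3)** the `χ`-side and the unipotent side have the same equations modulo `π`. -/
theorem relIdeal_sup_span_C (π : O) (e q : ι → O) (he : ∀ i, π ∣ e i) (hq : ∀ i, π ∣ q i - 1) :
    Model.relIdeal O κ e 1 ⊔ Ideal.span {(C π : P O ι κ)}
      = Model.relIdeal O κ 0 q ⊔ Ideal.span {(C π : P O ι κ)} := by
  have hCπ : ∀ (K : Ideal (P O ι κ)) (x : O), π ∣ x → ∀ y : P O ι κ,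
      (C x : P O ι κ) * y ∈ K ⊔ Ideal.span {(C π : P O ι κ)} := by
    rintro K x ⟨z, rfl⟩ y
    refine Ideal.mem_sup_right ?_
    rw [map_mul, mul_assoc]
    exact Ideal.mul_mem_right _ _ (Ideal.mem_span_singleton_self _)
  have hquad : ∀ i, quad O κ e i = quad O κ 0 i - C (e i) := by
    intro i
    have h1 : quad O κ e i = sg O κ i 0 ^ 2 + sg O κ i 1 * sg O κ i 2 - C (e i) := rfl
    have h2 : quad O κ 0 i = sg O κ i 0 ^ 2 + sg O κ i 1 * sg O κ i 2 - C ((0 : ι → O) i) := rfl
    rw [h1, h2]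
    simp
  have hrel : ∀ i a b, Model.relMat O κ q i a b
      = Model.relMat O κ 1 i a b
        + C (1 - q i) * (((1 + nrm O κ i) • B0 O κ i
            + (2 : P O ι κ) • (B0 O κ i * A0 O κ i)) a b) := by
    intro i a b
    simp only [Model.relMat, Pi.one_apply, sub_self, map_zero, zero_mul, zero_smul, zero_add,
      map_one, one_smul, Matrix.add_apply, Matrix.smul_apply, Matrix.sub_apply, smul_eq_mul,
      map_sub, Matrix.zero_apply]
    ring
  have hq' : ∀ i, π ∣ 1 - q i := fun i => by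
    have := hq i
    rwa [← dvd_neg, neg_sub] at this
  apply le_antisymm
  · rw [sup_le_iff]
    refine ⟨?_, le_sup_right⟩
    rw [relIdeal_le_iff]
    refine ⟨fun i => ?_, fun i a b => ?_⟩
    · rw [hquad]
      refine sub_mem (Ideal.mem_sup_left (quad_mem_relIdeal 0 q i)) ?_
      have := hCπ (Model.relIdeal O κ 0 q) (e i) (he i) 1
      rwa [mul_one] at this
    · have h1 := hrel i a b
      have h2 : Model.relMat O κ 1 i a b = Model.relMat O κ q i a b
          - C (1 - q i) * (((1 + nrm O κ i) • B0 O κ i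
            + (2 : P O ι κ) • (B0 O κ i * A0 O κ i)) a b) := by
        rw [h1]
        ring
      rw [h2]
      exact sub_mem (Ideal.mem_sup_left (relMat_mem_relIdeal 0 q i a b))
        (hCπ _ _ (hq' i) _)
  · rw [sup_le_iff]
    refine ⟨?_, le_sup_right⟩
    rw [relIdeal_le_iff]
    refine ⟨fun i => ?_, fun i a b => ?_⟩
    · have h1 : quad O κ 0 i = quad O κ e i + C (e i) := by
        rw [hquad]
        ring
      rw [h1]
      refine add_mem (Ideal.mem_sup_left (quad_mem_relIdeal e 1 i)) ?_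
      have := hCπ (Model.relIdeal O κ e 1) (e i) (he i) 1
      rwa [mul_one] at this
    · rw [hrel]
      exact add_mem (Ideal.mem_sup_left (relMat_mem_relIdeal e 1 i a b))
        (hCπ _ _ (hq' i) _)

end Fermat.Agent.S43.Local.UnipModel
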