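/-
PROJECT R (S43, row 37), block `Local`, file `Export` (helper6): THE LOCAL INPUT OF THE PATCHING.

The three rings `A1 q = P ⧸ relIdeal 0 q` (`= R_∞^1`), `Achi e = P ⧸ relIdeal e 1` (`= R_∞^χ`),
`Abar π q = P ⧸ (relIdeal 0 q ⊔ (C π))` (their common reduction), the maps `pi1`, `pichi`, and every
LOCAL hypothesis of `Patch/Main.exists_point_of_levels` (= of `Patch/Avoid.exists_unramified_point`):

* unipotent side: `I1 q i` (the image of `(w_i, f_i, g_i)`), `g1 q i` (the image of `gam q i`),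
  `P₀ = UnipModel.P0bar q`; `P0bar_eq_iSup`, `isNilpotent_mul_g1`, `ringKrullDim_A1_quot`;
* `χ`-side: `pchiBar e` (the image of `Chi.pchi e`); `isPrime_pchiBar`, `ringKrullDim_Achi_quot_le`,
  `pchiBar_le_of_isPrime` (`h𝔭`);
* the common point: `QbBar` (the image of `ChiDiag.Qb`); `isPrime_QbBar`, `pchiBar_le_comap`
  (`h𝔭Q`), `pi1_g1_notMem` (`hgQ`).
-/
import Mathlib
import Fermat.Agent.S43.Local.Model
import Fermat.Agent.S43.Local.Chi
import Fermat.Agent.S43.Local.ChiDiag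
import Fermat.Agent.S43.Local.ChiDim
import Fermat.Agent.S43.Local.UnipModel
import Fermat.Agent.S43.Local.ConeK

set_option autoImplicit false

noncomputable section

namespace Fermat.Agent.S43.Local.Export

open MvPowerSeries IsLocalRing
open Fermat.Agent.S43.Local
open Fermat.Agent.S43.Local.Model
open Fermat.Agent.S43.Local.Chi
open Fermat.Agent.S43.Local.ChiDiag

variable {O : Type*} [CommRing O] {ι : Type*} (κ : Type*)

/-- `R_∞^1` : the unipotent side. -/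
abbrev A1 (q : ι → O) : Type _ := P O ι κ ⧸ relIdeal O κ 0 q

/-- `R_∞^χ` : the `χ`-side. -/
abbrev Achi (e : ι → O) : Type _ := P O ι κ ⧸ relIdeal O κ e 1

/-- the equations of the common reduction modulo `π`. -/
def Kbar (π : O) (q : ι → O) : Ideal (P O ι κ) :=
  relIdeal O κ 0 q ⊔ Ideal.span {(C π : P O ι κ)}

/-- the common reduction `R_∞^1 / π = R_∞^χ / π`. -/
abbrev Abar (π : O) (q : ι → O) : Type _ := P O ι κ ⧸ Kbar κ π q

variable {κ}

theorem relIdeal_zero_le_Kbar (π : O) (q : ι → O) : relIdeal O κ 0 q ≤ Kbar κ π q :=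
  le_sup_left

theorem C_mem_Kbar (π : O) (q : ι → O) : (C π : P O ι κ) ∈ Kbar κ π q :=
  Ideal.mem_sup_right (Ideal.mem_span_singleton_self _)

theorem Kbar_eq (π : O) (e q : ι → O) (he : ∀ i, π ∣ e i) (hq : ∀ i, π ∣ q i - 1) :
    Kbar κ π q = relIdeal O κ e 1 ⊔ Ideal.span {(C π : P O ι κ)} :=
  (UnipModel.relIdeal_sup_span_C π e q he hq).symm

theorem relIdeal_one_le_Kbar (π : O) (e q : ι → O) (he : ∀ i, π ∣ e i)
    (hq : ∀ i, π ∣ q i - 1) : relIdeal O κ e 1 ≤ Kbar κ π q := by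
  rw [Kbar_eq π e q he hq]
  exact le_sup_left

/-- `π₁ : R_∞^1 → R_∞^1 / π`. -/
def pi1 (π : O) (q : ι → O) : A1 κ q →+* Abar κ π q :=
  Ideal.Quotient.factor (relIdeal_zero_le_Kbar π q)

/-- `π_χ : R_∞^χ → R_∞^1 / π`. -/
def pichi (π : O) (e q : ι → O) (he : ∀ i, π ∣ e i) (hq : ∀ i, π ∣ q i - 1) :
    Achi κ e →+* Abar κ π q :=
  Ideal.Quotient.factor (relIdeal_one_le_Kbar π e q he hq)

theorem pi1_mk (π : O) (q : ι → O) (F : P O ι κ) :
    pi1 π q (Ideal.Quotient.mk _ F) = Ideal.Quotient.mk _ F :=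
  Ideal.Quotient.factor_mk _ F

theorem pichi_mk (π : O) (e q : ι → O) (he : ∀ i, π ∣ e i) (hq : ∀ i, π ∣ q i - 1)
    (F : P O ι κ) : pichi π e q he hq (Ideal.Quotient.mk _ F) = Ideal.Quotient.mk _ F :=
  Ideal.Quotient.factor_mk _ F

theorem pi1_surjective (π : O) (q : ι → O) : Function.Surjective (pi1 (κ := κ) π q) :=
  Ideal.Quotient.factor_surjective _

theorem pichi_surjective (π : O) (e q : ι → O) (he : ∀ i, π ∣ e i) (hq : ∀ i, π ∣ q i - 1) :
    Function.Surjective (pichi (κ := κ) π e q he hq) :=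
  Ideal.Quotient.factor_surjective _

/-- `hlamχ` : the uniformiser dies in the common reduction. -/
theorem pichi_lam (π : O) (e q : ι → O) (he : ∀ i, π ∣ e i) (hq : ∀ i, π ∣ q i - 1) :
    pichi (κ := κ) π e q he hq (Ideal.Quotient.mk _ (C π)) = 0 := by
  rw [pichi_mk, Ideal.Quotient.eq_zero_iff_mem]
  exact C_mem_Kbar π q

theorem pi1_lam (π : O) (q : ι → O) :
    pi1 (κ := κ) π q (Ideal.Quotient.mk _ (C π)) = 0 := by
  rw [pi1_mk, Ideal.Quotient.eq_zero_iff_mem]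
  exact C_mem_Kbar π q

/-! ### The unipotent side -/

/-- the ideal of the entries of `ρ(σ_i) - 1` in `R_∞^1`. -/
def I1 (q : ι → O) (i : ι) : Ideal (A1 κ q) :=
  (UnipModel.blockIdeal (O := O) (κ := κ) i).map (Ideal.Quotient.mk _)

/-- the Steinberg discriminant `ℓ tr(Φ_i)² - (1 + ℓ)² det Φ_i` (up to a unit) in `R_∞^1`. -/
def g1 (q : ι → O) (i : ι) : A1 κ q := Ideal.Quotient.mk _ (gam O κ q i)

/-- `hP₀`. -/
theorem P0bar_eq_iSup (q : ι → O) : UnipModel.P0bar (κ := κ) q = ⨆ i, I1 q i :=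
  UnipModel.map_P0_eq_iSup q

/-- `hIg`. -/
theorem isNilpotent_mul_g1 (q : ι → O) (i : ι) (a : A1 κ q) (ha : a ∈ I1 q i) :
    IsNilpotent (a * g1 q i) :=
  UnipModel.isNilpotent_mul_gam q i a ha

/-- the meaning of `P₀ ≤ 𝔮` : `ρ` is unramified at every stuck prime. -/
theorem mk_sg_mem_of_P0bar_le (q : ι → O) (𝔮 : Ideal (A1 κ q))
    (h : UnipModel.P0bar (κ := κ) q ≤ 𝔮) (i : ι) (j : Fin 3) :
    Ideal.Quotient.mk _ (sg O κ i j) ∈ 𝔮 := by
  apply h
  unfold UnipModel.P0bar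
  apply Ideal.mem_map_of_mem
  exact Ideal.subset_span ⟨(i, j), rfl⟩

section Fin

variable [Fintype ι] [Fintype κ]

/-- `hdim₁` (as an equality). -/
theorem ringKrullDim_A1_quot [IsNoetherianRing O] (q : ι → O) :
    ringKrullDim (A1 κ q ⧸ UnipModel.P0bar (κ := κ) q)
      = ringKrullDim O + ((3 * Fintype.card ι + Fintype.card κ : ℕ) : WithBot ℕ∞) :=
  UnipModel.ringKrullDim_quot_P0bar q

/-! ### The `χ`-side -/

/-- the prime of the `χ`-side in `R_∞^χ`. -/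
def pchiBar (e : ι → O) : Ideal (Achi κ e) := (pchi (κ := κ) e).map (Ideal.Quotient.mk _)

theorem isPrime_pchiBar [IsDomain O] [IsNoetherianRing O] [IsLocalRing O] (π : O)
    (hπ : Prime π) (e : ι → O) (he : ∀ i, π ∣ e i) : (pchiBar (κ := κ) e).IsPrime := by
  have : IsDomain (Q3 e) := ConeK.isDomain_coneK₀ π hπ e he
  have hp : (pchi (κ := κ) e).IsPrime := pchi_isPrime e
  refine Ideal.map_isPrime_of_surjective Ideal.Quotient.mk_surjective ?_
  rw [Ideal.mk_ker]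
  exact relIdeal_le_pchi e

/-- `hdimχ`. -/
theorem ringKrullDim_Achi_quot_le [IsLocalRing O] [IsNoetherianRing O] (π : O)
    (hπO : maximalIdeal O = Ideal.span {π}) (h2 : IsUnit (2 : O)) (e : ι → O)
    (he : ∀ i, π ∣ e i) :
    ringKrullDim (Achi κ e ⧸ pchiBar (κ := κ) e)
      ≤ ((1 + 3 * Fintype.card ι + Fintype.card κ : ℕ) : WithBot ℕ∞) := by
  unfold pchiBar
  rw [ringKrullDim_eq_of_ringEquiv
    (DoubleQuot.quotQuotEquivQuotSup (relIdeal O κ e 1) (pchi (κ := κ) e))]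
  exact ChiDim.ringKrullDim_quot_le π hπO h2 e he _ le_sup_left

/-- `h𝔭` : every prime of `R_∞^χ` of characteristic `0` contains `pchiBar`. -/
theorem pchiBar_le_of_isPrime [IsDomain O] [IsNoetherianRing O] [IsLocalRing O] (π : O)
    (h2 : IsUnit (2 : O)) (e : ι → O) (he : ∀ i, ∃ N : ℕ, e i ∣ π ^ N)
    (𝔮 : Ideal (Achi κ e)) [𝔮.IsPrime] (hπ𝔮 : Ideal.Quotient.mk _ (C π) ∉ 𝔮) :
    pchiBar (κ := κ) e ≤ 𝔮 := by
  unfold pchiBar
  rw [Ideal.map_le_iff_le_comap]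
  refine pchi_le_of_isPrime π h2 e he (𝔮.comap (Ideal.Quotient.mk _)) ?_ ?_
  · intro x hx
    rw [Ideal.mem_comap, Ideal.Quotient.eq_zero_iff_mem.mpr hx]
    exact zero_mem _
  · rw [Ideal.mem_comap]
    exact hπ𝔮

/-! ### The common point -/

variable (π : O) (d : ι → O)

theorem Kbar_le_Qb (h2 : IsUnit (2 : O)) (e q : ι → O) (hed : ∀ i, e i = d i ^ 2)
    (hd : ∀ i, π ∣ d i) (he : ∀ i, π ∣ e i) (hq : ∀ i, π ∣ q i - 1) :
    Kbar κ π q ≤ Qb (κ := κ) π d hd := by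
  rw [Kbar_eq π e q he hq, sup_le_iff, Ideal.span_singleton_le_iff_mem]
  exact ⟨relIdeal_le_Qb π d h2 e hed hd, C_mem_Qb π d hd⟩

/-- the prime `Qbar` of the common reduction. -/
def QbBar (q : ι → O) (hd : ∀ i, π ∣ d i) : Ideal (Abar κ π q) :=
  (Qb (κ := κ) π d hd).map (Ideal.Quotient.mk _)

theorem isPrime_QbBar (hπ : Prime π) (h2 : IsUnit (2 : O)) (e q : ι → O)
    (hed : ∀ i, e i = d i ^ 2) (hd : ∀ i, π ∣ d i) (he : ∀ i, π ∣ e i)
    (hq : ∀ i, π ∣ q i - 1) : (QbBar (κ := κ) π d q hd).IsPrime := by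
  have hp : (Qb (κ := κ) π d hd).IsPrime := Qb_isPrime π d hπ hd
  refine Ideal.map_isPrime_of_surjective Ideal.Quotient.mk_surjective ?_
  rw [Ideal.mk_ker]
  exact Kbar_le_Qb π d h2 e q hed hd he hq

/-- `h𝔭Q`. -/
theorem pchiBar_le_comap [IsDomain O] [IsNoetherianRing O] [IsLocalRing O] (hπ : Prime π)
    (h2 : IsUnit (2 : O)) (e q : ι → O) (hed : ∀ i, e i = d i ^ 2) (hd : ∀ i, π ∣ d i)
    (he : ∀ i, π ∣ e i) (he' : ∀ i, ∃ N : ℕ, e i ∣ π ^ N) (hq : ∀ i, π ∣ q i - 1) :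
    pchiBar (κ := κ) e ≤ (QbBar (κ := κ) π d q hd).comap (pichi π e q he hq) := by
  unfold pchiBar QbBar
  rw [Ideal.map_le_iff_le_comap, Ideal.comap_comap]
  have hcomp : (pichi (κ := κ) π e q he hq).comp (Ideal.Quotient.mk (relIdeal O κ e 1)) =
      Ideal.Quotient.mk (Kbar κ π q) := Ideal.Quotient.factor_comp_mk _
  rw [hcomp]
  exact (pchi_le_Qb π d hπ h2 e hed hd he').trans Ideal.le_comap_map

/-- `hgQ`. -/
theorem pi1_g1_notMem (hπ : Prime π) (h2 : IsUnit (2 : O)) (e q : ι → O)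
    (hed : ∀ i, e i = d i ^ 2) (hd : ∀ i, π ∣ d i) (he : ∀ i, π ∣ e i)
    (hq : ∀ i, π ∣ q i - 1) (i : ι) :
    pi1 π q (g1 q i) ∉ QbBar (κ := κ) π d q hd := by
  unfold g1 QbBar
  rw [pi1_mk, Ideal.mem_quotient_iff_mem (Kbar_le_Qb π d h2 e q hed hd he hq)]
  exact gam_notMem_Qb π d hπ h2 q hq hd i

end Fin

end Fermat.Agent.S43.Local.Export
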