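/-
PROJECT R (S43, row 37), block `Local`, file `ToPatch` (helper6): LOC ∘ PATCH.

helper29's `Patch/Main.exists_point_of_levels` instantiated on the local model
(`A₁ = Export.A1 κ q`, `Aχ = Export.Achi κ e`, `Abar = Export.Abar κ π q`, `π₁ = Export.pi1`,
`πχ = Export.pichi`, `lam₁ = lamχ = ` the class of `C π`) : from the two module systems at all finite
levels ALONE, a prime of `R_∞^1` of characteristic `0` in the support of the level-zero module at
which every `w_i, f_i, g_i` vanishes (`ρ` unramified at every stuck prime).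
-/
import Mathlib
import Fermat.Agent.Lib.MvPSComplete
import Fermat.Agent.S43.Local.Export
import Fermat.Agent.S43.Patch.Main
import Fermat.Agent.S43.Patch.Quot

set_option autoImplicit false

noncomputable section

namespace Fermat.Agent.S43.Local.ToPatch

open MvPowerSeries IsLocalRing
open Fermat.Agent.S43.Local
open Fermat.Agent.S43.Local.Model
open Fermat.Agent.S43.Local.Export
open Fermat.Agent.S43.Patch.Level

universe u

variable {O : Type*} [CommRing O] [IsDomain O] [IsNoetherianRing O] [IsLocalRing O]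
  {ι κ : Type*} [Fintype ι] [Fintype κ]

/-- a noetherian local domain with principal nonzero maximal ideal has dimension `1`. -/
theorem ringKrullDim_eq_one_of (π : O) (hπ : Prime π)
    (hπO : maximalIdeal O = Ideal.span {π}) : ringKrullDim O = 1 := by
  have hnf : ¬ IsField O := by
    rw [IsLocalRing.isField_iff_maximalIdeal_eq, hπO, Ideal.span_singleton_eq_bot]
    exact hπ.ne_zero
  have hprin : (maximalIdeal O).IsPrincipal := ⟨π, by rw [hπO]⟩
  have : IsDiscreteValuationRing O := ((IsDiscreteValuationRing.TFAE O hnf).out 0 4).mpr hprin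
  exact IsDiscreteValuationRing.ringKrullDim_eq_one O

omit [IsNoetherianRing O] [IsLocalRing O] [Fintype κ] in
theorem relIdeal_zero_ne_top (q : ι → O) : relIdeal O κ 0 q ≠ ⊤ := by
  intro h
  have hp : (P0 O κ : Ideal (P O ι κ)).IsPrime := UnipModel.isPrime_P0
  apply hp.ne_top
  rw [eq_top_iff, ← h]
  exact UnipModel.relIdeal_zero_le_P0 q

omit [IsDomain O] [IsNoetherianRing O] [IsLocalRing O] in
theorem relIdeal_one_ne_top (π : O) (hπ : Prime π) (h2 : IsUnit (2 : O)) (e d : ι → O)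
    (hed : ∀ i, e i = d i ^ 2) (hd : ∀ i, π ∣ d i) : relIdeal O κ e 1 ≠ ⊤ := by
  intro h
  have hp : (ChiDiag.Qb (κ := κ) π d hd).IsPrime := ChiDiag.Qb_isPrime π d hπ hd
  apply hp.ne_top
  rw [eq_top_iff, ← h]
  exact ChiDiag.relIdeal_le_Qb π d h2 e hed hd

section Main

variable [IsAdicComplete (maximalIdeal O) O] [Finite (ResidueField O)]

/-- **LOC ∘ PATCH** : the unramified point of characteristic `0` in the support of `M0`. -/
theorem exists_point (π : O) (hπ : Prime π) (hπO : maximalIdeal O = Ideal.span {π})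
    (h2 : IsUnit (2 : O)) (e d q : ι → O) (hed : ∀ i, e i = d i ^ 2) (hd : ∀ i, π ∣ d i)
    (he : ∀ i, π ∣ e i) (he' : ∀ i, ∃ N : ℕ, e i ∣ π ^ N) (hq : ∀ i, π ∣ q i - 1)
    {S : Type*} [CommRing S] [IsDomain S] [IsNoetherianRing S] [IsLocalRing S]
    [IsAdicComplete (maximalIdeal S) S] [Finite (ResidueField S)]
    (hdimS : ringKrullDim S
      = ringKrullDim O + ((3 * Fintype.card ι + Fintype.card κ : ℕ) : WithBot ℕ∞))
    (lam : S) (hlam : lam ∈ maximalIdeal S) (𝔞 : Ideal S) [𝔞.IsPrime] (hlam𝔞 : lam ∉ 𝔞)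
    {M0 : Type*} [AddCommGroup M0] [Module S M0] [Module (A1 κ q) M0]
    (h𝔞M0 : ∀ s ∈ 𝔞, ∀ m : M0, s • m = 0)
    {r : ℕ} (hr : 0 < r) (b : Fin r → M0) (hb : IsBasisMod 𝔞 b)
    (D : ∀ n, Datum.{u} S (A1 κ q) (Achi κ e) (Abar κ π q) (maximalIdeal S) (pi1 π q)
      (pichi π e q he hq) lam (Ideal.Quotient.mk _ (C π)) (Ideal.Quotient.mk _ (C π)) 𝔞 M0 r n) :
    ∃ 𝔮 : Ideal (A1 κ q), 𝔮.IsPrime ∧ (∀ i j, Ideal.Quotient.mk _ (sg O κ i j) ∈ 𝔮) ∧
      Module.annihilator (A1 κ q) M0 ≤ 𝔮 ∧ Ideal.Quotient.mk _ (C π) ∉ 𝔮 := by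
  -- the ambient power series ring
  have : IsAdicComplete (maximalIdeal (P O ι κ)) (P O ι κ) :=
    Fermat.Agent.Lib.MvPSComplete.isAdicComplete_maximalIdeal
  have : Finite (ResidueField (P O ι κ)) := Patch.Quot.finite_residueField_mvPowerSeries
  -- `A₁`
  have : IsLocalRing (A1 κ q) := Patch.Quot.isLocalRing_quotient _ (relIdeal_zero_ne_top q)
  have : IsAdicComplete (maximalIdeal (A1 κ q)) (A1 κ q) := Patch.Quot.isAdicComplete_quotient _
  have : Finite (ResidueField (A1 κ q)) :=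
    Patch.Quot.finite_residueField_of_surjective (Ideal.Quotient.mk _)
      Ideal.Quotient.mk_surjective
  -- `Aχ`
  have : IsLocalRing (Achi κ e) :=
    Patch.Quot.isLocalRing_quotient _ (relIdeal_one_ne_top π hπ h2 e d hed hd)
  have : IsAdicComplete (maximalIdeal (Achi κ e)) (Achi κ e) :=
    Patch.Quot.isAdicComplete_quotient _
  have : Finite (ResidueField (Achi κ e)) :=
    Patch.Quot.finite_residueField_of_surjective (Ideal.Quotient.mk _)
      Ideal.Quotient.mk_surjective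
  -- the primes
  have : (UnipModel.P0bar (κ := κ) q).IsPrime := UnipModel.isPrime_P0bar q
  have : (pchiBar (κ := κ) e).IsPrime := isPrime_pchiBar π hπ e he
  have : (QbBar (κ := κ) π d q hd).IsPrime := isPrime_QbBar π d hπ h2 e q hed hd he hq
  have hdimO : ringKrullDim O = 1 := ringKrullDim_eq_one_of π hπ hπO
  have hdim₁ : ringKrullDim (A1 κ q ⧸ UnipModel.P0bar (κ := κ) q) ≤ ringKrullDim S := by
    rw [ringKrullDim_A1_quot, hdimS]
  have hdimχ : ringKrullDim (Achi κ e ⧸ pchiBar (κ := κ) e) ≤ ringKrullDim S := by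
    refine (ringKrullDim_Achi_quot_le π hπO h2 e he).trans (le_of_eq ?_)
    rw [hdimS, hdimO]
    push_cast
    ring
  obtain ⟨𝔮, h𝔮, hP, hann, hlam𝔮⟩ := Patch.Main.exists_point_of_levels
    (pi1 (κ := κ) π q) (pichi π e q he hq) (pichi_surjective π e q he hq) lam
    (Ideal.Quotient.mk _ (C π)) (Ideal.Quotient.mk _ (C π)) (pichi_lam π e q he hq) hlam 𝔞 hlam𝔞
    h𝔞M0 hr b hb D (I1 q) (g1 q) (UnipModel.P0bar (κ := κ) q) (P0bar_eq_iSup q) hdim₁
    (isNilpotent_mul_g1 q) (pchiBar (κ := κ) e) hdimχ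
    (fun 𝔮 h𝔮 hl => by
      have := h𝔮
      exact pchiBar_le_of_isPrime π h2 e he' 𝔮 hl)
    (QbBar (κ := κ) π d q hd) (pchiBar_le_comap π d hπ h2 e q hed hd he he' hq)
    (pi1_g1_notMem π d hπ h2 e q hed hd he hq)
  exact ⟨𝔮, h𝔮, fun i j => mk_sg_mem_of_P0bar_le q 𝔮 hP i j, hann, hlam𝔮⟩

end Main

end Fermat.Agent.S43.Local.ToPatch
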