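/-
S43 (row 37), PROJECT R, block `Local`, file `Universal` (helper23).

**The universal property of the local model, in matrix form** (the `LOC` half of `θ^?`): a family
of pairs `(Φ_i, Σ_i)` of `2 × 2` matrices over a complete local `O`-algebra `T`, residually
`(s_i, τ_i)` scalar, with `tr Σ_i = 2 τ_i`, `det Σ_i = 1`, `det Φ_i = s_i ^ 2` and
`Φ_i B_i = q_i B_i Φ_i` (`B_i = Σ_i - τ_i`), together with elements `x_k` of the maximal ideal, is
the image of the universal matrices `SigmaU`, `PhiU` of `Local/Model` under an `O`-algebra map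
`θ : P O ι κ → T` killing `relIdeal e q`.

* `exists_algHom_X_eq` : the evaluation map `O⟦σ⟧ → T` at elements of the maximal ideal;
* `exists_theta` : the map `θ`; its last clause: a ring map `φ` out of `T` killing `θ (X v)` for
  every variable `v` sends `Σ_i`, `Φ_i` to the scalars `τ_i`, `s_i` (`TrivOnBase`);
* `mul_sub_one_eq` (unipotent side), `commute_of_pow_eq` (`χ`-side): how the relation
  `Φ B = q B Φ` follows from `Φ Σ = Σ ^ l Φ`.
-/
import Fermat.Agent.S43.Local.Model
import Fermat.Agent.S43.Local.Cayley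

set_option autoImplicit false

noncomputable section

namespace Fermat.Agent.S43.Local.Universal

open MvPowerSeries IsLocalRing Matrix Fermat.Agent.S43.Local.Model
  Fermat.Agent.S43.Local.Cayley

/-! ### evaluation of power series in a complete local algebra -/

section Eval

variable {O T : Type*} [CommRing O] [CommRing T] [Algebra O T] [IsLocalRing O] [IsLocalRing T]

open MvPowerSeries.WithPiTopology in
/-- the evaluation map `O⟦σ⟧ → T` at a finite family of elements of the maximal ideal of a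
complete local `O`-algebra. -/
theorem exists_algHom_X_eq {σ : Type*} [Finite σ] [IsAdicComplete (maximalIdeal O) O]
    [IsAdicComplete (maximalIdeal T) T] [IsLocalHom (algebraMap O T)]
    (x : σ → T) (hx : ∀ s, x s ∈ maximalIdeal T) :
    ∃ γ : MvPowerSeries σ O →ₐ[O] T, ∀ s, γ (X s) = x s := by
  classical
  let _ : WithIdeal O := ⟨maximalIdeal O⟩
  let _ : WithIdeal T := ⟨maximalIdeal T⟩
  have hmap : (maximalIdeal O).map (algebraMap O T) ≤ maximalIdeal T := by
    rw [Ideal.map_le_iff_le_comap]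
    intro o ho
    exact (mem_maximalIdeal _).mpr (map_nonunit (algebraMap O T) o ho)
  have hcont : Continuous (algebraMap O T) :=
    (WithIdeal.uniformContinuous_of_map_le (f := algebraMap O T) hmap).continuous
  have : ContinuousSMul O T := continuousSMul_of_algebraMap O T hcont
  obtain ⟨hcT, ht2T⟩ :=
    (IsAdic.isAdicComplete_iff (R := T) (I := maximalIdeal T) rfl).mp inferInstance
  obtain ⟨hcO, ht2O⟩ :=
    (IsAdic.isAdicComplete_iff (R := O) (I := maximalIdeal O) rfl).mp inferInstance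
  have ha : MvPowerSeries.HasEval x :=
    ⟨fun i => WithIdeal.isTopologicallyNilpotent_of_mem (hx i), by simp⟩
  refine ⟨MvPowerSeries.aeval ha, fun s => ?_⟩
  rw [← MvPolynomial.coe_X, MvPowerSeries.aeval_coe, MvPolynomial.aeval_X]

end Eval

/-! ### the images of the universal matrices -/

section Images

variable {O T : Type*} [CommRing O] [CommRing T] [Algebra O T] {ι κ : Type*}

/-- the values of the variables: `(w, f, g)_i` = the entries `(0,0), (0,1), (1,0)` of `B i`,
`(u, b, c)_i` = those of `A i`, `x_k`. -/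
def val (B A : ι → Matrix (Fin 2) (Fin 2) T) (x : κ → T) : Var ι κ → T
  | Sum.inl (i, j) => ![B i 0 0, B i 0 1, B i 1 0] j
  | Sum.inr (Sum.inl (i, j)) => ![A i 0 0, A i 0 1, A i 1 0] j
  | Sum.inr (Sum.inr k) => x k

variable {B A : ι → Matrix (Fin 2) (Fin 2) T} {x : κ → T}
  (θ : P O ι κ →ₐ[O] T) (hθ : ∀ v, θ (X v) = val B A x v)

include hθ

theorem theta_sg (i : ι) :
    θ (sg O κ i 0) = B i 0 0 ∧ θ (sg O κ i 1) = B i 0 1 ∧ θ (sg O κ i 2) = B i 1 0 :=
  ⟨hθ (Sum.inl (i, 0)), hθ (Sum.inl (i, 1)), hθ (Sum.inl (i, 2))⟩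

theorem theta_ph (i : ι) :
    θ (ph O κ i 0) = A i 0 0 ∧ θ (ph O κ i 1) = A i 0 1 ∧ θ (ph O κ i 2) = A i 1 0 :=
  ⟨hθ (Sum.inr (Sum.inl (i, 0))), hθ (Sum.inr (Sum.inl (i, 1))), hθ (Sum.inr (Sum.inl (i, 2)))⟩

theorem theta_ex (k : κ) : θ (ex O κ k) = x k := hθ (Sum.inr (Sum.inr k))

theorem map_B0 (i : ι) (hB : (B i).trace = 0) : (B0 O κ i).map θ = B i := by
  obtain ⟨h0, h1, h2⟩ := theta_sg θ hθ i
  rw [Matrix.trace_fin_two] at hB
  have h11 : B i 1 1 = -B i 0 0 := by linear_combination hB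
  refine Matrix.ext fun a b => ?_
  fin_cases a <;> fin_cases b
  · exact h0
  · exact h1
  · exact h2
  · show θ (-sg O κ i 0) = B i 1 1
    rw [map_neg, h0, h11]

theorem map_A0 (i : ι) (hA : (A i).trace = 0) : (A0 O κ i).map θ = A i := by
  obtain ⟨h0, h1, h2⟩ := theta_ph θ hθ i
  rw [Matrix.trace_fin_two] at hA
  have h11 : A i 1 1 = -A i 0 0 := by linear_combination hA
  refine Matrix.ext fun a b => ?_
  fin_cases a <;> fin_cases b
  · exact h0
  · exact h1
  · exact h2
  · show θ (-ph O κ i 0) = A i 1 1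
    rw [map_neg, h0, h11]

omit hθ in
theorem theta_C' (r : O) : θ (C r : P O ι κ) = algebraMap O T r := by
  have : (C r : P O ι κ) = algebraMap O (P O ι κ) r := rfl
  rw [this, AlgHom.commutes]

theorem map_SigmaU (τ : ι → O) (i : ι) (hB : (B i).trace = 0) :
    (SigmaU O κ τ i).map θ
      = algebraMap O T (τ i) • (1 : Matrix (Fin 2) (Fin 2) T) + B i := by
  have hb := map_B0 θ hθ i hB
  refine Matrix.ext fun a b => ?_
  have hab : θ (B0 O κ i a b) = B i a b := by
    rw [← hb]
    rfl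
  have hone : θ ((1 : Matrix (Fin 2) (Fin 2) (P O ι κ)) a b)
      = (1 : Matrix (Fin 2) (Fin 2) T) a b := by
    by_cases h : a = b
    · subst h
      simp
    · simp [Matrix.one_apply_ne h]
  show θ (SigmaU O κ τ i a b) = _
  unfold SigmaU
  rw [Matrix.add_apply, Matrix.smul_apply, smul_eq_mul, map_add, map_mul, theta_C' θ, hab, hone,
    Matrix.add_apply, Matrix.smul_apply, smul_eq_mul]

theorem theta_nrm (i : ι) (hA : (A i).trace = 0) : θ (nrm O κ i) = nrmOf (A i) := by
  obtain ⟨h0, h1, h2⟩ := theta_ph θ hθ i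
  rw [Matrix.trace_fin_two] at hA
  have h11 : A i 1 1 = -A i 0 0 := by linear_combination hA
  have hdef : nrm O κ i = ph O κ i 0 ^ 2 + ph O κ i 1 * ph O κ i 2 := rfl
  rw [hdef, map_add, map_pow, map_mul, h0, h1, h2]
  unfold nrmOf
  rw [Matrix.det_fin_two, h11]
  ring

theorem theta_nrmInv (i : ι) (hA : (A i).trace = 0) {m : T}
    (hm : m * (1 - nrmOf (A i)) = 1) : θ (nrmInv O κ i) = m := by
  have h1 : θ (1 - nrm O κ i) * θ (nrmInv O κ i) = 1 := by
    rw [← map_mul, nrm_mul_nrmInv, map_one]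
  rw [map_sub, map_one, theta_nrm θ hθ i hA] at h1
  calc θ (nrmInv O κ i) = (m * (1 - nrmOf (A i))) * θ (nrmInv O κ i) := by rw [hm, one_mul]
    _ = m * ((1 - nrmOf (A i)) * θ (nrmInv O κ i)) := by ring
    _ = m := by rw [h1, mul_one]

theorem map_PhiU (s : ι → O) (i : ι) (hA : (A i).trace = 0) {m : T}
    (hm : m * (1 - nrmOf (A i)) = 1) :
    (PhiU O κ s i).map θ = algebraMap O T (s i) • ofCayley m (A i) := by
  have ha := map_A0 θ hθ i hA
  have hn := theta_nrm θ hθ i hA
  have hi := theta_nrmInv θ hθ i hA hm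
  refine Matrix.ext fun a b => ?_
  have hab : θ (A0 O κ i a b) = A i a b := by
    rw [← ha]
    rfl
  have hone : θ ((1 : Matrix (Fin 2) (Fin 2) (P O ι κ)) a b)
      = (1 : Matrix (Fin 2) (Fin 2) T) a b := by
    by_cases h : a = b
    · subst h
      simp
    · simp [Matrix.one_apply_ne h]
  show θ (PhiU O κ s i a b) = _
  unfold PhiU ofCayley
  simp only [Matrix.smul_apply, Matrix.add_apply, smul_eq_mul, map_mul, map_add, map_one,
    map_ofNat, theta_C' θ, hab, hone, hn, hi]
  ring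

end Images

/-! ### the universal property -/

section Main

variable {O T : Type*} [CommRing O] [CommRing T] [Algebra O T] [IsLocalRing O] [IsLocalRing T]
  {ι κ : Type*}

/-- a unit plus an element of the maximal ideal is a unit. -/
theorem isUnit_add_of_mem_maximalIdeal {u m : T} (hu : IsUnit u) (hm : m ∈ maximalIdeal T) :
    IsUnit (u + m) := by
  by_contra h
  have h1 : u + m ∈ maximalIdeal T := (mem_maximalIdeal _).mpr h
  have h2 : u ∈ maximalIdeal T := by
    have := sub_mem h1 hm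
    rwa [add_sub_cancel_right] at this
  exact (mem_maximalIdeal _).mp h2 hu

/-- the Cayley data of a matrix `Φ` with `det Φ = s ^ 2`, residually the scalar `s`. -/
theorem exists_cayley_of_residual (h2 : IsUnit (2 : T)) {s : T} (hs : IsUnit s)
    (Φ : Matrix (Fin 2) (Fin 2) T) (hdet : Φ.det = s ^ 2)
    (hres : ∀ a b, (Φ - s • (1 : Matrix (Fin 2) (Fin 2) T)) a b ∈ maximalIdeal T) :
    ∃ (A : Matrix (Fin 2) (Fin 2) T) (m : T), A.trace = 0 ∧ m * (1 - nrmOf A) = 1 ∧
      Φ = s • ofCayley m A ∧ ∀ a b, A a b ∈ maximalIdeal T := by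
  obtain ⟨sinv, hsinv⟩ := hs.exists_right_inv
  set g : Matrix (Fin 2) (Fin 2) T := sinv • Φ with hg
  have hgdet : g.det = 1 := by
    rw [hg, Matrix.det_smul, Fintype.card_fin, hdet]
    linear_combination (s * sinv + 1) * hsinv
  -- the entries of `Φ - s`
  have e00 := hres 0 0
  have e01 := hres 0 1
  have e10 := hres 1 0
  have e11 := hres 1 1
  simp only [Matrix.sub_apply, Matrix.smul_apply, Matrix.one_apply_eq, smul_eq_mul, mul_one,
    Matrix.one_apply_ne (show (0 : Fin 2) ≠ 1 by decide),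
    Matrix.one_apply_ne (show (1 : Fin 2) ≠ 0 by decide), mul_zero, sub_zero] at e00 e01 e10 e11
  have htr : 2 + g.trace = 4 + sinv * ((Φ 0 0 - s) + (Φ 1 1 - s)) := by
    rw [hg, Matrix.trace_fin_two]
    simp only [Matrix.smul_apply, smul_eq_mul]
    linear_combination (2 : T) * hsinv
  have h4 : IsUnit (4 : T) := by
    have : (4 : T) = 2 * 2 := by norm_num
    rw [this]
    exact h2.mul h2
  have hunit : IsUnit (2 + g.trace) := by
    rw [htr]
    exact isUnit_add_of_mem_maximalIdeal h4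
      (Ideal.mul_mem_left _ _ (add_mem e00 e11))
  obtain ⟨v, hv⟩ := hunit.exists_left_inv
  have hm' := isUnit_one_sub_nrmOf_cay h2 hv hgdet
  obtain ⟨m, hm⟩ := hm'.exists_left_inv
  refine ⟨cay v g, m, trace_cay v g, hm, ?_, ?_⟩
  · have h1 := eq_ofCayley_cay hv hgdet hm
    rw [← h1, hg, smul_smul, hsinv, one_smul]
  · have hgeta : g = !![g 0 0, g 0 1; g 1 0, g 1 1] := Matrix.eta_fin_two g
    have hcay : cay v g = !![v * (g 0 0 - g 1 1), v * (2 * g 0 1); v * (2 * g 1 0),
        v * (g 1 1 - g 0 0)] := by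
      conv_lhs => rw [hgeta]
      exact cay_of v _ _ _ _
    have g00 : g 0 0 - g 1 1 = sinv * ((Φ 0 0 - s) - (Φ 1 1 - s)) := by
      rw [hg]
      simp only [Matrix.smul_apply, smul_eq_mul]
      ring
    have g01 : g 0 1 = sinv * Φ 0 1 := by
      rw [hg]
      simp only [Matrix.smul_apply, smul_eq_mul]
    have g10 : g 1 0 = sinv * Φ 1 0 := by
      rw [hg]
      simp only [Matrix.smul_apply, smul_eq_mul]
    have m00 : g 0 0 - g 1 1 ∈ maximalIdeal T := by
      rw [g00]
      exact Ideal.mul_mem_left _ _ (sub_mem e00 e11)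
    have m01 : g 0 1 ∈ maximalIdeal T := by
      rw [g01]
      exact Ideal.mul_mem_left _ _ e01
    have m10 : g 1 0 ∈ maximalIdeal T := by
      rw [g10]
      exact Ideal.mul_mem_left _ _ e10
    intro a b
    rw [hcay]
    fin_cases a <;> fin_cases b
    · exact Ideal.mul_mem_left _ _ m00
    · exact Ideal.mul_mem_left _ _ (Ideal.mul_mem_left _ _ m01)
    · exact Ideal.mul_mem_left _ _ (Ideal.mul_mem_left _ _ m10)
    · have : g 1 1 - g 0 0 = -(g 0 0 - g 1 1) := by ring
      show v * (g 1 1 - g 0 0) ∈ maximalIdeal T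
      rw [this]
      exact Ideal.mul_mem_left _ _ (neg_mem m00)

variable [Fintype ι] [Fintype κ] [IsAdicComplete (maximalIdeal O) O]
  [IsAdicComplete (maximalIdeal T) T] [IsLocalHom (algebraMap O T)]

/-- **The universal property of the local model.** -/
theorem exists_theta (h2 : IsUnit (2 : O)) (e q τ s : ι → O) (hτ : ∀ i, τ i ^ 2 = 1 + e i)
    (hs : ∀ i, IsUnit (s i)) (Φ Sg : ι → Matrix (Fin 2) (Fin 2) T) (x : κ → T)
    (htr : ∀ i, (Sg i).trace = 2 * algebraMap O T (τ i)) (hdetS : ∀ i, (Sg i).det = 1)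
    (hdetΦ : ∀ i, (Φ i).det = algebraMap O T (s i) ^ 2)
    (hrel : ∀ i, Φ i * (Sg i - algebraMap O T (τ i) • (1 : Matrix (Fin 2) (Fin 2) T))
      = algebraMap O T (q i) •
        ((Sg i - algebraMap O T (τ i) • (1 : Matrix (Fin 2) (Fin 2) T)) * Φ i))
    (hresS : ∀ i a b,
      (Sg i - algebraMap O T (τ i) • (1 : Matrix (Fin 2) (Fin 2) T)) a b ∈ maximalIdeal T)
    (hresΦ : ∀ i a b,
      (Φ i - algebraMap O T (s i) • (1 : Matrix (Fin 2) (Fin 2) T)) a b ∈ maximalIdeal T)
    (hx : ∀ k, x k ∈ maximalIdeal T) :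
    ∃ θ : P O ι κ →ₐ[O] T, (∀ i, (SigmaU O κ τ i).map θ = Sg i) ∧
      (∀ i, (PhiU O κ s i).map θ = Φ i) ∧ (∀ k, θ (ex O κ k) = x k) ∧
      (∀ v : Var ι κ, θ (X v) ∈ maximalIdeal T) ∧
      Model.relIdeal O κ e q ≤ RingHom.ker (θ : P O ι κ →+* T) ∧
      ∀ {D : Type*} [CommRing D] (φ : T →+* D), (∀ v : Var ι κ, φ (θ (X v)) = 0) →
        (∀ i, (Sg i).map φ = φ (algebraMap O T (τ i)) • (1 : Matrix (Fin 2) (Fin 2) D)) ∧
        (∀ i, (Φ i).map φ = φ (algebraMap O T (s i)) • (1 : Matrix (Fin 2) (Fin 2) D)) := by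
  classical
  have h2T : IsUnit (2 : T) := by
    have := h2.map (algebraMap O T)
    rwa [map_ofNat] at this
  -- the traceless parts
  set B : ι → Matrix (Fin 2) (Fin 2) T :=
    fun i => Sg i - algebraMap O T (τ i) • (1 : Matrix (Fin 2) (Fin 2) T) with hBdef
  have hBtr : ∀ i, (B i).trace = 0 := by
    intro i
    rw [hBdef]
    simp only [Matrix.trace_sub, Matrix.trace_smul, Matrix.trace_one, Fintype.card_fin, htr i,
      smul_eq_mul]
    push_cast
    ring
  -- the Cayley data
  have hcay := fun i => exists_cayley_of_residual h2T ((hs i).map (algebraMap O T)) (Φ i)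
    (hdetΦ i) (hresΦ i)
  choose A m hAtr hm hΦeq hAmem using hcay
  -- the evaluation map
  have hval : ∀ v : Var ι κ, val B A x v ∈ maximalIdeal T := by
    rintro (⟨i, j⟩ | ⟨i, j⟩ | k)
    · fin_cases j
      · exact hresS i 0 0
      · exact hresS i 0 1
      · exact hresS i 1 0
    · fin_cases j
      · exact hAmem i 0 0
      · exact hAmem i 0 1
      · exact hAmem i 1 0
    · exact hx k
  obtain ⟨θ, hθ⟩ := exists_algHom_X_eq (O := O) (val B A x) hval
  have hSig : ∀ i, (SigmaU O κ τ i).map θ = Sg i := by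
    intro i
    rw [map_SigmaU θ hθ τ i (hBtr i)]
    exact add_sub_cancel _ _
  have hPhi : ∀ i, (PhiU O κ s i).map θ = Φ i := by
    intro i
    rw [map_PhiU θ hθ s i (hAtr i) (hm i), ← hΦeq i]
  have hB0 : ∀ i, (B0 O κ i).map θ = B i := fun i => map_B0 θ hθ i (hBtr i)
  refine ⟨θ, hSig, hPhi, fun k => theta_ex θ hθ k, fun v => (hθ v) ▸ hval v, ?_, ?_⟩
  · rw [relIdeal_le_ker_iff (θ : P O ι κ →+* T) e q τ s hτ hs]
    refine ⟨fun i => ?_, fun i => ?_⟩
    · have : (SigmaU O κ τ i).map (θ : P O ι κ →+* T) = Sg i := hSig i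
      rw [this, hdetS i]
    · have h1 : (PhiU O κ s i).map (θ : P O ι κ →+* T) = Φ i := hPhi i
      have h3 : (B0 O κ i).map (θ : P O ι κ →+* T) = B i := hB0 i
      have h4 : (θ : P O ι κ →+* T) (C (q i)) = algebraMap O T (q i) := theta_C' θ (q i)
      rw [h1, h3, h4]
      exact hrel i
  · intro D _ φ hφ
    have hφval : ∀ v, φ (val B A x v) = 0 := fun v => by rw [← hθ v]; exact hφ v
    have hBzero : ∀ i a b, φ (B i a b) = 0 := by
      intro i a b
      have h00 : φ (B i 0 0) = 0 := hφval (Sum.inl (i, 0))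
      have h01 : φ (B i 0 1) = 0 := hφval (Sum.inl (i, 1))
      have h10 : φ (B i 1 0) = 0 := hφval (Sum.inl (i, 2))
      have h11 : B i 1 1 = -B i 0 0 := by
        have := hBtr i
        rw [Matrix.trace_fin_two] at this
        linear_combination this
      fin_cases a <;> fin_cases b
      · exact h00
      · exact h01
      · exact h10
      · show φ (B i 1 1) = 0
        rw [h11, map_neg, h00, neg_zero]
    have hAzero : ∀ i a b, φ (A i a b) = 0 := by
      intro i a b
      have h00 : φ (A i 0 0) = 0 := hφval (Sum.inr (Sum.inl (i, 0)))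
      have h01 : φ (A i 0 1) = 0 := hφval (Sum.inr (Sum.inl (i, 1)))
      have h10 : φ (A i 1 0) = 0 := hφval (Sum.inr (Sum.inl (i, 2)))
      have h11 : A i 1 1 = -A i 0 0 := by
        have := hAtr i
        rw [Matrix.trace_fin_two] at this
        linear_combination this
      fin_cases a <;> fin_cases b
      · exact h00
      · exact h01
      · exact h10
      · show φ (A i 1 1) = 0
        rw [h11, map_neg, h00, neg_zero]
    refine ⟨fun i => ?_, fun i => ?_⟩
    · have hS : Sg i = algebraMap O T (τ i) • (1 : Matrix (Fin 2) (Fin 2) T) + B i :=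
        (add_sub_cancel _ _).symm
      refine Matrix.ext fun a b => ?_
      rw [Matrix.map_apply, hS, Matrix.add_apply, map_add, hBzero i a b, add_zero,
        Matrix.smul_apply, Matrix.smul_apply, smul_eq_mul, smul_eq_mul, map_mul]
      by_cases h : a = b
      · subst h
        simp
      · simp [Matrix.one_apply_ne h]
    · have hn : φ (nrmOf (A i)) = 0 := by
        unfold nrmOf
        rw [Matrix.det_fin_two, map_neg, map_sub, map_mul, map_mul, hAzero i 0 0, hAzero i 0 1]
        simp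
      have hmφ : φ (m i) = 1 := by
        have := congrArg φ (hm i)
        rwa [map_mul, map_sub, map_one, hn, sub_zero, mul_one] at this
      refine Matrix.ext fun a b => ?_
      rw [Matrix.map_apply, hΦeq i]
      unfold ofCayley
      simp only [Matrix.smul_apply, Matrix.add_apply, smul_eq_mul, map_mul, map_add, map_one,
        map_ofNat, hn, hmφ, hAzero i a b]
      by_cases h : a = b
      · subst h
        simp
      · simp [Matrix.one_apply_ne h]

end Main

/-! ### how the relation `Φ B = q B Φ` follows from `Φ Σ = Σ ^ l Φ` -/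

section Translate

variable {T : Type*} [CommRing T]

/-- Cayley--Hamilton: `(Σ - 1) ^ 2 = 0` if `tr Σ = 2`, `det Σ = 1`. -/
theorem sub_one_mul_sub_one (S : Matrix (Fin 2) (Fin 2) T) (htr : S.trace = 2)
    (hdet : S.det = 1) : (S - 1) * (S - 1) = 0 := by
  rw [Matrix.trace_fin_two] at htr
  rw [Matrix.det_fin_two] at hdet
  refine Matrix.ext fun a b => ?_
  rw [Matrix.mul_apply, Fin.sum_univ_two]
  fin_cases a <;> fin_cases b
  · show (S 0 0 - 1) * (S 0 0 - 1) + (S 0 1 - 0) * (S 1 0 - 0) = 0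
    linear_combination S 0 0 * htr - hdet
  · show (S 0 0 - 1) * (S 0 1 - 0) + (S 0 1 - 0) * (S 1 1 - 1) = 0
    linear_combination S 0 1 * htr
  · show (S 1 0 - 0) * (S 0 0 - 1) + (S 1 1 - 1) * (S 1 0 - 0) = 0
    linear_combination S 1 0 * htr
  · show (S 1 0 - 0) * (S 0 1 - 0) + (S 1 1 - 1) * (S 1 1 - 1) = 0
    linear_combination S 1 1 * htr - hdet

/-- `Σ ^ l = 1 + l (Σ - 1)` if `tr Σ = 2`, `det Σ = 1`. -/
theorem pow_eq_one_add (S : Matrix (Fin 2) (Fin 2) T) (htr : S.trace = 2) (hdet : S.det = 1)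
    (l : ℕ) : S ^ l = 1 + (l : T) • (S - 1) := by
  have hN := sub_one_mul_sub_one S htr hdet
  have hS : S = 1 + (S - 1) := (add_sub_cancel _ _).symm
  generalize S - 1 = N at hN hS ⊢
  induction l with
  | zero => simp
  | succ n ih =>
    rw [pow_succ, ih, hS, add_mul, mul_add, mul_add, one_mul, mul_one,
      smul_mul_assoc, hN, smul_zero, add_zero, Nat.cast_succ, add_smul, one_smul, one_mul,
      add_assoc, add_comm N]

/-- **Unipotent side.** `tr Σ = 2`, `det Σ = 1` and the tame relation `Φ Σ = Σ ^ l Φ` give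
`Φ (Σ - 1) = l (Σ - 1) Φ`. -/
theorem mul_sub_one_eq (S Φ : Matrix (Fin 2) (Fin 2) T) (htr : S.trace = 2) (hdet : S.det = 1)
    (l : ℕ) (h : Φ * S = S ^ l * Φ) : Φ * (S - 1) = (l : T) • ((S - 1) * Φ) := by
  rw [mul_sub, mul_one, h, pow_eq_one_add S htr hdet l, add_mul, one_mul, add_sub_cancel_left,
    smul_mul_assoc]

/-- `Σ ^ l = Σ` if `Σ ^ p = 1` and `l ≡ 1 mod p`. -/
theorem pow_eq_self_of_modEq (S : Matrix (Fin 2) (Fin 2) T) {p l : ℕ} (hp : S ^ p = 1)
    (hl : l ≡ 1 [MOD p]) : S ^ l = S := by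
  rcases Nat.eq_zero_or_pos l with h0 | hpos
  · subst h0
    have h1 : p ∣ 1 := (Nat.modEq_zero_iff_dvd.mp hl.symm)
    have hp1 : p = 1 := Nat.dvd_one.mp h1
    rw [hp1, pow_one] at hp
    rw [pow_zero, hp]
  · obtain ⟨k, hk⟩ := (Nat.modEq_iff_dvd' hpos).mp hl.symm
    have hl' : l = 1 + p * k := by omega
    rw [hl', pow_add, pow_one, pow_mul, hp, one_pow, mul_one]

/-- **`χ` side.** `Σ ^ p = 1`, `l ≡ 1 mod p` and the tame relation `Φ Σ = Σ ^ l Φ` give
`Φ (Σ - t) = (Σ - t) Φ` for every scalar `t`. -/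
theorem commute_of_pow_eq (S Φ : Matrix (Fin 2) (Fin 2) T) {p l : ℕ} (hp : S ^ p = 1)
    (hl : l ≡ 1 [MOD p]) (h : Φ * S = S ^ l * Φ) (t : T) :
    Φ * (S - t • (1 : Matrix (Fin 2) (Fin 2) T))
      = (S - t • (1 : Matrix (Fin 2) (Fin 2) T)) * Φ := by
  rw [pow_eq_self_of_modEq S hp hl] at h
  rw [mul_sub, sub_mul, h, Matrix.mul_smul, Matrix.smul_mul, mul_one, one_mul]

end Translate

end Fermat.Agent.S43.Local.Universal
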