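/-
PROJECT R (S43, row 37), block `Local` (local algebra at the stuck primes), brick LA5 (helper20):
CAYLEY COORDINATES for `2 × 2` matrices of determinant `1`, and the dictionary between the
relation ideal of `Local/Model.lean` (helper6) and the matrix relations
`det Σ = 1`, `Φ * B = q • (B * Φ)` for the universal matrices `SigmaU`, `PhiU`, `B0`.

PART 1 (pure matrices, any commutative ring `T`): for `g` with `det g = 1` and `v` an inverse of
`2 + tr g`:
* `cay v g = v • (g - adjugate g)` is traceless (`trace_cay`);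
* `nrmOf A = - det A`; `1 - nrmOf (cay v g) = 4 * v` (`one_sub_nrmOf_cay`), a unit when `2` is;
* `(1 - n) • g = (1 + n) • 1 + 2 • cay v g` (`cay_spec`): the Cayley formula, inverse free;
* conversely (`ofCayley m A = m • ((1 + n) • 1 + 2 • A)`, `m * (1 - n) = 1`, `A` traceless):
  `det = 1`, `2 + tr = 4 * m`, and the Cayley part of `ofCayley m A` is `A` again (uniqueness);
* `ofCayley_mul_sub`: `(s • Φ) * B - q • (B * (s • Φ)) = (s * m) • relOf q A B` with
  `relOf q A B = ((1 - q) * (1 + n)) • B + 2 • (A * B - q • (B * A))`: the commutation relation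
  in Cayley coordinates (`relMat` of the model).

PART 2 (on `Local/Model.lean`): `relMat_eq_relOf`, `PhiU_mul_B0_sub`, `det_SigmaU`, and
`relIdeal_le_ker_iff` / `forall_mem_relIdeal_iff`: a ring hom `φ` kills `relIdeal e q` iff
`det (Σ_i ^ φ) = 1` and `Φ_i ^ φ * B_i ^ φ = φ (C (q i)) • (B_i ^ φ * Φ_i ^ φ)` for all `i`
(`τ_i ^ 2 = 1 + e_i`, `s_i` units).
-/
import Mathlib
import Fermat.Agent.S43.Local.Model

set_option autoImplicit false

noncomputable section

namespace Fermat.Agent.S43.Local.Cayley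

open Matrix

section pure

variable {T : Type*} [CommRing T]

/-- `- det A`: for a traceless `A = !![u, b; c, -u]` this is `u ^ 2 + b * c`. -/
def nrmOf (A : Matrix (Fin 2) (Fin 2) T) : T := -A.det

/-- the Cayley part of `g`, with `v` (an inverse of) `2 + tr g`. -/
def cay (v : T) (g : Matrix (Fin 2) (Fin 2) T) : Matrix (Fin 2) (Fin 2) T :=
  v • (g - g.adjugate)

/-- the matrix with Cayley coordinates `A`, `m` (an inverse of) `1 - nrmOf A`. -/
def ofCayley (m : T) (A : Matrix (Fin 2) (Fin 2) T) : Matrix (Fin 2) (Fin 2) T :=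
  m • ((1 + nrmOf A) • (1 : Matrix (Fin 2) (Fin 2) T) + (2 : T) • A)

/-- the commutation relation `Φ * B = q • (B * Φ)` in Cayley coordinates. -/
def relOf (q : T) (A B : Matrix (Fin 2) (Fin 2) T) : Matrix (Fin 2) (Fin 2) T :=
  ((1 - q) * (1 + nrmOf A)) • B + (2 : T) • (A * B - q • (B * A))

theorem nrmOf_of (u b c d : T) : nrmOf !![u, b; c, d] = b * c - u * d := by
  simp [nrmOf, Matrix.det_fin_two_of]

theorem nrmOf_traceless (u b c : T) : nrmOf !![u, b; c, -u] = u ^ 2 + b * c := by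
  rw [nrmOf_of]; ring

theorem cay_of (v a b c d : T) :
    cay v !![a, b; c, d] = !![v * (a - d), v * (2 * b); v * (2 * c), v * (d - a)] := by
  unfold cay
  rw [Matrix.adjugate_fin_two_of]
  ext i j
  fin_cases i <;> fin_cases j <;> simp <;> ring

/-- every `2 × 2` matrix is `!![a, b; c, d]`. -/
theorem exists_eq_of {T : Type*} (g : Matrix (Fin 2) (Fin 2) T) :
    ∃ a b c d : T, g = !![a, b; c, d] :=
  ⟨_, _, _, _, Matrix.eta_fin_two g⟩

theorem trace_cay (v : T) (g : Matrix (Fin 2) (Fin 2) T) : (cay v g).trace = 0 := by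
  obtain ⟨a, b, c, d, rfl⟩ := exists_eq_of g
  rw [cay_of, Matrix.trace_fin_two_of]
  ring

/-- `1 - n = 4 / (2 + tr g)`. -/
theorem one_sub_nrmOf_cay {v : T} {g : Matrix (Fin 2) (Fin 2) T}
    (hv : v * (2 + g.trace) = 1) (hdet : g.det = 1) : 1 - nrmOf (cay v g) = 4 * v := by
  obtain ⟨a, b, c, d, rfl⟩ := exists_eq_of g
  rw [Matrix.trace_fin_two_of] at hv
  rw [Matrix.det_fin_two_of] at hdet
  rw [cay_of, nrmOf_of]
  linear_combination (4 * v ^ 2) * hdet - (v * (a + d - 2) + 1) * hv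

/-- `1 + n = 2 tr g / (2 + tr g)`. -/
theorem one_add_nrmOf_cay {v : T} {g : Matrix (Fin 2) (Fin 2) T}
    (hv : v * (2 + g.trace) = 1) (hdet : g.det = 1) :
    1 + nrmOf (cay v g) = 2 * v * g.trace := by
  have h := one_sub_nrmOf_cay hv hdet
  linear_combination (-1 : T) * h + (-2 : T) * hv

/-- **the Cayley formula**, inverse free: `(1 - n) • g = (1 + n) • 1 + 2 • A`. -/
theorem cay_spec {v : T} {g : Matrix (Fin 2) (Fin 2) T}
    (hv : v * (2 + g.trace) = 1) (hdet : g.det = 1) :
    (1 - nrmOf (cay v g)) • g =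
      (1 + nrmOf (cay v g)) • (1 : Matrix (Fin 2) (Fin 2) T) + (2 : T) • cay v g := by
  rw [one_sub_nrmOf_cay hv hdet, one_add_nrmOf_cay hv hdet]
  obtain ⟨a, b, c, d, rfl⟩ := exists_eq_of g
  rw [cay_of, Matrix.trace_fin_two_of]
  ext i j
  fin_cases i <;> fin_cases j <;> simp <;> ring

/-- the Cayley formula with the inverse `m` of `1 - n`: `g = ofCayley m (cay v g)`. -/
theorem eq_ofCayley_cay {v m : T} {g : Matrix (Fin 2) (Fin 2) T}
    (hv : v * (2 + g.trace) = 1) (hdet : g.det = 1) (hm : m * (1 - nrmOf (cay v g)) = 1) :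
    g = ofCayley m (cay v g) := by
  unfold ofCayley
  rw [← cay_spec hv hdet, smul_smul, hm, one_smul]

/-- when `2` is a unit, `1 - n` is a unit. -/
theorem isUnit_one_sub_nrmOf_cay (h2 : IsUnit (2 : T)) {v : T} {g : Matrix (Fin 2) (Fin 2) T}
    (hv : v * (2 + g.trace) = 1) (hdet : g.det = 1) : IsUnit (1 - nrmOf (cay v g)) := by
  rw [one_sub_nrmOf_cay hv hdet]
  have h4 : IsUnit (4 : T) := by
    have : (4 : T) = 2 * 2 := by norm_num
    rw [this]; exact h2.mul h2
  exact h4.mul (IsUnit.of_mul_eq_one _ hv)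

theorem ofCayley_of (m u b c : T) :
    ofCayley m !![u, b; c, -u] =
      !![m * (1 + (u ^ 2 + b * c) + 2 * u), m * (2 * b);
         m * (2 * c), m * (1 + (u ^ 2 + b * c) - 2 * u)] := by
  unfold ofCayley
  rw [nrmOf_traceless]
  ext i j
  fin_cases i <;> fin_cases j
  all_goals simp
  all_goals ring

/-- a traceless matrix is `!![u, b; c, -u]`. -/
theorem eq_of_trace_eq_zero {A : Matrix (Fin 2) (Fin 2) T} (hA : A.trace = 0) :
    A = !![A 0 0, A 0 1; A 1 0, -A 0 0] := by
  have h : A 1 1 = -A 0 0 := by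
    rw [Matrix.trace_fin_two] at hA
    linear_combination hA
  ext i j
  fin_cases i <;> fin_cases j <;> simp [h]

theorem det_ofCayley {m : T} {A : Matrix (Fin 2) (Fin 2) T} (hA : A.trace = 0)
    (hm : m * (1 - nrmOf A) = 1) : (ofCayley m A).det = 1 := by
  rw [eq_of_trace_eq_zero hA] at hm ⊢
  rw [nrmOf_traceless] at hm
  rw [ofCayley_of, Matrix.det_fin_two_of]
  linear_combination (m * (1 - (A 0 0 ^ 2 + A 0 1 * A 1 0)) + 1) * hm

theorem trace_ofCayley (m : T) {A : Matrix (Fin 2) (Fin 2) T} (hA : A.trace = 0) :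
    (ofCayley m A).trace = 2 * m * (1 + nrmOf A) := by
  rw [eq_of_trace_eq_zero hA, ofCayley_of, Matrix.trace_fin_two_of, nrmOf_traceless]
  ring

/-- `2 + tr = 4 / (1 - n)`. -/
theorem two_add_trace_ofCayley {m : T} {A : Matrix (Fin 2) (Fin 2) T} (hA : A.trace = 0)
    (hm : m * (1 - nrmOf A) = 1) : 2 + (ofCayley m A).trace = 4 * m := by
  rw [trace_ofCayley m hA]
  linear_combination (-2 : T) * hm

/-- **uniqueness of the Cayley coordinates**: the Cayley part of `ofCayley m A` is `A`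
(`half` an inverse of `2`, so that `half ^ 2 * (1 - n)` is the inverse of `2 + tr = 4 * m`). -/
theorem cay_ofCayley {m half : T} {A : Matrix (Fin 2) (Fin 2) T} (hA : A.trace = 0)
    (hm : m * (1 - nrmOf A) = 1) (hh : 2 * half = 1) :
    cay (half ^ 2 * (1 - nrmOf A)) (ofCayley m A) = A := by
  have hA' := eq_of_trace_eq_zero hA
  rw [hA'] at hm ⊢
  rw [nrmOf_traceless] at hm ⊢
  rw [ofCayley_of, cay_of]
  set u := A 0 0
  set b := A 0 1
  set c := A 1 0
  have h4 : half ^ 2 * 4 = 1 := by linear_combination (2 * half + 1) * hh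
  have key : half ^ 2 * (1 - (u ^ 2 + b * c)) * (4 * m) = 1 := by
    linear_combination (half ^ 2 * 4) * hm + h4
  ext i j
  fin_cases i <;> fin_cases j <;> simp
  · linear_combination u * key
  · linear_combination b * key
  · linear_combination c * key
  · linear_combination (-u) * key

/-- the inverse of `2 + tr (ofCayley m A)`. -/
theorem inv_two_add_trace_ofCayley {m half : T} {A : Matrix (Fin 2) (Fin 2) T}
    (hA : A.trace = 0) (hm : m * (1 - nrmOf A) = 1) (hh : 2 * half = 1) :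
    half ^ 2 * (1 - nrmOf A) * (2 + (ofCayley m A).trace) = 1 := by
  rw [two_add_trace_ofCayley hA hm]
  have h4 : half ^ 2 * 4 = 1 := by linear_combination (2 * half + 1) * hh
  linear_combination (half ^ 2 * 4) * hm + h4

/-- existence of Cayley coordinates (`2`, `2 + tr g` units, `det g = 1`). -/
theorem exists_cayley (h2 : IsUnit (2 : T)) {g : Matrix (Fin 2) (Fin 2) T} (hdet : g.det = 1)
    (ht : IsUnit (2 + g.trace)) :
    ∃ (A : Matrix (Fin 2) (Fin 2) T) (m : T), A.trace = 0 ∧ m * (1 - nrmOf A) = 1 ∧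
      g = ofCayley m A := by
  obtain ⟨v, hv⟩ := ht.exists_left_inv
  obtain ⟨m, hm⟩ := (isUnit_one_sub_nrmOf_cay h2 hv hdet).exists_left_inv
  exact ⟨cay v g, m, trace_cay v g, hm, eq_ofCayley_cay hv hdet hm⟩

/-- **uniqueness of the Cayley coordinates** (`2` a unit). -/
theorem ofCayley_injective (h2 : IsUnit (2 : T)) {m m' : T} {A A' : Matrix (Fin 2) (Fin 2) T}
    (hA : A.trace = 0) (hA' : A'.trace = 0) (hm : m * (1 - nrmOf A) = 1)
    (hm' : m' * (1 - nrmOf A') = 1) (h : ofCayley m A = ofCayley m' A') : A = A' ∧ m = m' := by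
  obtain ⟨half, hh⟩ := h2.exists_right_inv
  have h4 : half ^ 2 * 4 = 1 := by linear_combination (2 * half + 1) * hh
  have e1 := two_add_trace_ofCayley hA hm
  have e2 := two_add_trace_ofCayley hA' hm'
  rw [h] at e1
  have hmm : m = m' := by
    have : (4 : T) * m = 4 * m' := e1.symm.trans e2
    linear_combination (half ^ 2) * this - (m - m') * h4
  subst hmm
  have hn : 1 - nrmOf A = 1 - nrmOf A' := by
    linear_combination (1 - nrmOf A') * hm - (1 - nrmOf A) * hm'
  refine ⟨?_, rfl⟩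
  rw [← cay_ofCayley hA hm hh, ← cay_ofCayley hA' hm' hh, hn, h]

/-- **the commutation relation in Cayley coordinates** (an identity, no hypothesis):
`(s • Φ) * B - q • (B * (s • Φ)) = (s * m) • relOf q A B` for `Φ = ofCayley m A`. -/
theorem ofCayley_mul_sub (s m q : T) (A B : Matrix (Fin 2) (Fin 2) T) :
    (s • ofCayley m A) * B - q • (B * (s • ofCayley m A)) = (s * m) • relOf q A B := by
  unfold ofCayley relOf
  simp only [Matrix.smul_mul, Matrix.mul_smul, Matrix.add_mul, Matrix.mul_add, Matrix.one_mul,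
    Matrix.mul_one, smul_add, smul_sub, smul_smul]
  ext i j
  simp only [Matrix.add_apply, Matrix.sub_apply, Matrix.smul_apply, smul_eq_mul]
  ring

/-- `(s • Φ) * B = q • (B * (s • Φ)) ↔ relOf q A B = 0` when `s * m` is a unit. -/
theorem ofCayley_mul_eq_iff {s m q : T} (hsm : IsUnit (s * m)) (A B : Matrix (Fin 2) (Fin 2) T) :
    (s • ofCayley m A) * B = q • (B * (s • ofCayley m A)) ↔ relOf q A B = 0 := by
  rw [← sub_eq_zero, ofCayley_mul_sub]
  constructor
  · intro h
    have := congrArg (fun M => (↑(hsm.unit⁻¹) : T) • M) h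
    simpa [smul_smul] using this
  · intro h
    rw [h, smul_zero]

/-- commuting with `Φ` is commuting with its Cayley part (`q = 1`). -/
theorem relOf_one (A B : Matrix (Fin 2) (Fin 2) T) :
    relOf 1 A B = (2 : T) • (A * B - B * A) := by
  unfold relOf
  simp

end pure

section model

open MvPowerSeries
open Fermat.Agent.S43.Local.Model

variable {O : Type*} [CommRing O] {ι κ : Type*}

theorem trace_A0 (i : ι) : (A0 O κ i).trace = 0 := by
  simp [A0, Matrix.trace_fin_two_of]

theorem trace_B0 (i : ι) : (B0 O κ i).trace = 0 := by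
  simp [B0, Matrix.trace_fin_two_of]

theorem nrmOf_A0 (i : ι) : nrmOf (A0 O κ i) = nrm O κ i := by
  unfold A0 nrm
  rw [nrmOf_traceless]

/-- `nrmInv` is an inverse of `1 - nrmOf (A0 i)`. -/
theorem nrmInv_mul (i : ι) : nrmInv O κ i * (1 - nrmOf (A0 O κ i)) = 1 := by
  rw [nrmOf_A0, mul_comm]
  exact nrm_mul_nrmInv i

theorem isUnit_nrmInv (i : ι) : IsUnit (nrmInv O κ i) :=
  IsUnit.of_mul_eq_one _ (nrmInv_mul i)

/-- the commutation relation of the model is `relOf` of the universal Cayley coordinates. -/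
theorem relMat_eq_relOf (q : ι → O) (i : ι) :
    relMat O κ q i = relOf (C (q i) : P O ι κ) (A0 O κ i) (B0 O κ i) := by
  unfold relMat relOf
  rw [nrmOf_A0, map_sub, map_one]

/-- the universal Frobenius is `C s • ofCayley`. -/
theorem PhiU_eq (s : ι → O) (i : ι) :
    PhiU O κ s i = (C (s i) : P O ι κ) • ofCayley (nrmInv O κ i) (A0 O κ i) := by
  unfold PhiU ofCayley
  rw [nrmOf_A0, smul_smul]

/-- `Φ * B0 - q • (B0 * Φ) = (s / (1 - n)) • relMat`. -/
theorem PhiU_mul_B0_sub (s q : ι → O) (i : ι) :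
    PhiU O κ s i * B0 O κ i - (C (q i) : P O ι κ) • (B0 O κ i * PhiU O κ s i) =
      ((C (s i) : P O ι κ) * nrmInv O κ i) • relMat O κ q i := by
  rw [PhiU_eq, relMat_eq_relOf, ofCayley_mul_sub]

/-- `det Φ_i = s_i ^ 2` identically. -/
theorem det_PhiU (s : ι → O) (i : ι) : (PhiU O κ s i).det = (C (s i) : P O ι κ) ^ 2 := by
  rw [PhiU_eq, Matrix.det_smul, Fintype.card_fin, det_ofCayley (trace_A0 i) (nrmInv_mul i),
    mul_one]

/-- `tr Φ_i = 2 s_i (1 + n_i) / (1 - n_i)`. -/
theorem trace_PhiU (s : ι → O) (i : ι) :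
    (PhiU O κ s i).trace = (C (s i) : P O ι κ) * (2 * nrmInv O κ i * (1 + nrm O κ i)) := by
  rw [PhiU_eq, Matrix.trace_smul, trace_ofCayley _ (trace_A0 i), nrmOf_A0, smul_eq_mul]

/-- `det Σ_i = 1 - quad e i` when `τ_i ^ 2 = 1 + e_i`. -/
theorem det_SigmaU (τ e : ι → O) (i : ι) (hτ : τ i ^ 2 = 1 + e i) :
    (SigmaU O κ τ i).det = 1 - quad O κ e i := by
  have h : (C (τ i) : P O ι κ) ^ 2 = 1 + C (e i) := by
    rw [← map_pow, hτ, map_add, map_one]
  unfold SigmaU B0 quad
  rw [Matrix.det_fin_two]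
  simp only [Matrix.add_apply, Matrix.smul_apply, Matrix.one_apply_eq, Matrix.of_apply,
    Matrix.cons_val', Matrix.cons_val_zero, Matrix.cons_val_one, Matrix.one_apply_ne,
    smul_eq_mul, mul_one, mul_zero, zero_add, ne_eq, zero_ne_one, one_ne_zero,
    not_false_eq_true, Matrix.cons_val_fin_one]
  linear_combination h

/-- `q tr(Φ) ^ 2 - (1 + q) ^ 2 det Φ = (s / (1 - n)) ^ 2 * gam q`. -/
theorem gam_eq (s q : ι → O) (i : ι) :
    (C (q i) : P O ι κ) * (PhiU O κ s i).trace ^ 2 -
        (C ((1 + q i) ^ 2) : P O ι κ) * (PhiU O κ s i).det =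
      ((C (s i) : P O ι κ) * nrmInv O κ i) ^ 2 * gam O κ q i := by
  have hm : (1 - nrm O κ i) * nrmInv O κ i = 1 := nrm_mul_nrmInv i
  rw [trace_PhiU, det_PhiU]
  unfold gam
  simp only [map_mul, map_pow, map_add, map_one, map_ofNat]
  linear_combination ((C (s i) : P O ι κ) ^ 2 * (1 + C (q i)) ^ 2 *
    ((1 - nrm O κ i) * nrmInv O κ i + 1)) * hm

variable {D : Type*} [CommRing D]

/-- **the dictionary**: a ring hom `φ` out of the model ring kills `relIdeal e q` iff the images of
the universal matrices satisfy `det Σ_i = 1` and `Φ_i * B_i = q_i • (B_i * Φ_i)`. -/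
theorem relIdeal_le_ker_iff (φ : P O ι κ →+* D) (e q τ s : ι → O)
    (hτ : ∀ i, τ i ^ 2 = 1 + e i) (hs : ∀ i, IsUnit (s i)) :
    relIdeal O κ e q ≤ RingHom.ker φ ↔
      (∀ i, ((SigmaU O κ τ i).map φ).det = 1) ∧
        ∀ i, (PhiU O κ s i).map φ * (B0 O κ i).map φ =
          φ (C (q i)) • ((B0 O κ i).map φ * (PhiU O κ s i).map φ) := by
  rw [relIdeal_le_iff]
  refine and_congr (forall_congr' fun i => ?_) (forall_congr' fun i => ?_)
  · rw [RingHom.mem_ker, ← RingHom.mapMatrix_apply, ← RingHom.map_det, det_SigmaU τ e i (hτ i),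
      map_sub, map_one, sub_eq_self]
  · have hu : IsUnit (φ ((C (s i) : P O ι κ) * nrmInv O κ i)) :=
      (((hs i).map C).mul (isUnit_nrmInv i)).map φ
    have key : (PhiU O κ s i).map φ * (B0 O κ i).map φ -
        φ (C (q i)) • ((B0 O κ i).map φ * (PhiU O κ s i).map φ) =
        φ ((C (s i) : P O ι κ) * nrmInv O κ i) • (relMat O κ q i).map φ := by
      have := congrArg (fun M : Matrix (Fin 2) (Fin 2) (P O ι κ) => M.map φ)
        (PhiU_mul_B0_sub s q i)
      have e1 : (PhiU O κ s i * B0 O κ i -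
          (C (q i) : P O ι κ) • (B0 O κ i * PhiU O κ s i)).map φ =
          (PhiU O κ s i).map φ * (B0 O κ i).map φ -
            φ (C (q i)) • ((B0 O κ i).map φ * (PhiU O κ s i).map φ) := by
        ext a b
        simp [Matrix.mul_apply, Fin.sum_univ_two]
      have e2 : (((C (s i) : P O ι κ) * nrmInv O κ i) • relMat O κ q i).map φ =
          φ ((C (s i) : P O ι κ) * nrmInv O κ i) • (relMat O κ q i).map φ := by
        ext a b
        simp
      rw [← e1, ← e2, this]
    rw [← sub_eq_zero, key]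
    constructor
    · intro h
      ext a b
      have hab : φ (relMat O κ q i a b) = 0 := RingHom.mem_ker.mp (h a b)
      simp [hab]
    · intro h a b
      have h1 := congrFun (congrFun h a) b
      simp only [Matrix.smul_apply, Matrix.map_apply, Matrix.zero_apply, smul_eq_mul] at h1
      exact (hu.mul_right_eq_zero).mp h1

/-- the same, pointwise. -/
theorem forall_mem_relIdeal_iff (φ : P O ι κ →+* D) (e q τ s : ι → O)
    (hτ : ∀ i, τ i ^ 2 = 1 + e i) (hs : ∀ i, IsUnit (s i)) :
    (∀ x ∈ relIdeal O κ e q, φ x = 0) ↔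
      (∀ i, ((SigmaU O κ τ i).map φ).det = 1) ∧
        ∀ i, (PhiU O κ s i).map φ * (B0 O κ i).map φ =
          φ (C (q i)) • ((B0 O κ i).map φ * (PhiU O κ s i).map φ) :=
  relIdeal_le_ker_iff φ e q τ s hτ hs

end model

end Fermat.Agent.S43.Local.Cayley
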