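/-
PROJECT R (S43, row 37), block `Local`, file `ChiDiag` (helper6): THE DIAGONAL POINT.

`delta h d : P O ι κ →+* MvPowerSeries (ι ⊕ κ) R` (for `h : O →+* R` with `h (d i)` nilpotent) :
`(w, f, g)_i ↦ (h (d i), 0, 0)`, `(u, b, c)_i ↦ (z_i, 0, 0)`, `x_k ↦ x_k` : the point where `Σ_i` is
the diagonal matrix `diag (τ_i + d_i, τ_i - d_i)` and `Φ_i` is diagonal with a free parameter `z_i`.

`Qb π d = ker (delta (O → O ⧸ π) d)` : a prime of `P` which contains `relIdeal (d ^ 2) 1`, `C π`,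
does not contain `gam q i` (`q i ≡ 1 mod π`, `2` a unit), and CONTAINS `pchi (d ^ 2)`
(`pchi_le_Qb` : through a prime `p ≤ Qb` of characteristic `0` and `Chi.chi_points`).
-/
import Mathlib
import Fermat.Agent.S43.Local.Model
import Fermat.Agent.S43.Local.Chi

set_option autoImplicit false

noncomputable section

namespace Fermat.Agent.S43.Local.ChiDiag

open MvPowerSeries
open Fermat.Agent.S43.Local.Model
open Fermat.Agent.S43.Local.Chi

variable {O : Type*} [CommRing O] {ι κ : Type*}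

section delta

variable {R : Type*} [CommRing R]

/-- the values of the variables at the diagonal point. -/
def aD (h : O →+* R) (d : ι → O) : Var ι κ → MvPowerSeries (ι ⊕ κ) R
  | Sum.inl (i, j) => if j = 0 then C (h (d i)) else 0
  | Sum.inr (Sum.inl (i, j)) => if j = 0 then X (Sum.inl i) else 0
  | Sum.inr (Sum.inr k) => X (Sum.inr k)

theorem isNilpotent_constantCoeff_aD (h : O →+* R) (d : ι → O)
    (hn : ∀ i, IsNilpotent (h (d i))) (s : Var ι κ) :
    IsNilpotent (constantCoeff (aD (κ := κ) h d s)) := by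
  rcases s with ⟨i, j⟩ | ⟨i, j⟩ | k
  · by_cases hj : j = 0
    · simpa [aD, hj] using hn i
    · simp [aD, hj]
  · by_cases hj : j = 0
    · simp [aD, hj]
    · simp [aD, hj]
  · simp [aD]

variable [Finite ι] [Finite κ]

theorem hasSubst_aD (h : O →+* R) (d : ι → O) (hn : ∀ i, IsNilpotent (h (d i))) :
    HasSubst (aD (κ := κ) h d) :=
  hasSubst_of_constantCoeff_nilpotent (isNilpotent_constantCoeff_aD h d hn)

/-- the diagonal point with values in `R`. -/
def delta (h : O →+* R) (d : ι → O) (hn : ∀ i, IsNilpotent (h (d i))) :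
    P O ι κ →+* MvPowerSeries (ι ⊕ κ) R :=
  (substAlgHom (hasSubst_aD (κ := κ) h d hn)).toRingHom.comp (MvPowerSeries.map h)

theorem delta_apply (h : O →+* R) (d : ι → O) (hn : ∀ i, IsNilpotent (h (d i)))
    (F : P O ι κ) :
    delta h d hn F = subst (aD (κ := κ) h d) (MvPowerSeries.map h F) := by
  unfold delta
  rw [RingHom.comp_apply]
  exact substAlgHom_apply (hasSubst_aD (κ := κ) h d hn) _

theorem delta_X (h : O →+* R) (d : ι → O) (hn : ∀ i, IsNilpotent (h (d i))) (s : Var ι κ) :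
    delta h d hn (X s : P O ι κ) = aD h d s := by
  unfold delta
  rw [RingHom.comp_apply, map_X]
  exact substAlgHom_X (hasSubst_aD (κ := κ) h d hn) s

theorem delta_C (h : O →+* R) (d : ι → O) (hn : ∀ i, IsNilpotent (h (d i))) (r : O) :
    delta h d hn (C r : P O ι κ) = C (h r) := by
  unfold delta
  rw [RingHom.comp_apply, map_C]
  simp

theorem delta_sg_zero (h : O →+* R) (d : ι → O) (hn : ∀ i, IsNilpotent (h (d i))) (i : ι) :
    delta h d hn (sg O κ i 0) = C (h (d i)) := by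
  unfold sg
  rw [delta_X]
  simp [aD]

theorem delta_sg_one (h : O →+* R) (d : ι → O) (hn : ∀ i, IsNilpotent (h (d i))) (i : ι) :
    delta h d hn (sg O κ i 1) = 0 := by
  unfold sg
  rw [delta_X]
  simp [aD]

theorem delta_sg_two (h : O →+* R) (d : ι → O) (hn : ∀ i, IsNilpotent (h (d i))) (i : ι) :
    delta h d hn (sg O κ i 2) = 0 := by
  unfold sg
  rw [delta_X]
  simp [aD]

theorem delta_ph_zero (h : O →+* R) (d : ι → O) (hn : ∀ i, IsNilpotent (h (d i))) (i : ι) :
    delta h d hn (ph O κ i 0) = X (Sum.inl i) := by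
  unfold ph
  rw [delta_X]
  simp [aD]

theorem delta_ph_one (h : O →+* R) (d : ι → O) (hn : ∀ i, IsNilpotent (h (d i))) (i : ι) :
    delta h d hn (ph O κ i 1) = 0 := by
  unfold ph
  rw [delta_X]
  simp [aD]

theorem delta_ph_two (h : O →+* R) (d : ι → O) (hn : ∀ i, IsNilpotent (h (d i))) (i : ι) :
    delta h d hn (ph O κ i 2) = 0 := by
  unfold ph
  rw [delta_X]
  simp [aD]

theorem delta_ex (h : O →+* R) (d : ι → O) (hn : ∀ i, IsNilpotent (h (d i))) (k : κ) :
    delta (ι := ι) h d hn (ex O κ k) = X (Sum.inr k) := by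
  unfold ex
  rw [delta_X]
  simp [aD]

theorem delta_nrm (h : O →+* R) (d : ι → O) (hn : ∀ i, IsNilpotent (h (d i))) (i : ι) :
    delta h d hn (nrm O κ i) = X (Sum.inl i) ^ 2 := by
  unfold nrm
  rw [map_add, map_pow, map_mul, delta_ph_zero, delta_ph_one, zero_mul, add_zero]

/-- naturality in the coefficient ring. -/
theorem map_delta {R' : Type*} [CommRing R'] (r : R →+* R') (h : O →+* R) (d : ι → O)
    (hn : ∀ i, IsNilpotent (h (d i))) (hn' : ∀ i, IsNilpotent ((r.comp h) (d i)))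
    (F : P O ι κ) :
    MvPowerSeries.map r (delta h d hn F) = delta (r.comp h) d hn' F := by
  rw [delta_apply, delta_apply, map_subst (hasSubst_aD (κ := κ) h d hn)]
  have h1 : (fun s => MvPowerSeries.map r (aD (κ := κ) h d s)) = aD (r.comp h) d := by
    funext s
    rcases s with ⟨i, j⟩ | ⟨i, j⟩ | k
    · by_cases hj : j = 0
      · simp [aD, hj]
      · simp [aD, hj]
    · by_cases hj : j = 0
      · simp [aD, hj]
      · simp [aD, hj]
    · simp [aD]
  have h2 : MvPowerSeries.map r (MvPowerSeries.map h F) = MvPowerSeries.map (r.comp h) F := by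
    rw [MvPowerSeries.map_comp]
    rfl
  rw [h1, h2]

/-- the diagonal point kills the relations of the `χ`-side. -/
theorem relIdeal_le_ker_delta (h2 : IsUnit (2 : O)) (h : O →+* R) (e d : ι → O)
    (hn : ∀ i, IsNilpotent (h (d i))) (hed : ∀ i, h (e i) = h (d i) ^ 2) :
    relIdeal O κ e 1 ≤ RingHom.ker (delta (κ := κ) h d hn) := by
  rw [relIdeal_one_le_iff h2]
  refine ⟨fun i => ?_, fun i => ⟨?_, ?_, ?_⟩⟩
  · rw [RingHom.mem_ker]
    unfold quad
    rw [map_sub, map_add, map_pow, map_mul, delta_sg_zero, delta_sg_one, delta_C, hed i]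
    simp
  · rw [RingHom.mem_ker, map_sub, map_mul, map_mul, delta_ph_one, delta_sg_one]
    simp
  · rw [RingHom.mem_ker, map_sub, map_mul, map_mul, delta_ph_one, delta_sg_one]
    simp
  · rw [RingHom.mem_ker, map_sub, map_mul, map_mul, delta_ph_two, delta_sg_two]
    simp

/-- the value of `gam q i` at the diagonal point when `q i ↦ 1`. -/
theorem delta_gam (h : O →+* R) (d q : ι → O) (hn : ∀ i, IsNilpotent (h (d i))) (i : ι)
    (hq : h (q i) = 1) :
    delta h d hn (gam O κ q i) = C (16 : R) * X (Sum.inl i) ^ 2 := by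
  unfold gam
  simp only [map_sub, map_mul, map_add, map_pow, map_one, delta_nrm, delta_C, hq, map_ofNat]
  ring

end delta

theorem delta_congr {R : Type*} [CommRing R] [Finite ι] [Finite κ] (h h' : O →+* R) (hh : h = h')
    (d : ι → O) (hn : ∀ i, IsNilpotent (h (d i))) (hn' : ∀ i, IsNilpotent (h' (d i))) :
    delta (κ := κ) h d hn = delta h' d hn' := by
  subst hh
  rfl

section Qb

variable [Finite ι] [Finite κ] (π : O) (d : ι → O)

omit [Finite ι] [Finite κ] in
/-- the reduction of `d i` modulo `π ^ M` is nilpotent when `π ∣ d i`. -/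
theorem isNilpotent_mk_pow (hd : ∀ i, π ∣ d i) (M : ℕ) (i : ι) :
    IsNilpotent (Ideal.Quotient.mk (Ideal.span {π ^ M}) (d i)) := by
  refine ⟨M, ?_⟩
  rw [← map_pow, Ideal.Quotient.eq_zero_iff_mem, Ideal.mem_span_singleton]
  exact pow_dvd_pow_of_dvd (hd i) M

/-- the diagonal point modulo `π ^ M`. -/
def deltaM (hd : ∀ i, π ∣ d i) (M : ℕ) :
    P O ι κ →+* MvPowerSeries (ι ⊕ κ) (O ⧸ Ideal.span {π ^ M}) :=
  delta (Ideal.Quotient.mk (Ideal.span {π ^ M})) d (isNilpotent_mk_pow π d hd M)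

/-- the prime `Qb` : the kernel of the diagonal point modulo `π`. -/
def Qb (hd : ∀ i, π ∣ d i) : Ideal (P O ι κ) := RingHom.ker (deltaM (κ := κ) π d hd 1)

theorem mem_Qb_iff (hd : ∀ i, π ∣ d i) (F : P O ι κ) :
    F ∈ Qb (κ := κ) π d hd ↔ deltaM π d hd 1 F = 0 := by
  unfold Qb
  rw [RingHom.mem_ker]

theorem isPrime_span_pow_one (hπ : Prime π) : (Ideal.span {π ^ 1}).IsPrime := by
  rw [pow_one]
  exact (Ideal.span_singleton_prime hπ.ne_zero).mpr hπ

theorem Qb_isPrime (hπ : Prime π) (hd : ∀ i, π ∣ d i) : (Qb (κ := κ) π d hd).IsPrime := by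
  have := isPrime_span_pow_one π hπ
  have : IsDomain (O ⧸ Ideal.span {π ^ 1}) := Ideal.Quotient.isDomain _
  have : IsDomain (MvPowerSeries (ι ⊕ κ) (O ⧸ Ideal.span {π ^ 1})) :=
    NoZeroDivisors.to_isDomain _
  exact RingHom.ker_isPrime _

theorem relIdeal_le_ker_deltaM (h2 : IsUnit (2 : O)) (e : ι → O) (hed : ∀ i, e i = d i ^ 2)
    (hd : ∀ i, π ∣ d i) (M : ℕ) :
    relIdeal O κ e 1 ≤ RingHom.ker (deltaM (κ := κ) π d hd M) :=
  relIdeal_le_ker_delta h2 _ e d _ (fun i => by rw [hed i, map_pow])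

theorem relIdeal_le_Qb (h2 : IsUnit (2 : O)) (e : ι → O) (hed : ∀ i, e i = d i ^ 2)
    (hd : ∀ i, π ∣ d i) : relIdeal O κ e 1 ≤ Qb (κ := κ) π d hd :=
  relIdeal_le_ker_deltaM π d h2 e hed hd 1

theorem C_mem_Qb (hd : ∀ i, π ∣ d i) : (C π : P O ι κ) ∈ Qb (κ := κ) π d hd := by
  rw [mem_Qb_iff]
  unfold deltaM
  rw [delta_C]
  have : Ideal.Quotient.mk (Ideal.span {π ^ 1}) π = 0 := by
    rw [Ideal.Quotient.eq_zero_iff_mem, Ideal.mem_span_singleton, pow_one]
  rw [this, map_zero]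

theorem gam_notMem_Qb (hπ : Prime π) (h2 : IsUnit (2 : O)) (q : ι → O)
    (hq : ∀ i, π ∣ q i - 1) (hd : ∀ i, π ∣ d i) (i : ι) :
    gam O κ q i ∉ Qb (κ := κ) π d hd := by
  classical
  rw [mem_Qb_iff]
  unfold deltaM
  have hq1 : Ideal.Quotient.mk (Ideal.span {π ^ 1}) (q i) = 1 := by
    rw [← map_one (Ideal.Quotient.mk (Ideal.span {π ^ 1})), Ideal.Quotient.eq,
      Ideal.mem_span_singleton, pow_one]
    exact hq i
  rw [delta_gam _ d q _ i hq1]
  intro h0
  have hc := congrArg (coeff (Finsupp.single (Sum.inl i : ι ⊕ κ) 2)) h0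
  rw [coeff_C_mul, coeff_X_pow, if_pos rfl, mul_one, map_zero] at hc
  -- `16` is a unit of `O`, hence not in `(π)`
  have h16 : IsUnit (16 : O) := by
    have : (16 : O) = 2 ^ 4 := by norm_num
    rw [this]
    exact h2.pow 4
  have h16' : (16 : O ⧸ Ideal.span {π ^ 1}) = Ideal.Quotient.mk (Ideal.span {π ^ 1}) (16 : O) :=
    (map_ofNat _ 16).symm
  rw [h16', Ideal.Quotient.eq_zero_iff_mem, Ideal.mem_span_singleton, pow_one] at hc
  exact hπ.not_isUnit (isUnit_of_dvd_unit hc h16)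

/-- the key divisibility: a series whose product with `π ^ n` dies at the diagonal point modulo
`π ^ (n + 1)` dies at the diagonal point modulo `π`. -/
theorem deltaM_one_eq_zero_of [IsDomain O] (hπ : Prime π) (hd : ∀ i, π ∣ d i) (F : P O ι κ)
    (n : ℕ) (h : deltaM π d hd (n + 1) (F * C π ^ n) = 0) : deltaM π d hd 1 F = 0 := by
  have hle : Ideal.span {π ^ (n + 1)} ≤ Ideal.span {π ^ 1} := by
    rw [Ideal.span_singleton_le_span_singleton]
    exact pow_dvd_pow π (Nat.le_add_left 1 n)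
  set r : O ⧸ Ideal.span {π ^ (n + 1)} →+* O ⧸ Ideal.span {π ^ 1} :=
    Ideal.Quotient.factor hle with hr
  have hcomp : r.comp (Ideal.Quotient.mk (Ideal.span {π ^ (n + 1)})) =
      Ideal.Quotient.mk (Ideal.span {π ^ 1}) := Ideal.Quotient.factor_comp_mk hle
  have hn' : ∀ i, IsNilpotent ((r.comp (Ideal.Quotient.mk (Ideal.span {π ^ (n + 1)}))) (d i)) := by
    intro i
    rw [hcomp]
    exact isNilpotent_mk_pow π d hd 1 i
  have hnat : MvPowerSeries.map r (deltaM π d hd (n + 1) F) = deltaM π d hd 1 F := by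
    unfold deltaM
    rw [map_delta r _ d _ hn' F]
    exact RingHom.congr_fun (delta_congr _ _ hcomp d _ _) F
  rw [← hnat]
  ext m
  rw [coeff_map, map_zero]
  obtain ⟨c, hc⟩ := Ideal.Quotient.mk_surjective (coeff m (deltaM π d hd (n + 1) F))
  have hm := congrArg (coeff m) h
  rw [map_mul, map_pow] at hm
  have hCπ : deltaM π d hd (n + 1) (C π : P O ι κ) =
      C (Ideal.Quotient.mk (Ideal.span {π ^ (n + 1)}) π) := by
    unfold deltaM
    rw [delta_C]
  rw [hCπ, ← map_pow, coeff_mul_C, map_zero, ← hc, ← map_pow, ← map_mul,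
    Ideal.Quotient.eq_zero_iff_mem, Ideal.mem_span_singleton, pow_succ'] at hm
  have hdvd : π ∣ c := (mul_dvd_mul_iff_right (pow_ne_zero n hπ.ne_zero)).mp hm
  rw [← hc, hr, Ideal.Quotient.factor_mk, Ideal.Quotient.eq_zero_iff_mem,
    Ideal.mem_span_singleton, pow_one]
  exact hdvd

/-- **the characteristic-zero points of the `χ`-relations lie on the `χ`-component** : a prime
`p` of `P` which contains `relIdeal e 1` and not `C π` contains `pchi e` (`e i ∣ π ^ N`).  This is
`Chi.chi_points` at `D = P ⧸ p`; it is `h𝔭` of `Patch/Main.exists_point_of_levels`. -/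
theorem pchi_le_of_isPrime [IsDomain O] [IsNoetherianRing O] [IsLocalRing O]
    (h2 : IsUnit (2 : O)) (e : ι → O) (he : ∀ i, ∃ N : ℕ, e i ∣ π ^ N)
    (p : Ideal (P O ι κ)) [hp : p.IsPrime] (hIp : relIdeal O κ e 1 ≤ p)
    (hπp : (C π : P O ι κ) ∉ p) : pchi (κ := κ) e ≤ p := by
  classical
  have := Fintype.ofFinite ι
  have := Fintype.ofFinite κ
  have : IsDomain (P O ι κ ⧸ p) := Ideal.Quotient.isDomain p
  have : IsLocalRing (P O ι κ ⧸ p) :=
    IsLocalRing.of_surjective' (Ideal.Quotient.mk p) Ideal.Quotient.mk_surjective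
  intro F hF
  have hmain := chi_points (D := P O ι κ ⧸ p) h2 e (Ideal.Quotient.mk p) ?_ ?_ ?_ F hF
  · exact Ideal.Quotient.eq_zero_iff_mem.mp hmain
  · intro s
    have : IsLocalHom (Ideal.Quotient.mk p) :=
      IsLocalHom.of_surjective _ Ideal.Quotient.mk_surjective
    rw [IsLocalRing.mem_maximalIdeal, mem_nonunits_iff]
    intro hu
    have hX : IsUnit (X s : P O ι κ) := isUnit_of_map_unit (Ideal.Quotient.mk p) _ hu
    have h0 := MvPowerSeries.isUnit_iff_constantCoeff.mp hX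
    simp at h0
  · intro G hG
    exact Ideal.Quotient.eq_zero_iff_mem.mpr (hIp hG)
  · intro i h0
    obtain ⟨N, c, hc⟩ := he i
    apply hπp
    have hmem : (C (e i) : P O ι κ) ∈ p := Ideal.Quotient.eq_zero_iff_mem.mp h0
    have hpow : (C π : P O ι κ) ^ N ∈ p := by
      rw [← map_pow, hc, map_mul]
      exact p.mul_mem_right _ hmem
    exact hp.mem_of_pow_mem N hpow

/-- **the diagonal point lies on the `χ`-component** : `pchi e ≤ Qb`.  (There is a prime `p ≤ Qb`
of characteristic `0` containing the relations; apply `pchi_le_of_isPrime` to it.) -/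
theorem pchi_le_Qb [IsDomain O] [IsNoetherianRing O] [IsLocalRing O] (hπ : Prime π)
    (h2 : IsUnit (2 : O)) (e : ι → O) (hed : ∀ i, e i = d i ^ 2) (hd : ∀ i, π ∣ d i)
    (he : ∀ i, ∃ N : ℕ, e i ∣ π ^ N) : pchi (κ := κ) e ≤ Qb (κ := κ) π d hd := by
  classical
  have hQprime : (Qb (κ := κ) π d hd).IsPrime := Qb_isPrime π d hπ hd
  set S : Submonoid (P O ι κ) :=
    (Qb (κ := κ) π d hd).primeCompl ⊔ Submonoid.powers (C π : P O ι κ) with hS
  have hdisj : Disjoint (relIdeal O κ e 1 : Set (P O ι κ)) S := by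
    rw [Set.disjoint_left]
    intro x hx hxS
    obtain ⟨s, hs, t, ⟨n, rfl⟩, rfl⟩ := Submonoid.mem_sup.mp hxS
    apply hs
    change s ∈ Qb (κ := κ) π d hd
    rw [mem_Qb_iff]
    apply deltaM_one_eq_zero_of π d hπ hd s n
    exact relIdeal_le_ker_deltaM π d h2 e hed hd (n + 1) hx
  obtain ⟨p, hp, hIp, hpS⟩ := Ideal.exists_le_prime_disjoint _ S hdisj
  have hpQ : p ≤ Qb (κ := κ) π d hd := by
    intro x hx
    by_contra hxQ
    exact Set.disjoint_left.mp hpS hx (Submonoid.mem_sup_left hxQ)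
  have hπp : (C π : P O ι κ) ∉ p := fun h =>
    Set.disjoint_left.mp hpS h (Submonoid.mem_sup_right (Submonoid.mem_powers _))
  exact (pchi_le_of_isPrime π h2 e he p hIp hπp).trans hpQ

end Qb

end Fermat.Agent.S43.Local.ChiDiag
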