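/-
PROJECT R (S43, row 37), block `Local`, file `ToPatchJ` (helper8, chief R): **LOC ∘ PATCH IN THE
`J`-FORM** = helper6's `Local/ToPatch.exists_point` re-instantiated on helper29's
`Patch/MainJ.exists_point_of_levels` (the `S'`-design: an ideal `J` of `A₁` in place of the
level-zero module), and its specialisation to `S = O⟦y_1, …, y_r⟧`, `𝔞 =` the augmentation ideal,
`lam = C π` (the shape `Patch/Adapter.datumJ` / `Patch/AdapterK.datumJK` produce).

* `exists_point` : `S` general;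
* `exists_point_mv` : `S = MvPowerSeries (Fin r) O`, `r = 3 #ι + #κ`: FROM THE TWO MODULE SYSTEMS
  AT ALL FINITE LEVELS ALONE, a prime `𝔮` of `R_∞^1 = A1 κ q` with every `w_i, f_i, g_i ∈ 𝔮`
  (unramified at every stuck prime), `J ≤ 𝔮`, `π ∉ 𝔮` (characteristic zero).
-/
import Mathlib
import Fermat.Agent.Lib.MvPSComplete
import Fermat.Agent.S43.Local.ToPatch
import Fermat.Agent.S43.Patch.MainJ
import Fermat.Agent.S43.Patch.Dim

set_option autoImplicit false

noncomputable section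

namespace Fermat.Agent.S43.Local.ToPatchJ

open MvPowerSeries IsLocalRing
open Fermat.Agent.S43.Local
open Fermat.Agent.S43.Local.Model
open Fermat.Agent.S43.Local.Export
open Fermat.Agent.S43.Local.ToPatch
open Fermat.Agent.S43.Patch.LevelJ

universe u

variable {O : Type*} [CommRing O] [IsDomain O] [IsNoetherianRing O] [IsLocalRing O]
  {ι κ : Type*} [Fintype ι] [Fintype κ]
  [IsAdicComplete (maximalIdeal O) O] [Finite (ResidueField O)]

/-- **LOC ∘ PATCH, `J`-form** : the unramified point of characteristic `0` containing `J`. -/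
theorem exists_point (π : O) (hπ : Prime π) (hπO : maximalIdeal O = Ideal.span {π})
    (h2 : IsUnit (2 : O)) (e d q : ι → O) (hed : ∀ i, e i = d i ^ 2) (hd : ∀ i, π ∣ d i)
    (he : ∀ i, π ∣ e i) (he' : ∀ i, ∃ N : ℕ, e i ∣ π ^ N) (hq : ∀ i, π ∣ q i - 1)
    {S : Type*} [CommRing S] [IsDomain S] [IsNoetherianRing S] [IsLocalRing S]
    [IsAdicComplete (maximalIdeal S) S] [Finite (ResidueField S)]
    (hdimS : ringKrullDim S
      = ringKrullDim O + ((3 * Fintype.card ι + Fintype.card κ : ℕ) : WithBot ℕ∞))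
    (lam : S) (hlam : lam ∈ maximalIdeal S) (𝔞 : Ideal S) [𝔞.IsPrime] (hlam𝔞 : lam ∉ 𝔞)
    (J : Ideal (A1 κ q)) {r : ℕ} (hr : 0 < r)
    (D : ∀ n, DatumJ.{u} S (A1 κ q) (Achi κ e) (Abar κ π q) (maximalIdeal S) (pi1 π q)
      (pichi π e q he hq) lam (Ideal.Quotient.mk _ (C π)) (Ideal.Quotient.mk _ (C π)) 𝔞 J r n) :
    ∃ 𝔮 : Ideal (A1 κ q), 𝔮.IsPrime ∧ (∀ i j, Ideal.Quotient.mk _ (sg O κ i j) ∈ 𝔮) ∧
      J ≤ 𝔮 ∧ Ideal.Quotient.mk _ (C π) ∉ 𝔮 := by
  -- the ambient power series ring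
  have : IsAdicComplete (maximalIdeal (P O ι κ)) (P O ι κ) :=
    Fermat.Agent.Lib.MvPSComplete.isAdicComplete_maximalIdeal
  have : Finite (ResidueField (P O ι κ)) := Patch.Quot.finite_residueField_mvPowerSeries
  -- `A₁`
  have : IsLocalRing (A1 κ q) := Patch.Quot.isLocalRing_quotient _ (relIdeal_zero_ne_top q)
  have : IsAdicComplete (maximalIdeal (A1 κ q)) (A1 κ q) := Patch.Quot.isAdicComplete_quotient _
  have : Finite (ResidueField (A1 κ q)) :=
    Patch.Quot.finite_residueField_of_surjective (Ideal.Quotient.mk _)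
      Ideal.Quotient.mk_surjective
  -- `Aχ`
  have : IsLocalRing (Achi κ e) :=
    Patch.Quot.isLocalRing_quotient _ (relIdeal_one_ne_top π hπ h2 e d hed hd)
  have : IsAdicComplete (maximalIdeal (Achi κ e)) (Achi κ e) :=
    Patch.Quot.isAdicComplete_quotient _
  have : Finite (ResidueField (Achi κ e)) :=
    Patch.Quot.finite_residueField_of_surjective (Ideal.Quotient.mk _)
      Ideal.Quotient.mk_surjective
  -- the primes
  have : (UnipModel.P0bar (κ := κ) q).IsPrime := UnipModel.isPrime_P0bar q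
  have : (pchiBar (κ := κ) e).IsPrime := isPrime_pchiBar π hπ e he
  have : (QbBar (κ := κ) π d q hd).IsPrime := isPrime_QbBar π d hπ h2 e q hed hd he hq
  have hdimO : ringKrullDim O = 1 := ringKrullDim_eq_one_of π hπ hπO
  have hdim₁ : ringKrullDim (A1 κ q ⧸ UnipModel.P0bar (κ := κ) q) ≤ ringKrullDim S := by
    rw [ringKrullDim_A1_quot, hdimS]
  have hdimχ : ringKrullDim (Achi κ e ⧸ pchiBar (κ := κ) e) ≤ ringKrullDim S := by
    refine (ringKrullDim_Achi_quot_le π hπO h2 e he).trans (le_of_eq ?_)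
    rw [hdimS, hdimO]
    push_cast
    ring
  obtain ⟨𝔮, h𝔮, hP, hJ, hlam𝔮⟩ := Patch.MainJ.exists_point_of_levels
    (pi1 (κ := κ) π q) (pichi π e q he hq) (pichi_surjective π e q he hq) lam
    (Ideal.Quotient.mk _ (C π)) (Ideal.Quotient.mk _ (C π)) (pichi_lam π e q he hq) hlam 𝔞 hlam𝔞
    J hr D (I1 q) (g1 q) (UnipModel.P0bar (κ := κ) q) (P0bar_eq_iSup q) hdim₁
    (isNilpotent_mul_g1 q) (pchiBar (κ := κ) e) hdimχ
    (fun 𝔮 h𝔮 hl => by
      have := h𝔮
      exact pchiBar_le_of_isPrime π h2 e he' 𝔮 hl)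
    (QbBar (κ := κ) π d q hd) (pchiBar_le_comap π d hπ h2 e q hed hd he he' hq)
    (pi1_g1_notMem π d hπ h2 e q hed hd he hq)
  exact ⟨𝔮, h𝔮, fun i j => mk_sg_mem_of_P0bar_le q 𝔮 hP i j, hJ, hlam𝔮⟩

/-- **LOC ∘ PATCH, `J`-form, for `S = O⟦y_1, …, y_r⟧`** (`r = 3 #ι + #κ`), `𝔞` the augmentation
ideal, `lam = C π`. -/
theorem exists_point_mv (π : O) (hπ : Prime π) (hπO : maximalIdeal O = Ideal.span {π})
    (h2 : IsUnit (2 : O)) (e d q : ι → O) (hed : ∀ i, e i = d i ^ 2) (hd : ∀ i, π ∣ d i)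
    (he : ∀ i, π ∣ e i) (he' : ∀ i, ∃ N : ℕ, e i ∣ π ^ N) (hq : ∀ i, π ∣ q i - 1)
    {r : ℕ} (hr : r = 3 * Fintype.card ι + Fintype.card κ)
    (J : Ideal (A1 κ q)) {m : ℕ} (hm : 0 < m)
    (D : ∀ n, DatumJ.{u} (MvPowerSeries (Fin r) O) (A1 κ q) (Achi κ e) (Abar κ π q)
      (maximalIdeal (MvPowerSeries (Fin r) O)) (pi1 π q) (pichi π e q he hq)
      (C π) (Ideal.Quotient.mk _ (C π)) (Ideal.Quotient.mk _ (C π))
      (Patch.Points.augIdeal (Fin r) O) J m n) :
    ∃ 𝔮 : Ideal (A1 κ q), 𝔮.IsPrime ∧ (∀ i j, Ideal.Quotient.mk _ (sg O κ i j) ∈ 𝔮) ∧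
      J ≤ 𝔮 ∧ Ideal.Quotient.mk _ (C π) ∉ 𝔮 := by
  have : IsDomain (MvPowerSeries (Fin r) O) := NoZeroDivisors.to_isDomain _
  have : IsAdicComplete (maximalIdeal (MvPowerSeries (Fin r) O)) (MvPowerSeries (Fin r) O) :=
    Fermat.Agent.Lib.MvPSComplete.isAdicComplete_maximalIdeal
  have : Finite (ResidueField (MvPowerSeries (Fin r) O)) :=
    Patch.Quot.finite_residueField_mvPowerSeries
  have hdimS : ringKrullDim (MvPowerSeries (Fin r) O)
      = ringKrullDim O + ((3 * Fintype.card ι + Fintype.card κ : ℕ) : WithBot ℕ∞) := by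
    rw [Patch.Dim.ringKrullDim_mvPowerSeries_fin, hr]
  have hπ0 : π ≠ 0 := hπ.ne_zero
  have hlam : (C π : MvPowerSeries (Fin r) O) ∈ maximalIdeal (MvPowerSeries (Fin r) O) := by
    rw [mem_maximalIdeal, mem_nonunits_iff, MvPowerSeries.isUnit_iff_constantCoeff,
      MvPowerSeries.constantCoeff_C]
    exact hπ.not_isUnit
  have hlam𝔞 : (C π : MvPowerSeries (Fin r) O) ∉ Patch.Points.augIdeal (Fin r) O := fun h =>
    hπ0 ((Patch.Points.C_mem_augIdeal_iff (Fin r) O).mp h)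
  exact exists_point π hπ hπO h2 e d q hed hd he he' hq hdimS (C π) hlam
    (Patch.Points.augIdeal (Fin r) O) hlam𝔞 J hm D

end Fermat.Agent.S43.Local.ToPatchJ
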