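/-
S43 (row 37), PROJECT R, block `Local`, file `Unip` (helper23).

**The unipotent side of the local algebra at a stuck prime: pure matrix identities.**

`A` is ANY commutative ring (no `2` inverted, no residue fields, no coordinates), `q : A`,
`Φ Nn : Matrix (Fin 2) (Fin 2) A` with `Nn.trace = 0`, `Nn.det = 0` (so `Σ = 1 + Nn` has
characteristic polynomial `(X - 1)^2` and `Σ^q = 1 + q Nn`) and `Φ * Nn = q • (Nn * Φ)`
(`= Φ Σ = Σ^q Φ`).  With `s = tr (Φ Nn)` and the Steinberg function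
`gSt = q (tr Φ)^2 - (1 + q)^2 det Φ`:

* `sq_eq_zero` : `Nn * Nn = 0`;
* `trace_smul_eq_zero` : `s • Nn = 0`;
* `gSt_smul` : `gSt • Nn = (q s) • ((1 + q) • Φ - (tr Φ) • 1)`;
* `entry_mul_entry_mul_gSt` : `Nn i j * Nn k l * gSt = 0` (F4);
* `mul_mul_gSt_eq_zero`, `isNilpotent_mul_gSt` : for `a, b` in the ideal of the entries of `Nn`,
  `a * b * gSt = 0` and `a * gSt` is nilpotent (`= hIg` of `Patch/Avoid`);
* `gSt_eq` : `gSt = disc Φ + (q - 1) (…)` (F5, first half);
* `disc_of_scalar_add` : `disc (t + A0) = 4 (u^2 + b c)` for `A0 = (u, b; c, -u)`.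
-/
import Mathlib

set_option autoImplicit false

namespace Fermat.Agent.S43.Local.Unip

open Matrix

variable {A : Type*} [CommRing A]

/-- the Steinberg function `q (tr Φ)^2 - (1 + q)^2 det Φ`. -/
def gSt (q : A) (Φ : Matrix (Fin 2) (Fin 2) A) : A :=
  q * Φ.trace ^ 2 - (1 + q) ^ 2 * Φ.det

/-- the discriminant of the characteristic polynomial. -/
def disc (Φ : Matrix (Fin 2) (Fin 2) A) : A := Φ.trace ^ 2 - 4 * Φ.det

/-- the ideal generated by the entries of a matrix. -/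
def entryIdeal (Nn : Matrix (Fin 2) (Fin 2) A) : Ideal A :=
  Ideal.span (Set.range fun p : Fin 2 × Fin 2 => Nn p.1 p.2)

theorem entry_mem_entryIdeal (Nn : Matrix (Fin 2) (Fin 2) A) (i j : Fin 2) :
    Nn i j ∈ entryIdeal Nn :=
  Ideal.subset_span ⟨(i, j), rfl⟩

/-- **F5, first half**: the Steinberg function is the discriminant modulo `q - 1`. -/
theorem gSt_eq (q : A) (Φ : Matrix (Fin 2) (Fin 2) A) :
    gSt q Φ = disc Φ + (q - 1) * (Φ.trace ^ 2 - (q + 3) * Φ.det) := by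
  unfold gSt disc
  ring

/-- the discriminant of `t + A0`, `A0 = (u, b; c, -u)`. -/
theorem disc_of_scalar_add (t u b c : A) :
    disc (!![t + u, b; c, t - u] : Matrix (Fin 2) (Fin 2) A) = 4 * (u ^ 2 + b * c) := by
  unfold disc
  rw [Matrix.trace_fin_two, Matrix.det_fin_two]
  simp
  ring

section Identities

variable (q : A) (Φ Nn : Matrix (Fin 2) (Fin 2) A)

/-- Cayley-Hamilton for `2 × 2` matrices. -/
theorem mul_self_eq (Φ : Matrix (Fin 2) (Fin 2) A) :
    Φ * Φ = Φ.trace • Φ - Φ.det • (1 : Matrix (Fin 2) (Fin 2) A) := by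
  ext i j
  fin_cases i <;> fin_cases j <;>
    simp [Matrix.mul_apply, Fin.sum_univ_two, Matrix.trace_fin_two, Matrix.det_fin_two] <;> ring

theorem sq_eq_zero (htr : Nn.trace = 0) (hdet : Nn.det = 0) : Nn * Nn = 0 := by
  rw [mul_self_eq, htr, hdet]
  simp

/-- `Φ Nn + Nn Φ = tr (Φ Nn) + (tr Φ) Nn` for traceless `Nn`. -/
theorem mul_add_mul_eq (htr : Nn.trace = 0) :
    Φ * Nn + Nn * Φ
      = (Φ * Nn).trace • (1 : Matrix (Fin 2) (Fin 2) A) + Φ.trace • Nn := by
  rw [Matrix.trace_fin_two] at htr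
  ext i j
  fin_cases i <;> fin_cases j <;>
    simp [Matrix.mul_apply, Fin.sum_univ_two, Matrix.trace_fin_two]
  · linear_combination (-(Φ 1 1)) * htr
  · linear_combination (Φ 0 1) * htr
  · linear_combination (Φ 1 0) * htr
  · linear_combination (-(Φ 0 0)) * htr

/-- `(1 - q) tr (Φ Nn) = 0` (the trace of the relation). -/
theorem one_sub_mul_trace (hrel : Φ * Nn = q • (Nn * Φ)) : (1 - q) * (Φ * Nn).trace = 0 := by
  have h := congrArg Matrix.trace hrel
  rw [Matrix.trace_smul, Matrix.trace_mul_comm Nn Φ, smul_eq_mul] at h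
  linear_combination h

/-- `Nn Φ Nn = tr (Φ Nn) Nn` when `Nn^2 = 0`, `tr Nn = 0`. -/
theorem mul_mul_self (htr : Nn.trace = 0) (hdet : Nn.det = 0) :
    Nn * Φ * Nn = (Φ * Nn).trace • Nn := by
  have h2 := sq_eq_zero Nn htr hdet
  have h1 : Nn * Φ = (Φ * Nn).trace • (1 : Matrix (Fin 2) (Fin 2) A) + Φ.trace • Nn - Φ * Nn := by
    rw [← mul_add_mul_eq Φ Nn htr]
    abel
  rw [h1, sub_mul, add_mul, smul_mul_assoc, smul_mul_assoc, one_mul, mul_assoc, h2]
  simp

/-- `tr (Φ Nn) • Nn = 0`. -/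
theorem trace_smul_eq_zero (htr : Nn.trace = 0) (hdet : Nn.det = 0)
    (hrel : Φ * Nn = q • (Nn * Φ)) : (Φ * Nn).trace • Nn = 0 := by
  rw [← mul_mul_self Φ Nn htr hdet, mul_assoc, hrel, mul_smul_comm, ← mul_assoc,
    sq_eq_zero Nn htr hdet]
  simp

/-- `(1 + q) Φ Nn = q tr (Φ Nn) + q (tr Φ) Nn`. -/
theorem one_add_smul_mul (htr : Nn.trace = 0) (hrel : Φ * Nn = q • (Nn * Φ)) :
    (1 + q) • (Φ * Nn)
      = (q * (Φ * Nn).trace) • (1 : Matrix (Fin 2) (Fin 2) A) + (q * Φ.trace) • Nn := by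
  have hanti := mul_add_mul_eq Φ Nn htr
  linear_combination (norm := module) q • hanti + hrel

/-- `(tr Φ) Φ Nn - (1 + q) (det Φ) Nn = q tr (Φ Nn) Φ`. -/
theorem trace_smul_mul_sub (htr : Nn.trace = 0) (hrel : Φ * Nn = q • (Nn * Φ)) :
    Φ.trace • (Φ * Nn) - ((1 + q) * Φ.det) • Nn = (q * (Φ * Nn).trace) • Φ := by
  have hkey := one_add_smul_mul q Φ Nn htr hrel
  have h1 := congrArg (fun X => Φ * X) hkey
  simp only [mul_smul_comm, mul_add, mul_one] at h1
  rw [← mul_assoc, mul_self_eq Φ, sub_mul, smul_mul_assoc, smul_mul_assoc, one_mul] at h1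
  linear_combination (norm := module) h1

/-- **the Steinberg function times `Nn`**. -/
theorem gSt_smul (htr : Nn.trace = 0) (hrel : Φ * Nn = q • (Nn * Φ)) :
    gSt q Φ • Nn
      = (q * (Φ * Nn).trace) • ((1 + q) • Φ - Φ.trace • (1 : Matrix (Fin 2) (Fin 2) A)) := by
  have hkey := one_add_smul_mul q Φ Nn htr hrel
  have hstep := trace_smul_mul_sub q Φ Nn htr hrel
  unfold gSt
  linear_combination (norm := module) (1 + q) • hstep - Φ.trace • hkey

/-- **F4**: the product of two entries of `Nn` kills the Steinberg function. -/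
theorem entry_mul_entry_mul_gSt (htr : Nn.trace = 0) (hdet : Nn.det = 0)
    (hrel : Φ * Nn = q • (Nn * Φ)) (i j k l : Fin 2) :
    Nn i j * Nn k l * gSt q Φ = 0 := by
  have h1 := congrFun (congrFun (gSt_smul q Φ Nn htr hrel) i) j
  have h2 := congrFun (congrFun (trace_smul_eq_zero q Φ Nn htr hdet hrel) k) l
  simp only [Matrix.smul_apply, Matrix.sub_apply, smul_eq_mul, Matrix.zero_apply] at h1 h2
  linear_combination Nn k l * h1 +
    (q * ((1 + q) * Φ i j - Φ.trace * (1 : Matrix (Fin 2) (Fin 2) A) i j)) * h2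

/-- for `a, b` in the ideal of the entries of `Nn`, `a b gSt = 0`. -/
theorem mul_mul_gSt_eq_zero (htr : Nn.trace = 0) (hdet : Nn.det = 0)
    (hrel : Φ * Nn = q • (Nn * Φ)) {a b : A} (ha : a ∈ entryIdeal Nn) (hb : b ∈ entryIdeal Nn) :
    a * b * gSt q Φ = 0 := by
  have key : ∀ i j, ∀ b ∈ entryIdeal Nn, Nn i j * b * gSt q Φ = 0 := by
    intro i j b hb
    refine Submodule.span_induction ?_ ?_ ?_ ?_ hb
    · rintro _ ⟨⟨k, l⟩, rfl⟩
      exact entry_mul_entry_mul_gSt q Φ Nn htr hdet hrel i j k l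
    · simp
    · intro x y _ _ hx hy
      rw [mul_add, add_mul, hx, hy, add_zero]
    · intro r x _ hx
      rw [smul_eq_mul]
      linear_combination r * hx
  refine Submodule.span_induction ?_ ?_ ?_ ?_ ha
  · rintro _ ⟨⟨i, j⟩, rfl⟩
    exact key i j b hb
  · simp
  · intro x y _ _ hx hy
    rw [add_mul, add_mul, hx, hy, add_zero]
  · intro r x _ hx
    rw [smul_eq_mul]
    linear_combination r * hx

/-- `(a gSt)^2 = 0` for `a` in the ideal of the entries of `Nn`. -/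
theorem mul_gSt_sq_eq_zero (htr : Nn.trace = 0) (hdet : Nn.det = 0)
    (hrel : Φ * Nn = q • (Nn * Φ)) {a : A} (ha : a ∈ entryIdeal Nn) :
    (a * gSt q Φ) ^ 2 = 0 := by
  have h := mul_mul_gSt_eq_zero q Φ Nn htr hdet hrel ha ha
  linear_combination gSt q Φ * h

/-- **`hIg` of `Patch/Avoid`**: `a gSt` is nilpotent for `a` in the ideal of the entries. -/
theorem isNilpotent_mul_gSt (htr : Nn.trace = 0) (hdet : Nn.det = 0)
    (hrel : Φ * Nn = q • (Nn * Φ)) {a : A} (ha : a ∈ entryIdeal Nn) :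
    IsNilpotent (a * gSt q Φ) :=
  ⟨2, mul_gSt_sq_eq_zero q Φ Nn htr hdet hrel ha⟩

end Identities

end Fermat.Agent.S43.Local.Unip
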